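/-
Program B' (S34), leaf L3-CONN (helper77): the hypothesis `hconst` of
`Fermat.Agent.S34.H10.cech_charts_semilocal` for a special fibre with TWO components.

Setting: two charts `C₁ ∋ j`, `C₂ ∋ j⁻¹` over a discrete valuation ring `A₀`, glued along `j`,
`C₁` finite over `A₀[j]`, both `ϖ`-saturated in a subalgebra `O` (in the application
`O = O₁ ⊓ O₂`, the intersection of the two Gauss valuation rings `V₁`, `V₂` of the components
`Z₁`, `Z₂` of the special fibre).  The residue fields of the components only give a constant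
`a₁` on `Z₁` and a constant `a₂` on `Z₂` for a function which is regular on both charts modulo
`ϖ`; that `a₁ = a₂` is the CONNECTEDNESS of the special fibre.  It is proved here by lifting
idempotents along the two-chart Čech complex (`S18.H47.cech_lift`, whose input is the finite
generation of `C₁[1/j] / (C₁ + C₂)`, `S18.H30.cech_fg_two_chart`): a function `≡ 1` on `Z₁` and
`≡ 0` on `Z₂` would lift to an element of `C₁ ∩ C₂ = A₀`, which is absurd.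

No node count and no explicit supersingular point are used.

Main results:
* `cech_fg_charts` — `C₁[1/j] ≤ C₁ + C₂ + (finitely generated)`;
* `no_split_idempotent` — there is no pair `ε₁ ∈ C₁`, `ε₂ ∈ C₂` with `ε_i ≡ 1` on `Z₁` and
  `ε_i ≡ 0` on `Z₂`;
* `hconst_of_components` — the hypothesis `hconst` of `cech_charts_semilocal`;
* `exists_mem_of_components` — the two components meet on one of the charts (existence of a
  crossing point), in elementwise form.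
-/
import Fermat.Agent.S18.H86.CechCharts
import Fermat.Agent.S18.H47.Cech

set_option autoImplicit false

noncomputable section

namespace Fermat.Agent.S34.H77

open Fermat.Agent.S18.H47 Fermat.Agent.S18.H86

section Val

variable {F : Type*} [Field F]

/-- `v (x * y) < 1` from `v x < 1`, `y ∈ V`. -/
theorem val_mul_lt_one (V : ValuationSubring F) {x y : F} (hx : V.valuation x < 1)
    (hy : y ∈ V) : V.valuation (x * y) < 1 := by
  rw [map_mul]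
  have hy' : V.valuation y ≤ 1 := (V.valuation_le_one_iff y).mpr hy
  calc V.valuation x * V.valuation y ≤ V.valuation x * 1 := mul_le_mul' le_rfl hy'
    _ = V.valuation x := mul_one _
    _ < 1 := hx

/-- `v (y * x) < 1` from `v x < 1`, `y ∈ V`. -/
theorem val_mul_lt_one' (V : ValuationSubring F) {x y : F} (hx : V.valuation x < 1)
    (hy : y ∈ V) : V.valuation (y * x) < 1 := by
  rw [mul_comm]
  exact val_mul_lt_one V hx hy

end Val

variable {A₀ : Type*} [CommRing A₀] [IsDomain A₀] [IsDiscreteValuationRing A₀]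
  {F : Type*} [Field F] [Algebra A₀ F]

/-- **Finiteness of the two-chart Čech cohomology**: `C₁[1/j] ≤ C₁ + C₂ + (finitely generated)`
for two charts glued along `j`, the first one finite over `A₀[j]`. -/
theorem cech_fg_charts (j : F) (hj0 : j ≠ 0) (C₁ C₂ : Subalgebra A₀ F)
    (hj₁ : j ∈ C₁) (hj₂ : j⁻¹ ∈ C₂)
    (hfin₁ : ∃ s : Finset F, (C₁ : Set F) =
      Submodule.span (Algebra.adjoin A₀ ({j} : Set F)) (s : Set F))
    (hglue : ∀ x : F, (∃ n : ℕ, j ^ n * x ∈ C₁) ↔ (∃ n : ℕ, j⁻¹ ^ n * x ∈ C₂)) :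
    ∃ S : Finset F, Subalgebra.toSubmodule (glueAlg j C₁ hj₁) ≤
      Subalgebra.toSubmodule C₁ ⊔ Subalgebra.toSubmodule C₂ ⊔ Submodule.span A₀ (S : Set F) := by
  classical
  obtain ⟨T, hTN, hTspan⟩ := exists_finset_span_pow j C₁ hj₁ hfin₁ (Subalgebra.toSubmodule C₁)
    (fun c hc x hx => C₁.mul_mem hc hx) 1 one_ne_zero (fun x hx => by
      rw [one_mul]
      exact hx)
  refine Fermat.Agent.S18.H30.cech_fg_two_chart j j⁻¹ (mul_inv_cancel₀ hj0)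
    (Subalgebra.toSubmodule C₁) (Subalgebra.toSubmodule C₂)
    (Subalgebra.toSubmodule (glueAlg j C₁ hj₁)) T hTspan ?_ ?_ ?_
  · intro μ hμ s
    exact C₁.mul_mem (C₁.pow_mem hj₁ s) (hTN μ hμ)
  · intro μ hμ
    obtain ⟨n₀, hn₀⟩ := (hglue μ).mp ⟨0, by rw [pow_zero, one_mul]; exact hTN μ hμ⟩
    refine ⟨n₀, fun t ht => ?_⟩
    obtain ⟨l, rfl⟩ := Nat.exists_eq_add_of_le ht
    have e : j⁻¹ ^ (n₀ + l) * μ = j⁻¹ ^ l * (j⁻¹ ^ n₀ * μ) := by ring
    rw [e]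
    exact C₂.mul_mem (C₂.pow_mem hj₂ l) hn₀
  · rintro y ⟨n, hn⟩
    exact ⟨n, hn⟩

section Main

variable (ϖ : A₀) (hϖ : Irreducible ϖ) (j : F) (hj0 : j ≠ 0)
  (C₁ C₂ : Subalgebra A₀ F) (hj₁ : j ∈ C₁) (hj₂ : j⁻¹ ∈ C₂)
  (hfin₁ : ∃ s : Finset F, (C₁ : Set F) =
    Submodule.span (Algebra.adjoin A₀ ({j} : Set F)) (s : Set F))
  (hglue : ∀ x : F, (∃ n : ℕ, j ^ n * x ∈ C₁) ↔ (∃ n : ℕ, j⁻¹ ^ n * x ∈ C₂))
  (O : Subalgebra A₀ F) (hC₁O : C₁ ≤ O) (hC₂O : C₂ ≤ O) (hjO : j⁻¹ ∈ O)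
  (hsat₁ : ∀ x ∈ O, ϖ • x ∈ C₁ → x ∈ C₁) (hsat₂ : ∀ x ∈ O, ϖ • x ∈ C₂ → x ∈ C₂)
  (V₁ V₂ : ValuationSubring F) (hOV₁ : ∀ x ∈ O, x ∈ V₁) (hOV₂ : ∀ x ∈ O, x ∈ V₂)
  (hϖV₁ : V₁.valuation (algebraMap A₀ F ϖ) < 1) (hϖV₂ : V₂.valuation (algebraMap A₀ F ϖ) < 1)
  (hred : ∀ x ∈ O, V₁.valuation x < 1 → V₂.valuation x < 1 → Dv ϖ O x)
  (hinter : ∀ c ∈ C₁, c ∈ C₂ → ∃ a : A₀, c = algebraMap A₀ F a)

include hϖ hj0 hj₁ hj₂ hfin₁ hglue hC₁O hC₂O hsat₁ hsat₂ hOV₁ hOV₂ hϖV₁ hϖV₂ hred hinter in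
/-- **No split idempotent**: there are no `ε₁ ∈ C₁`, `ε₂ ∈ C₂`, both `≡ 1` on the first
component and `≡ 0` on the second one.  (Connectedness of the special fibre.) -/
theorem no_split_idempotent (ε₁ ε₂ : F) (h₁ : ε₁ ∈ C₁) (h₂ : ε₂ ∈ C₂)
    (h₁₁ : V₁.valuation (ε₁ - 1) < 1) (h₁₂ : V₂.valuation ε₁ < 1)
    (h₂₁ : V₁.valuation (ε₂ - 1) < 1) (h₂₂ : V₂.valuation ε₂ < 1) : False := by
  classical
  have hC₁le : C₁ ≤ glueAlg j C₁ hj₁ := fun y hy => ⟨0, by rw [pow_zero, one_mul]; exact hy⟩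
  have hC₂le : C₂ ≤ glueAlg j C₁ hj₁ := fun y hy =>
    (hglue y).mpr ⟨0, by rw [pow_zero, one_mul]; exact hy⟩
  have hjOn : ∀ n : ℕ, j ^ n ∈ O := fun n => O.pow_mem (hC₁O hj₁) n
  have satC₁₂ : ∀ x ∈ O, ϖ • x ∈ glueAlg j C₁ hj₁ → x ∈ glueAlg j C₁ hj₁ := by
    rintro x hx ⟨n, hn⟩
    refine ⟨n, hsat₁ _ (O.mul_mem (hjOn n) hx) ?_⟩
    rw [mul_smul_comm] at hn
    exact hn
  -- idempotency modulo `ϖ`
  have hid : ∀ (C : Subalgebra A₀ F), C ≤ O → (∀ x ∈ O, ϖ • x ∈ C → x ∈ C) → ∀ ε ∈ C,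
      V₁.valuation (ε - 1) < 1 → V₂.valuation ε < 1 → ∃ w ∈ C, ε ^ 2 - ε = ϖ • w := by
    intro C hCO hsat ε hε hε1 hε2
    have e : ε ^ 2 - ε = (ε - 1) * ε := by ring
    have hεO : ε ∈ O := hCO hε
    have hv1 : V₁.valuation (ε ^ 2 - ε) < 1 := by
      rw [e]
      exact val_mul_lt_one V₁ hε1 (hOV₁ ε hεO)
    have hv2 : V₂.valuation (ε ^ 2 - ε) < 1 := by
      rw [e]
      exact val_mul_lt_one' V₂ hε2 (hOV₂ _ (O.sub_mem hεO O.one_mem))
    have hmemC : ε ^ 2 - ε ∈ C := C.sub_mem (C.pow_mem hε 2) hε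
    obtain ⟨d, hd, hde⟩ := hred _ (hCO hmemC) hv1 hv2
    exact ⟨d, hsat d hd (hde ▸ hmemC), hde⟩
  obtain ⟨S, hS⟩ := cech_fg_charts j hj0 C₁ C₂ hj₁ hj₂ hfin₁ hglue
  -- congruence on the overlap
  have h12 : ∃ w ∈ glueAlg j C₁ hj₁, ε₁ - ε₂ = ϖ • w := by
    have hO : ε₁ - ε₂ ∈ O := O.sub_mem (hC₁O h₁) (hC₂O h₂)
    have hv1 : V₁.valuation (ε₁ - ε₂) < 1 := by
      have e : ε₁ - ε₂ = (ε₁ - 1) - (ε₂ - 1) := by ring
      rw [e]
      exact Valuation.map_sub_lt _ h₁₁ h₂₁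
    have hv2 : V₂.valuation (ε₁ - ε₂) < 1 := Valuation.map_sub_lt _ h₁₂ h₂₂
    obtain ⟨d, hd, hde⟩ := hred _ hO hv1 hv2
    refine ⟨d, satC₁₂ d hd ?_, hde⟩
    rw [← hde]
    exact (glueAlg j C₁ hj₁).sub_mem (hC₁le h₁) (hC₂le h₂)
  obtain ⟨G, hG₁, hG₂, w, hw, hGw⟩ := cech_lift ϖ C₁ C₂ (glueAlg j C₁ hj₁) hC₁le hC₂le S hS
    ε₁ ε₂ h₁ h₂ (hid C₁ hC₁O hsat₁ ε₁ h₁ h₁₁ h₁₂) (hid C₂ hC₂O hsat₂ ε₂ h₂ h₂₁ h₂₂) h12
  obtain ⟨a, rfl⟩ := hinter G hG₁ hG₂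
  -- `G ≡ ε₁` on both components
  have ha1 : V₁.valuation (algebraMap A₀ F a - 1) < 1 := by
    have e : algebraMap A₀ F a - 1 = (algebraMap A₀ F a - ε₁) + (ε₁ - 1) := by ring
    rw [e]
    refine Valuation.map_add_lt _ ?_ h₁₁
    rw [hGw, Algebra.smul_def]
    exact val_mul_lt_one V₁ hϖV₁ (hOV₁ w (hC₁O hw))
  have ha2 : V₂.valuation (algebraMap A₀ F a) < 1 := by
    have e : algebraMap A₀ F a = (algebraMap A₀ F a - ε₁) + ε₁ := by ring
    rw [e]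
    refine Valuation.map_add_lt _ ?_ h₁₂
    rw [hGw, Algebra.smul_def]
    exact val_mul_lt_one V₂ hϖV₂ (hOV₂ w (hC₁O hw))
  by_cases hau : IsUnit a
  · -- a unit of `A₀` is a unit of `V₂`
    obtain ⟨b, hb⟩ := hau.exists_right_inv
    have h := val_mul_lt_one V₂ ha2 (hOV₂ _ (O.algebraMap_mem b))
    rw [← map_mul, hb, map_one, map_one] at h
    exact lt_irrefl _ h
  · -- a non-unit of `A₀` is `≡ 0` on the first component, but `a ≡ 1` there
    have hmem : a ∈ IsLocalRing.maximalIdeal A₀ := (IsLocalRing.mem_maximalIdeal a).mpr hau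
    rw [hϖ.maximalIdeal_eq] at hmem
    obtain ⟨b, rfl⟩ := Ideal.mem_span_singleton.mp hmem
    have hva : V₁.valuation (algebraMap A₀ F (ϖ * b)) < 1 := by
      rw [map_mul]
      exact val_mul_lt_one V₁ hϖV₁ (hOV₁ _ (O.algebraMap_mem b))
    have h1 : V₁.valuation (1 : F) < 1 := by
      have e : (1 : F) = algebraMap A₀ F (ϖ * b) - (algebraMap A₀ F (ϖ * b) - 1) := by ring
      rw [e]
      exact Valuation.map_sub_lt _ hva ha1
    rw [map_one] at h1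
    exact lt_irrefl _ h1

include hϖ hj0 hj₁ hj₂ hfin₁ hglue hC₁O hC₂O hsat₁ hsat₂ hOV₁ hOV₂ hϖV₁ hϖV₂ hred hinter in
/-- **The hypothesis `hconst` of `cech_charts_semilocal` for a two-component special fibre.**
`hk₁`, `hk₂`: a function regular on both charts modulo the `i`-th component is constant on that
component (the constant field `A₀ / ϖ` is algebraically closed in the residue field of `V_i`).
Then a function regular on both charts modulo `ϖ` is constant modulo `ϖ`. -/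
theorem hconst_of_components
    (hk₁ : ∀ c₁ ∈ C₁, ∀ c₂ ∈ C₂, V₁.valuation (c₁ - c₂) < 1 →
      ∃ a : A₀, V₁.valuation (c₁ - algebraMap A₀ F a) < 1)
    (hk₂ : ∀ c₁ ∈ C₁, ∀ c₂ ∈ C₂, V₂.valuation (c₁ - c₂) < 1 →
      ∃ a : A₀, V₂.valuation (c₁ - algebraMap A₀ F a) < 1) :
    ∀ c₁ ∈ C₁, ∀ c₂ ∈ C₂, Dv ϖ O (c₁ - c₂) → ∃ a : A₀, Dv ϖ O (c₁ - algebraMap A₀ F a) := by
  intro c₁ hc₁ c₂ hc₂ hd
  obtain ⟨d, hdO, hde⟩ := hd
  have hv1 : V₁.valuation (c₁ - c₂) < 1 := by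
    rw [hde, Algebra.smul_def]
    exact val_mul_lt_one V₁ hϖV₁ (hOV₁ d hdO)
  have hv2 : V₂.valuation (c₁ - c₂) < 1 := by
    rw [hde, Algebra.smul_def]
    exact val_mul_lt_one V₂ hϖV₂ (hOV₂ d hdO)
  obtain ⟨a₁, ha₁⟩ := hk₁ c₁ hc₁ c₂ hc₂ hv1
  obtain ⟨a₂, ha₂⟩ := hk₂ c₁ hc₁ c₂ hc₂ hv2
  by_cases hu : IsUnit (a₁ - a₂)
  · -- the two constants differ: a split idempotent
    exfalso
    obtain ⟨e, he⟩ := hu.exists_right_inv
    have heF : algebraMap A₀ F a₁ - algebraMap A₀ F a₂ = (algebraMap A₀ F e)⁻¹ := by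
      have h1 : (algebraMap A₀ F a₁ - algebraMap A₀ F a₂) * algebraMap A₀ F e = 1 := by
        rw [← map_sub, ← map_mul, he, map_one]
      exact eq_inv_of_mul_eq_one_left h1
    have he0 : algebraMap A₀ F e ≠ 0 := by
      intro h0
      have h1 : (algebraMap A₀ F a₁ - algebraMap A₀ F a₂) * algebraMap A₀ F e = 1 := by
        rw [← map_sub, ← map_mul, he, map_one]
      rw [h0, mul_zero] at h1
      exact zero_ne_one h1
    have heO : algebraMap A₀ F e ∈ O := O.algebraMap_mem e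
    have hone : algebraMap A₀ F e * (algebraMap A₀ F a₁ - algebraMap A₀ F a₂) = 1 := by
      rw [heF, mul_inv_cancel₀ he0]
    refine no_split_idempotent ϖ hϖ j hj0 C₁ C₂ hj₁ hj₂ hfin₁ hglue O hC₁O hC₂O hsat₁ hsat₂
      V₁ V₂ hOV₁ hOV₂ hϖV₁ hϖV₂ hred hinter
      (algebraMap A₀ F e * (c₁ - algebraMap A₀ F a₂))
      (algebraMap A₀ F e * (c₂ - algebraMap A₀ F a₂))
      (C₁.mul_mem (C₁.algebraMap_mem e) (C₁.sub_mem hc₁ (C₁.algebraMap_mem a₂)))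
      (C₂.mul_mem (C₂.algebraMap_mem e) (C₂.sub_mem hc₂ (C₂.algebraMap_mem a₂))) ?_ ?_ ?_ ?_
    · have e1 : algebraMap A₀ F e * (c₁ - algebraMap A₀ F a₂) - 1
          = algebraMap A₀ F e * (c₁ - algebraMap A₀ F a₁) := by
        rw [← hone]
        ring
      rw [e1]
      exact val_mul_lt_one' V₁ ha₁ (hOV₁ _ heO)
    · exact val_mul_lt_one' V₂ ha₂ (hOV₂ _ heO)
    · have e1 : algebraMap A₀ F e * (c₂ - algebraMap A₀ F a₂) - 1
          = algebraMap A₀ F e * ((c₁ - algebraMap A₀ F a₁) - (c₁ - c₂)) := by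
        rw [← hone]
        ring
      rw [e1]
      exact val_mul_lt_one' V₁ (Valuation.map_sub_lt _ ha₁ hv1) (hOV₁ _ heO)
    · have e1 : algebraMap A₀ F e * (c₂ - algebraMap A₀ F a₂)
          = algebraMap A₀ F e * ((c₁ - algebraMap A₀ F a₂) - (c₁ - c₂)) := by ring
      rw [e1]
      exact val_mul_lt_one' V₂ (Valuation.map_sub_lt _ ha₂ hv2) (hOV₂ _ heO)
  · -- the two constants agree modulo `ϖ`
    have hmem : a₁ - a₂ ∈ IsLocalRing.maximalIdeal A₀ := (IsLocalRing.mem_maximalIdeal _).mpr hu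
    rw [hϖ.maximalIdeal_eq] at hmem
    obtain ⟨b, hb⟩ := Ideal.mem_span_singleton.mp hmem
    refine ⟨a₁, hred _ (O.sub_mem (hC₁O hc₁) (O.algebraMap_mem a₁)) ha₁ ?_⟩
    have e1 : c₁ - algebraMap A₀ F a₁ = (c₁ - algebraMap A₀ F a₂) - algebraMap A₀ F (ϖ * b) := by
      rw [← hb, map_sub]
      ring
    rw [e1]
    refine Valuation.map_sub_lt _ ha₂ ?_
    rw [map_mul]
    exact val_mul_lt_one V₂ hϖV₂ (hOV₂ _ (O.algebraMap_mem b))

include hϖ hj0 hj₁ hj₂ hfin₁ hglue hC₁O hC₂O hsat₁ hsat₂ hOV₁ hOV₂ hϖV₁ hϖV₂ hred hinter in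
/-- **The two components meet** on one of the two charts: there is a maximal ideal of `C₁` or
of `C₂` containing every element which vanishes on one of the components. -/
theorem exists_maximal_of_components :
    (∃ x : Ideal ↥C₁, x.IsMaximal ∧ ∀ c : ↥C₁,
      (V₁.valuation (c : F) < 1 ∨ V₂.valuation (c : F) < 1) → c ∈ x) ∨
    (∃ x : Ideal ↥C₂, x.IsMaximal ∧ ∀ c : ↥C₂,
      (V₁.valuation (c : F) < 1 ∨ V₂.valuation (c : F) < 1) → c ∈ x) := by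
  classical
  -- the sum of the two component ideals of a chart
  have key : ∀ (C : Subalgebra A₀ F), C ≤ O →
      (∃ x : Ideal ↥C, x.IsMaximal ∧ ∀ c : ↥C,
        (V₁.valuation (c : F) < 1 ∨ V₂.valuation (c : F) < 1) → c ∈ x) ∨
      (∃ p₁ ∈ C, ∃ p₂ ∈ C, V₁.valuation p₁ < 1 ∧ V₂.valuation p₂ < 1 ∧ p₁ + p₂ = 1) := by
    intro C hCO
    let I : Ideal ↥C :=
      { carrier := {c | ∃ p₁ ∈ C, ∃ p₂ ∈ C, V₁.valuation p₁ < 1 ∧ V₂.valuation p₂ < 1 ∧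
          p₁ + p₂ = (c : F)}
        zero_mem' := ⟨0, C.zero_mem, 0, C.zero_mem, by simp, by simp, by simp⟩
        add_mem' := by
          rintro c c' ⟨p₁, hp₁, p₂, hp₂, h1, h2, e⟩ ⟨p₁', hp₁', p₂', hp₂', h1', h2', e'⟩
          refine ⟨p₁ + p₁', C.add_mem hp₁ hp₁', p₂ + p₂', C.add_mem hp₂ hp₂',
            Valuation.map_add_lt _ h1 h1', Valuation.map_add_lt _ h2 h2', ?_⟩
          push_cast
          rw [← e, ← e']
          ring
        smul_mem' := by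
          rintro c' c ⟨p₁, hp₁, p₂, hp₂, h1, h2, e⟩
          refine ⟨(c' : F) * p₁, C.mul_mem c'.2 hp₁, (c' : F) * p₂, C.mul_mem c'.2 hp₂,
            val_mul_lt_one' V₁ h1 (hOV₁ _ (hCO c'.2)), val_mul_lt_one' V₂ h2 (hOV₂ _ (hCO c'.2)),
            ?_⟩
          rw [smul_eq_mul]
          push_cast
          rw [← e]
          ring }
    by_cases hI : I = ⊤
    · right
      have h1 : (1 : ↥C) ∈ I := by
        rw [hI]
        trivial
      obtain ⟨p₁, hp₁, p₂, hp₂, h1, h2, e⟩ := h1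
      exact ⟨p₁, hp₁, p₂, hp₂, h1, h2, by rw [e]; rfl⟩
    · left
      obtain ⟨x, hxmax, hIx⟩ := Ideal.exists_le_maximal I hI
      refine ⟨x, hxmax, fun c hc => hIx ?_⟩
      rcases hc with hc | hc
      · exact ⟨c, c.2, 0, C.zero_mem, hc, by simp, by simp⟩
      · exact ⟨0, C.zero_mem, c, c.2, by simp, hc, by simp⟩
  rcases key C₁ hC₁O with h | ⟨p₁, hp₁, p₂, hp₂, h1, h2, e⟩
  · exact Or.inl h
  rcases key C₂ hC₂O with h | ⟨p₁', hp₁', p₂', hp₂', h1', h2', e'⟩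
  · exact Or.inr h
  exfalso
  refine no_split_idempotent ϖ hϖ j hj0 C₁ C₂ hj₁ hj₂ hfin₁ hglue O hC₁O hC₂O hsat₁ hsat₂
    V₁ V₂ hOV₁ hOV₂ hϖV₁ hϖV₂ hred hinter p₂ p₂' hp₂ hp₂' ?_ h2 ?_ h2'
  · have e1 : p₂ - 1 = -p₁ := by
      rw [← e]
      ring
    rw [e1, Valuation.map_neg]
    exact h1
  · have e1 : p₂' - 1 = -p₁' := by
      rw [← e']
      ring
    rw [e1, Valuation.map_neg]
    exact h1'

end Main

end Fermat.Agent.S34.H77
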