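/-
Program B' (S34) (helper77): Step 2 for two Gauss rings WITHOUT a crossing-point hypothesis.

`Fermat.Agent.S34.H10.exists_pow_mul_mem_of_cartier_two` (helper10) asks for one crossing point
`hnode` of the first chart to glue the constants of the two components.  Here `hnode` is replaced
by `hinter : C₁ ∩ C₂ = A₀` (the global functions are the constants), which the geometry side has
anyway: the connectedness of the special fibre is then a THEOREM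
(`Fermat.Agent.S34.H77.hconst_of_components`, idempotent lifting), and no supersingular point has
to be exhibited.
-/
import Fermat.Agent.S34.H10.TwoGauss
import Fermat.Agent.S34.H77.Conn

set_option autoImplicit false

noncomputable section

namespace Fermat.Agent.S34.H77

open Fermat.Agent.S18.H47 Fermat.Agent.S18.H86 Fermat.Agent.S34.H10

/-- **Step 2 for two Gauss rings, connectedness included.**  Same statement as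
`H10.exists_pow_mul_mem_of_cartier_two`, with the crossing point `hnode` replaced by
`hinter : C₁ ∩ C₂ = A₀`. -/
theorem exists_pow_mul_mem_of_cartier_two_inter
    {A₀ : Type*} [CommRing A₀] [IsDomain A₀] [IsDiscreteValuationRing A₀]
    {F : Type*} [Field F] [Algebra A₀ F] [FaithfulSMul A₀ F]
    (ϖ : A₀) (hϖ : Irreducible ϖ) (m : ℕ) (hm : IsUnit (m : A₀)) (j : F) (hj0 : j ≠ 0)
    (C₁ C₂ : Subalgebra A₀ F) [IsIntegrallyClosed ↥C₁] [IsIntegrallyClosed ↥C₂]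
    (hj₁ : j ∈ C₁) (hj₂ : j⁻¹ ∈ C₂)
    (hfin₁ : ∃ s : Finset F, (C₁ : Set F) =
      Submodule.span (Algebra.adjoin A₀ ({j} : Set F)) (s : Set F))
    (hfrac : ∀ x : F, ∃ a ∈ C₁, ∃ b ∈ C₁, b ≠ 0 ∧ x = a / b)
    (hglue : ∀ x : F, (∃ n : ℕ, j ^ n * x ∈ C₁) ↔ (∃ n : ℕ, j⁻¹ ^ n * x ∈ C₂))
    (V₁ V₂ : ValuationSubring F) (hu₁ : IsUnif ϖ V₁) (hu₂ : IsUnif ϖ V₂)
    (hC₁V₁ : ∀ c ∈ C₁, c ∈ V₁) (hC₁V₂ : ∀ c ∈ C₁, c ∈ V₂)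
    (hC₂V₁ : ∀ c ∈ C₂, c ∈ V₁) (hC₂V₂ : ∀ c ∈ C₂, c ∈ V₂)
    (hjV₁ : j⁻¹ ∈ V₁) (hjV₂ : j⁻¹ ∈ V₂)
    (hsat₁ : ∀ y : F, y ∈ V₁ → y ∈ V₂ → ϖ • y ∈ C₁ → y ∈ C₁)
    (hsat₂ : ∀ y : F, y ∈ V₁ → y ∈ V₂ → ϖ • y ∈ C₂ → y ∈ C₂)
    (hconst₁ : ∀ c₁ ∈ C₁, ∀ c₂ ∈ C₂, c₁ - c₂ ∈ V₁.nonunits →
      ∃ a : A₀, c₁ - algebraMap A₀ F a ∈ V₁.nonunits)
    (hconst₂ : ∀ c₁ ∈ C₁, ∀ c₂ ∈ C₂, c₁ - c₂ ∈ V₂.nonunits →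
      ∃ a : A₀, c₁ - algebraMap A₀ F a ∈ V₂.nonunits)
    (hinter : ∀ c ∈ C₁, c ∈ C₂ → ∃ a : A₀, c = algebraMap A₀ F a)
    (τ : F ≃+* F) (hτC₁ : ∀ c ∈ C₁, τ c ∈ C₁) (hτC₂ : ∀ c ∈ C₂, τ c ∈ C₂)
    (hτV₁ : ∀ y ∈ V₁, τ y ∈ V₁) (hτV₂ : ∀ y ∈ V₂, τ y ∈ V₂)
    (hτ1₁ : ∀ y ∈ V₁, τ y - y ∈ V₁.nonunits) (hτ1₂ : ∀ y ∈ V₂, τ y - y ∈ V₂.nonunits)
    (u g₀ : F) (hu0 : u ≠ 0) (hg₀ : g₀ ≠ 0)
    (hε₁ : u / g₀ ^ m ∈ V₁) (hε₁' : (u / g₀ ^ m)⁻¹ ∈ V₁)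
    (hε₂ : u / g₀ ^ m ∈ V₂) (hε₂' : (u / g₀ ^ m)⁻¹ ∈ V₂)
    (hcart₁ : ∀ x : Ideal ↥C₁, x.IsMaximal → algebraMap A₀ ↥C₁ ϖ ∈ x →
      ∃ g : F, g ≠ 0 ∧ ∃ a b : ↥C₁, a ∉ x ∧ b ∉ x ∧ u * (b : F) = (a : F) * g ^ m)
    (hcart₂ : ∀ x : Ideal ↥C₂, x.IsMaximal → algebraMap A₀ ↥C₂ ϖ ∈ x →
      ∃ g : F, g ≠ 0 ∧ ∃ a b : ↥C₂, a ∉ x ∧ b ∉ x ∧ u * (b : F) = (a : F) * g ^ m) :
    ∃ h : F, h ≠ 0 ∧ τ u / u * h ^ m ∈ C₁ ∧ τ u / u * h ^ m ∈ C₂ := by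
  have hϖ0 : algebraMap A₀ F ϖ ≠ 0 := fun h0 =>
    hϖ.ne_zero (FaithfulSMul.algebraMap_injective A₀ F (by rw [h0, map_zero]))
  have hm0 : m ≠ 0 := by
    rintro rfl
    rw [Nat.cast_zero] at hm
    exact not_isUnit_zero hm
  have hA₁ : ∀ a : A₀, algebraMap A₀ F a ∈ V₁ := fun a => hC₁V₁ _ (C₁.algebraMap_mem a)
  have hA₂ : ∀ a : A₀, algebraMap A₀ F a ∈ V₂ := fun a => hC₁V₂ _ (C₁.algebraMap_mem a)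
  have hdv : ∀ y : F, Dv ϖ (interAlg V₁ V₂ hA₁ hA₂) y ↔ y ∈ V₁.nonunits ∧ y ∈ V₂.nonunits :=
    fun y => dv_interAlg_iff hu₁ hu₂ hϖ0
  have hϖ₁ : algebraMap A₀ F ϖ ∈ V₁.nonunits :=
    (hu₁ _).2 ⟨1, V₁.one_mem, by rw [Algebra.smul_def, mul_one]⟩
  have hϖ₂ : algebraMap A₀ F ϖ ∈ V₂.nonunits :=
    (hu₂ _).2 ⟨1, V₂.one_mem, by rw [Algebra.smul_def, mul_one]⟩
  have hC₁O : C₁ ≤ interAlg V₁ V₂ hA₁ hA₂ := fun c hc => ⟨hC₁V₁ c hc, hC₁V₂ c hc⟩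
  have hC₂O : C₂ ≤ interAlg V₁ V₂ hA₁ hA₂ := fun c hc => ⟨hC₂V₁ c hc, hC₂V₂ c hc⟩
  have hsat₁' : ∀ y ∈ interAlg V₁ V₂ hA₁ hA₂, ϖ • y ∈ C₁ → y ∈ C₁ :=
    fun y hy h => hsat₁ y hy.1 hy.2 h
  have hsat₂' : ∀ y ∈ interAlg V₁ V₂ hA₁ hA₂, ϖ • y ∈ C₂ → y ∈ C₂ :=
    fun y hy h => hsat₂ y hy.1 hy.2 h
  refine exists_pow_mul_mem_of_cartier ϖ hϖ m hm j hj0 C₁ C₂ hj₁ hj₂ hfin₁ hfrac hglue
    (interAlg V₁ V₂ hA₁ hA₂) hC₁O hC₂O ⟨hjV₁, hjV₂⟩ ?_ ?_ hsat₁' hsat₂' ?_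
    τ hτC₁ hτC₂ (fun y hy => ⟨hτV₁ y hy.1, hτV₂ y hy.2⟩)
    (fun y hy => (hdv _).2 ⟨hτ1₁ y hy.1, hτ1₂ y hy.2⟩)
    u g₀ hu0 hg₀ ⟨hε₁, hε₂⟩ ⟨hε₁', hε₂'⟩ hcart₁ hcart₂
  · -- `ϖ` is not a unit of `O`
    intro h
    have h1 := ((hdv 1).1 h).1
    rw [ValuationSubring.mem_nonunits_iff, map_one] at h1
    exact lt_irrefl _ h1
  · -- root closedness
    intro z hz
    exact ⟨mem_valuationSubring_of_pow_mem V₁ hm0 hz.1, mem_valuationSubring_of_pow_mem V₂ hm0 hz.2⟩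
  · -- constants: connectedness of the special fibre
    refine hconst_of_components ϖ hϖ j hj0 C₁ C₂ hj₁ hj₂ hfin₁ hglue (interAlg V₁ V₂ hA₁ hA₂)
      hC₁O hC₂O hsat₁' hsat₂' V₁ V₂ (fun x hx => hx.1) (fun x hx => hx.2)
      ((ValuationSubring.mem_nonunits_iff _).1 hϖ₁) ((ValuationSubring.mem_nonunits_iff _).1 hϖ₂)
      (fun x _ h1 h2 => (hdv x).2 ⟨(ValuationSubring.mem_nonunits_iff _).2 h1,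
        (ValuationSubring.mem_nonunits_iff _).2 h2⟩) hinter ?_ ?_
    · intro c₁ hc₁ c₂ hc₂ h
      obtain ⟨a, ha⟩ := hconst₁ c₁ hc₁ c₂ hc₂ ((ValuationSubring.mem_nonunits_iff _).2 h)
      exact ⟨a, (ValuationSubring.mem_nonunits_iff _).1 ha⟩
    · intro c₁ hc₁ c₂ hc₂ h
      obtain ⟨a, ha⟩ := hconst₂ c₁ hc₁ c₂ hc₂ ((ValuationSubring.mem_nonunits_iff _).2 h)
      exact ⟨a, (ValuationSubring.mem_nonunits_iff _).1 ha⟩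

end Fermat.Agent.S34.H77
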