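/-
Program B' (S34), helper77: THE ROOT of Program B' from leaves RELATIVE to the base function.

`S34/H30/Leaves.lean` states the point leaves for every good level `M` and every base function
`x₀` with `H30.IsBase`.  Two inputs of their proofs are not available in that generality:

* the regular node at a crossing point needs that `Γ₀(M)` has no elliptic element
  (`H92.NoElliptic M`; the root has the auxiliary prime `r ≡ 11 mod 12`, `r ∣ M`, in hand);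
* the one-component points, the cusps and the crossing points use relations between `α x₀` and
  `β x₀` which depend on the base function (`x₀ = j`: the modular equation; Hauptmoduln for
  `q = 2, 3`).

Here the same root is proved from the leaves with two more hypotheses each:

* `LevelOK M q`  : `Γ₀(M)` has no elliptic element, `2 ∣ M` unless `q = 2`, `3 ∣ M` unless `q = 3`;
* `B M q x₀`     : a predicate on the base function, produced by the base leaf `BaseLeafB B`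
                   (to be chosen by the owner of the base leaf).

Every leaf of `Leaves.lean` implies its relative form (`chartLeafB_of`, …).
-/
import Fermat.Agent.S34.H30.Root
import Fermat.Agent.S34.H92.UnramFinal

set_option autoImplicit false
set_option linter.style.haveILetI false
set_option linter.unusedSectionVars false

open AlgebraicCurve ModularCurve

noncomputable section

namespace Fermat.Agent.S34.H77

open Fermat.Agent.S34.H27 Fermat.Agent.S34.H10 Fermat.Agent.S34.H7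
  Fermat.Agent.S18 Fermat.Agent.S18.H74 Fermat.Agent.S18.H19 Fermat.Agent.S34.H19
  Fermat.Agent.S34.H61 Fermat.Agent.S34.H64 Fermat.Agent.S34.H30

/-- The hypotheses on the good level `M` (prime to `q`) available at the root. -/
def LevelOK (M q : ℕ) : Prop :=
  Fermat.Agent.S34.H92.NoElliptic M ∧ (q ≠ 2 → 2 ∣ M) ∧ (q ≠ 3 → 3 ∣ M)

variable (B : (M q : ℕ) → FN M → Prop)

/-- **Leaf (L6), relative form**: an admissible base function with the property `B`. -/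
def BaseLeafB : Prop :=
  ∀ (M q : ℕ) [NeZero M] [Fact q.Prime] (hqM : ¬ q ∣ M), LevelOK M q →
    ∀ (A : ValuationSubring Kb) (hA : A.LiesOverPrime q),
      ∃ x₀ : FN M, IsBase M q hqM A hA x₀ ∧ B M q x₀

/-- **Leaf (M2), relative form.** -/
def ChartLeafB : Prop :=
  ∀ (M q : ℕ) [NeZero M] [Fact q.Prime] (hqM : ¬ q ∣ M), LevelOK M q →
    ∀ (A : ValuationSubring Kb) (hA : A.LiesOverPrime q) (x₀ : FN M),
      IsBase M q hqM A hA x₀ → B M q x₀ →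
    ∀ (K₀ : IntermediateField ℚ Kb) [FiniteDimensional ℚ K₀] [Normal ℚ K₀]
      (j : ↥(ratForm (M * q) K₀)), (j : FN (M * q)) = heckeAlphaBar Kb M q x₀ →
      letI := algComap (A.comap (algebraMap K₀ Kb)) (ratForm (M * q) K₀)
      Transcendental ↥(A.comap (algebraMap K₀ Kb)) j ∧
        Module.Finite ↥(ratSub ↥(A.comap (algebraMap K₀ Kb)) j) ↥(ratForm (M * q) K₀)

/-- **Leaf (M3), relative form.** -/
def SemiLeafB : Prop :=
  ∀ (M q : ℕ) [NeZero M] [Fact q.Prime] (hqM : ¬ q ∣ M), LevelOK M q →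
    ∀ (A : ValuationSubring Kb)
    (hA : A.LiesOverPrime q) (hAtop : A ≠ ⊤) (O₁ : ValuationSubring (FN (M * q)))
    (w : FN (M * q) ≃+* FN (M * q)), TwoGauss M q hqM A hA O₁ w →
    ∀ (x₀ : FN M), IsBase M q hqM A hA x₀ → B M q x₀ →
    ∀ (K₀ : IntermediateField ℚ Kb) [FiniteDimensional ℚ K₀] [Normal ℚ K₀]
      (ϖ : ↥(A.comap (algebraMap K₀ Kb))), Irreducible ϖ →
      ∀ (j : ↥(ratForm (M * q) K₀)), (j : FN (M * q)) = heckeAlphaBar Kb M q x₀ →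
      ∀ σ : Kb ≃ₐ[ℚ] Kb, (stdV M q A hAtop O₁ w K₀ ϖ j σ).Semi

/-- **Leaf (M6a), relative form.** -/
def OneCompLeafB : Prop :=
  ∀ (M q : ℕ) [NeZero M] [Fact q.Prime] (hqM : ¬ q ∣ M), LevelOK M q →
    ∀ (A : ValuationSubring Kb)
    (hA : A.LiesOverPrime q) (hAtop : A ≠ ⊤) (O₁ : ValuationSubring (FN (M * q)))
    (w : FN (M * q) ≃+* FN (M * q)), TwoGauss M q hqM A hA O₁ w →
    ∀ (x₀ : FN M), IsBase M q hqM A hA x₀ → B M q x₀ →
    ∀ (K₀ : IntermediateField ℚ Kb) [FiniteDimensional ℚ K₀] [Normal ℚ K₀]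
      (ϖ : ↥(A.comap (algebraMap K₀ Kb))), Irreducible ϖ →
      ∀ (j : ↥(ratForm (M * q) K₀)), (j : FN (M * q)) = heckeAlphaBar Kb M q x₀ →
      ∀ σ : Kb ≃ₐ[ℚ] Kb, (stdV M q A hAtop O₁ w K₀ ϖ j σ).OneComp

/-- **Leaf (M6c), relative form.** -/
def CuspLeafB : Prop :=
  ∀ (M q : ℕ) [NeZero M] [Fact q.Prime] (hqM : ¬ q ∣ M), LevelOK M q →
    ∀ (A : ValuationSubring Kb)
    (hA : A.LiesOverPrime q) (hAtop : A ≠ ⊤) (O₁ : ValuationSubring (FN (M * q)))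
    (w : FN (M * q) ≃+* FN (M * q)), TwoGauss M q hqM A hA O₁ w →
    ∀ (x₀ : FN M), IsBase M q hqM A hA x₀ → B M q x₀ →
    ∀ (K₀ : IntermediateField ℚ Kb) [FiniteDimensional ℚ K₀] [Normal ℚ K₀]
      (ϖ : ↥(A.comap (algebraMap K₀ Kb))), Irreducible ϖ →
      ∀ (j : ↥(ratForm (M * q) K₀)), (j : FN (M * q)) = heckeAlphaBar Kb M q x₀ →
      ∀ σ : Kb ≃ₐ[ℚ] Kb, (stdV M q A hAtop O₁ w K₀ ϖ j σ).Cusp

/-- **Leaf (M6b), relative form**: the crossing points, at a level without elliptic elements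
and for the base function of the base leaf. -/
def CrossLeafB : Prop :=
  ∀ (M q : ℕ) [NeZero M] [Fact q.Prime] (hqM : ¬ q ∣ M), LevelOK M q →
    ∀ (A : ValuationSubring Kb)
    (hA : A.LiesOverPrime q) (hAtop : A ≠ ⊤) (O₁ : ValuationSubring (FN (M * q)))
    (w : FN (M * q) ≃+* FN (M * q)), TwoGauss M q hqM A hA O₁ w →
    ∀ (x₀ : FN M), IsBase M q hqM A hA x₀ → B M q x₀ →
    ∀ (K₀ : IntermediateField ℚ Kb) [FiniteDimensional ℚ K₀] [Normal ℚ K₀]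
      (ϖ : ↥(A.comap (algebraMap K₀ Kb))), Irreducible ϖ →
      ∀ (j : ↥(ratForm (M * q) K₀)), (j : FN (M * q)) = heckeAlphaBar Kb M q x₀ →
      ∀ (σ : Kb ≃ₐ[ℚ] Kb) (m : ℕ) (u₀ : ↥(ratForm (M * q) K₀)), u₀ ≠ 0 →
        (stdV M q A hAtop O₁ w K₀ ϖ j σ).DivK m u₀ →
        (stdV M q A hAtop O₁ w K₀ ϖ j σ).RatK u₀ →
        (stdV M q A hAtop O₁ w K₀ ϖ j σ).Cross m u₀

/-! ### The landed leaves imply their relative forms -/

theorem baseLeafB_of (h : BaseLeaf) : BaseLeafB (fun _ _ _ => True) :=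
  fun M q _ _ hqM hlev A hA => by
    obtain ⟨x₀, hx₀⟩ := h M q hqM hlev.2.1 hlev.2.2 A hA
    exact ⟨x₀, hx₀, trivial⟩

theorem chartLeafB_of (h : ChartLeaf) : ChartLeafB B :=
  fun M q _ _ hqM _ A hA x₀ hx₀ _ K₀ _ _ j hj => h M q hqM A hA x₀ hx₀ K₀ j hj

theorem semiLeafB_of (h : SemiLeaf) : SemiLeafB B :=
  fun M q _ _ hqM _ A hA hAtop O₁ w hTG x₀ hx₀ _ K₀ _ _ ϖ hϖ j hj σ =>
    h M q hqM A hA hAtop O₁ w hTG x₀ hx₀ K₀ ϖ hϖ j hj σ

theorem oneCompLeafB_of (h : OneCompLeaf) : OneCompLeafB B :=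
  fun M q _ _ hqM _ A hA hAtop O₁ w hTG x₀ hx₀ _ K₀ _ _ ϖ hϖ j hj σ =>
    h M q hqM A hA hAtop O₁ w hTG x₀ hx₀ K₀ ϖ hϖ j hj σ

theorem cuspLeafB_of (h : CuspLeaf) : CuspLeafB B :=
  fun M q _ _ hqM _ A hA hAtop O₁ w hTG x₀ hx₀ _ K₀ _ _ ϖ hϖ j hj σ =>
    h M q hqM A hA hAtop O₁ w hTG x₀ hx₀ K₀ ϖ hϖ j hj σ

theorem crossLeafB_of (h : CrossLeaf) : CrossLeafB B :=
  fun M q _ _ hqM _ A hA hAtop O₁ w hTG x₀ hx₀ _ K₀ _ _ ϖ hϖ j hj σ m u₀ hu₀ hD hR =>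
    h M q hqM A hA hAtop O₁ w hTG x₀ hx₀ K₀ ϖ hϖ j hj σ m u₀ hu₀ hD hR

/-! ### The root -/

/-- **The function-level target from the relative leaves.** -/
theorem kummerAt_of_modelLeavesB (hbase : BaseLeafB B) (hdesc : DescentLeaf)
    (hchart : ChartLeafB B) (hsemi : SemiLeafB B) (hone : OneCompLeafB B)
    (hcusp : CuspLeafB B) (hcross : CrossLeafB B)
    (M q p r : ℕ) (hL : LevelHyp2 M q p r) : KummerAt M q p := by
  obtain ⟨⟨hM, hq, hp, hqp, hqM, hq2, hr, hr12, hrM, hr2, hrq, hrp, hbig⟩, h2, h3⟩ := hL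
  obtain ⟨M', hM'⟩ := hqM
  have hM'' : M = M' * q := by rw [hM', mul_comm]
  subst hM''
  haveI : Fact q.Prime := ⟨hq⟩
  haveI : NeZero q := ⟨hq.ne_zero⟩
  haveI : NeZero M' := ⟨by rintro rfl; simp at hM⟩
  have hqM' : ¬ q ∣ M' := by
    rintro ⟨c, rfl⟩
    exact hq2 ⟨c, by ring⟩
  have h2' : q ≠ 2 → 2 ∣ M' := fun hq2' => by
    rcases (Nat.Prime.dvd_mul Nat.prime_two).1 (h2 hq2') with h | h
    · exact h
    · exact absurd ((Nat.prime_dvd_prime_iff_eq Nat.prime_two hq).1 h).symm hq2'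
  have h3' : q ≠ 3 → 3 ∣ M' := fun hq3' => by
    rcases (Nat.Prime.dvd_mul Nat.prime_three).1 (h3 hq3') with h | h
    · exact h
    · exact absurd ((Nat.prime_dvd_prime_iff_eq Nat.prime_three hq).1 h).symm hq3'
  have hrM' : r ∣ M' := by
    rcases (Nat.Prime.dvd_mul hr).1 hrM with h | h
    · exact h
    · exact absurd ((Nat.prime_dvd_prime_iff_eq hr hq).1 h) hrq
  have hlev : LevelOK M' q :=
    ⟨Fermat.Agent.S34.H92.noElliptic_of_prime M' r hr hr12 hrM', h2', h3'⟩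
  intro n A hA τ hτ u hu hdiv
  have hqpn : ¬ q ∣ p ^ n := fun h =>
    hqp ((Nat.prime_dvd_prime_iff_eq hq hp).1 (hq.dvd_of_dvd_pow h))
  obtain ⟨hAtop, hpn0, hpnA⟩ := Fermat.Agent.S18.H60.unit_facts_gen A hA (p ^ n) hqpn
  obtain ⟨O₁, w, hTG⟩ := twoGaussStatement M' q hqM' A hA
  obtain ⟨x₀, hx₀, hB⟩ := hbase M' q hqM' hlev A hA
  obtain ⟨K₀, hfin, hnorm, u₀, hu₀, hDR⟩ := hdesc M' q A hAtop O₁ w (p ^ n) u hu hdiv
  haveI := hfin
  haveI := hnorm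
  haveI := Fermat.Agent.S34.H78.isDVR_comap hAtop K₀
  obtain ⟨ϖ, hϖ⟩ := IsDiscreteValuationRing.exists_irreducible ↥(A.comap (algebraMap K₀ Kb))
  obtain ⟨g, hg⟩ := hx₀.1
  have hjmem : heckeAlphaBar Kb M' q x₀ ∈ ratForm (M' * q) K₀ :=
    heckeAlphaBar_mem_ratForm M' q K₀ (by rw [← hg]; exact ratEmb_mem_ratForm M' K₀ g)
  have hjrat : heckeAlphaBar Kb M' q x₀ ∈ Set.range (ratEmb (M' * q)) :=
    ⟨_, by rw [← hg]; exact (heckeAlphaBar_ratEmb M' q g).symm⟩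
  have hunit : IsUnit (((p ^ n : ℕ) : ℕ) : ↥(A.comap (algebraMap K₀ Kb))) := by
    have hmem : (((p ^ n : ℕ) : K₀))⁻¹ ∈ A.comap (algebraMap K₀ Kb) := by
      show algebraMap K₀ Kb (((p ^ n : ℕ) : K₀))⁻¹ ∈ A
      rw [map_inv₀, map_natCast]
      exact hpnA
    refine IsUnit.of_mul_eq_one (⟨_, hmem⟩ : ↥(A.comap (algebraMap K₀ Kb))) ?_
    apply Subtype.ext
    show ((p ^ n : ℕ) : K₀) * (((p ^ n : ℕ) : K₀))⁻¹ = 1
    exact mul_inv_cancel₀ (Nat.cast_ne_zero.mpr hpn0)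
  have hGood := stdV_good M' q hqM' A hA hAtop O₁ w hTG K₀ ϖ hϖ ⟨_, hjmem⟩ hjrat
    (hchart M' q hqM' hlev A hA x₀ hx₀ hB K₀ ⟨_, hjmem⟩ rfl) τ hτ
    (hsemi M' q hqM' hlev A hA hAtop O₁ w hTG x₀ hx₀ hB K₀ ϖ hϖ ⟨_, hjmem⟩ rfl τ) (p ^ n) hunit
  have hu₀0 : u₀ ≠ 0 := by
    rintro rfl
    exact hu hu₀.symm
  obtain ⟨hDivK, hRatK⟩ := hDR ϖ ⟨_, hjmem⟩ τ
  obtain ⟨c, w', hc, hw', h⟩ := VData.kummer_of_points
    (stdV M' q A hAtop O₁ w K₀ ϖ ⟨_, hjmem⟩ τ) (p ^ n) (gal (M' * q) τ) hGood u₀ hu₀0 hDivK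
    (hone M' q hqM' hlev A hA hAtop O₁ w hTG x₀ hx₀ hB K₀ ϖ hϖ ⟨_, hjmem⟩ rfl τ)
    (hcusp M' q hqM' hlev A hA hAtop O₁ w hTG x₀ hx₀ hB K₀ ϖ hϖ ⟨_, hjmem⟩ rfl τ)
    (hcross M' q hqM' hlev A hA hAtop O₁ w hTG x₀ hx₀ hB K₀ ϖ hϖ ⟨_, hjmem⟩ rfl τ (p ^ n) u₀
      hu₀0 hDivK hRatK)
  have hιu : (stdV M' q A hAtop O₁ w K₀ ϖ ⟨_, hjmem⟩ τ).ι u₀ = u := hu₀
  rw [hιu] at h
  exact ⟨c, w', hc, hw', h⟩

/-- **The root of Program B' from the relative leaves.** -/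
theorem geoTarget2_of_modelLeavesB (hbase : BaseLeafB B) (hdesc : DescentLeaf)
    (hchart : ChartLeafB B) (hsemi : SemiLeafB B) (hone : OneCompLeafB B)
    (hcusp : CuspLeafB B) (hcross : CrossLeafB B) : GeoTarget2 := by
  intro M q p r hM hq hp hqp hqM hq2 hr hr12 hrM hr2 hrq hrp hbig h2 h3
  exact dictStatement M q p hM hq hp
    (kummerAt_of_modelLeavesB B hbase hdesc hchart hsemi hone hcusp hcross M q p r
      ⟨⟨hM, hq, hp, hqp, hqM, hq2, hr, hr12, hrM, hr2, hrq, hrp, hbig⟩, h2, h3⟩)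

/-- The binding interface of the S34 top from the relative leaves. -/
theorem b1Statement_of_modelLeavesB (hbase : BaseLeafB B) (hdesc : DescentLeaf)
    (hchart : ChartLeafB B) (hsemi : SemiLeafB B) (hone : OneCompLeafB B)
    (hcusp : CuspLeafB B) (hcross : CrossLeafB B)
    (N q p : ℕ) [NeZero N] (hq : q.Prime) (hp : p.Prime) (hqp : q ≠ p) (hqN : q ∣ N)
    (hq2 : ¬ q ^ 2 ∣ N) : B1Statement N q p :=
  b1Statement_of_geoTarget2
    (geoTarget2_of_modelLeavesB B hbase hdesc hchart hsemi hone hcusp hcross) N q p hq hp hqp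
      hqN hq2

end Fermat.Agent.S34.H77
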