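/-
Program B' (S34), leaf M6b (helper77): the local divisor datum `HLoc` at a CROSSING POINT of the
special fibre.

`C` a normal noetherian chart over a discrete valuation ring `A₀` (uniformiser `ϖ`), `x` a maximal
ideal of `C` whose local ring `C_x` is a NODE: its maximal ideal is generated by `J`, `b`, `ϖ`
with `J * b = ϖ ^ e * ε`, `ε` a unit of `C_x`.  If the function `u` has order divisible by `m` at
every horizontal height-one prime `P ≤ x` (`hdiv`), and `b` takes a value in `Frac A₀` at each of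
its zeros and poles through `x` (`hrat`: these points are rational), then there is `f ≠ 0` with
`u / f ^ m` a unit at every prime `P ≤ x` not containing `ϖ`: the datum
`Fermat.Agent.S34.H30.HLoc ϖ m C x u` of the skeleton.

The local equation of a rational horizontal prime `P` through the node is `b - ξ`, `ξ` the value
of `b` at `P` (`Fermat.Agent.S34.H77.ker_eq_sat`): it generates `P C_P` and lies in no other
horizontal prime through `x`.
-/
import Fermat.Agent.S34.H77.NodeSection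
import Fermat.Agent.S34.H54.KrullVal
import Fermat.Agent.S34.H7.Step1Glue
import Fermat.Agent.S18.H47.Loc

set_option autoImplicit false

noncomputable section

namespace Fermat.Agent.S34.H77

open Fermat.Agent.S34.H54 Fermat.Agent.S34.H7

section Local

variable {R : Type*} [CommRing R] [IsLocalRing R] [IsNoetherianRing R]

/-- **The horizontal prime through a rational point of a node.**  In a noetherian local ring
with maximal ideal `(J, b, ϖ)`, `J * b = ϖ ^ e * ε`, `ε` a unit: a prime `𝔭 ∌ ϖ` containing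
`b - ξ`, where the "constant" `ξ` is `0` or a unit times a power of `ϖ`, is generated by `b - ξ`
up to powers of `ϖ`, and it is the only prime `∌ ϖ` containing `b - ξ`. -/
theorem node_prime (ϖ J b ε ξ : R) (e : ℕ)
    (hm : IsLocalRing.maximalIdeal R = Ideal.span {J, b, ϖ})
    (hJb : J * b = ϖ ^ e * ε) (hε : IsUnit ε)
    (hξ : ξ = 0 ∨ ∃ (k : ℕ) (u₁ : R), IsUnit u₁ ∧ ξ = ϖ ^ k * u₁)
    (𝔭 : Ideal R) (h𝔭 : 𝔭.IsPrime) (hϖ𝔭 : ϖ ∉ 𝔭) (hbξ : b - ξ ∈ 𝔭) :
    (∀ a ∈ 𝔭, ∃ (n : ℕ) (c : R), ϖ ^ n * a = (b - ξ) * c) ∧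
    ∀ 𝔭' : Ideal R, 𝔭'.IsPrime → ϖ ∉ 𝔭' → b - ξ ∈ 𝔭' → 𝔭' = 𝔭 := by
  have hJm : J ∈ IsLocalRing.maximalIdeal R := by
    rw [hm]
    exact Ideal.subset_span (by simp)
  have hbm : b ∈ IsLocalRing.maximalIdeal R := by
    rw [hm]
    exact Ideal.subset_span (by simp)
  have h𝔭m : 𝔭 ≤ IsLocalRing.maximalIdeal R := IsLocalRing.le_maximalIdeal h𝔭.ne_top
  have hε𝔭 : ∀ 𝔮 : Ideal R, 𝔮.IsPrime → ε ∉ 𝔮 := fun 𝔮 h𝔮 h =>
    h𝔮.ne_top (Ideal.eq_top_of_isUnit_mem _ h hε)
  -- `ξ ≠ 0`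
  have hξ' : ∃ (k : ℕ) (u₁ : R), IsUnit u₁ ∧ ξ = ϖ ^ k * u₁ := by
    rcases hξ with h0 | h
    · exfalso
      rw [h0, sub_zero] at hbξ
      have h1 : ϖ ^ e * ε ∈ 𝔭 := by
        rw [← hJb]
        exact 𝔭.mul_mem_left J hbξ
      rcases h𝔭.mem_or_mem h1 with h2 | h2
      · exact hϖ𝔭 (h𝔭.mem_of_pow_mem e h2)
      · exact hε𝔭 𝔭 h𝔭 h2
    · exact h
  obtain ⟨k, u₁, hu₁, hξk⟩ := hξ'
  -- `0 < k`
  have hk : 0 < k := by
    rcases Nat.eq_zero_or_pos k with h0 | h
    · exfalso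
      rw [h0, pow_zero, one_mul] at hξk
      have h1 : ξ ∈ IsLocalRing.maximalIdeal R := by
        have e1 : ξ = b - (b - ξ) := by ring
        rw [e1]
        exact Ideal.sub_mem _ hbm (h𝔭m hbξ)
      rw [hξk] at h1
      exact (IsLocalRing.mem_maximalIdeal _).mp h1 hu₁
    · exact h
  -- `k < e`
  have hke : k < e := by
    by_contra hcon
    obtain ⟨d, rfl⟩ := Nat.exists_eq_add_of_le (not_lt.mp hcon)
    have h1 : ϖ ^ e * (ε - J * (ϖ ^ d * u₁)) ∈ 𝔭 := by
      have e1 : ϖ ^ e * (ε - J * (ϖ ^ d * u₁)) = J * (b - ξ) := by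
        rw [hξk, pow_add, mul_sub, mul_sub, hJb]
        ring
      rw [e1]
      exact 𝔭.mul_mem_left J hbξ
    have h2 : ε - J * (ϖ ^ d * u₁) ∈ 𝔭 := by
      rcases h𝔭.mem_or_mem h1 with h3 | h3
      · exact absurd (h𝔭.mem_of_pow_mem e h3) hϖ𝔭
      · exact h3
    have h3 : ε ∈ IsLocalRing.maximalIdeal R := by
      have e1 : ε = (ε - J * (ϖ ^ d * u₁)) + J * (ϖ ^ d * u₁) := by ring
      rw [e1]
      exact Ideal.add_mem _ (h𝔭m h2) (Ideal.mul_mem_right _ _ hJm)
    exact (IsLocalRing.mem_maximalIdeal _).mp h3 hε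
  -- the kernel of `R → R ⧸ 𝔮` for a prime `𝔮 ∌ ϖ` containing `b - ξ`
  have key : ∀ 𝔮 : Ideal R, 𝔮.IsPrime → ϖ ∉ 𝔮 → b - ξ ∈ 𝔮 →
      𝔮 = sat ϖ (Ideal.span {b - ξ}) ∧
        ∀ a ∈ 𝔮, ∃ (n : ℕ) (c : R), ϖ ^ n * a = (b - ξ) * c := by
    intro 𝔮 h𝔮 hϖ𝔮 hb𝔮
    have := h𝔮
    have h := ker_eq_sat ϖ J b ξ ε u₁ e k (Ideal.Quotient.mk 𝔮) hk hke hm hJb hξk hu₁
      (Ideal.Quotient.eq.mpr hb𝔮) (fun h0 => hϖ𝔮 (Ideal.Quotient.eq_zero_iff_mem.mp h0))
    rw [Ideal.mk_ker] at h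
    exact ⟨h.1, fun a ha => h.2 a (Ideal.Quotient.eq_zero_iff_mem.mpr ha)⟩
  refine ⟨(key 𝔭 h𝔭 hϖ𝔭 hbξ).2, fun 𝔭' h𝔭' hϖ𝔭' hb𝔭' => ?_⟩
  rw [(key 𝔭' h𝔭' hϖ𝔭' hb𝔭').1, ← (key 𝔭 h𝔭 hϖ𝔭 hbξ).1]

end Local

section Chart

variable {C : Type*} [CommRing C] [IsDomain C] [IsNoetherianRing C] [IsIntegrallyClosed C]
variable {K : Type*} [Field K] [Algebra C K] [IsFractionRing C K]

omit [IsDomain C] [IsNoetherianRing C] [IsIntegrallyClosed C] [IsFractionRing C K] in
/-- `v (x * y) < 1` from `v x < 1`, `y ∈ V`. -/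
theorem val_lt_one_mul (V : ValuationSubring K) {y z : K} (hy : V.valuation y < 1)
    (hz : z ∈ V) : V.valuation (y * z) < 1 := by
  rw [map_mul]
  have hz' : V.valuation z ≤ 1 := (V.valuation_le_one_iff z).mpr hz
  calc V.valuation y * V.valuation z ≤ V.valuation y * 1 := mul_le_mul' le_rfl hz'
    _ = V.valuation y := mul_one _
    _ < 1 := hy

/-- For `c ∈ C`: `c` lies in the maximal ideal of `C_P` iff `c ∈ P`. -/
theorem algebraMap_mem_nonunits_heightOneVal_iff (P : Ideal C) [P.IsPrime] (hht : P.height = 1)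
    (c : C) : algebraMap C K c ∈ (heightOneVal (K := K) P hht).nonunits ↔ c ∈ P := by
  rw [ValuationSubring.mem_nonunits_iff_or]
  by_cases hc : c = 0
  · subst hc
    simp
  · rw [inv_algebraMap_mem_heightOneVal_iff P hht c hc]
    constructor
    · rintro (h | h)
      · exact absurd (IsFractionRing.injective C K (by rw [h, map_zero])) hc
      · exact not_not.mp h
    · intro h
      exact Or.inr (not_not.mpr h)

/-- The local ring `C_x` lies in `C_P` for `P ≤ x`. -/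
theorem atPrimeToField_mem_heightOneVal (x : Ideal C) [x.IsPrime] (P : Ideal C) [P.IsPrime]
    (hht : P.height = 1) (hPx : P ≤ x) (z : Localization.AtPrime x) :
    atPrimeToField (K := K) x z ∈ heightOneVal (K := K) P hht := by
  have h : atPrimeToField (K := K) x z ∈ (atPrimeToField (K := K) x).range := ⟨z, rfl⟩
  rw [range_atPrimeToField] at h
  exact locSubring_mono hPx h

/-- `z ∈ C_x` lies in the maximal ideal of `C_P` (`P ≤ x` of height one) iff `z ∈ P C_x`. -/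
theorem atPrimeToField_mem_nonunits_iff (x : Ideal C) [x.IsPrime] (P : Ideal C) [hP : P.IsPrime]
    (hht : P.height = 1) (hPx : P ≤ x) (z : Localization.AtPrime x) :
    atPrimeToField (K := K) x z ∈ (heightOneVal (K := K) P hht).nonunits ↔
      z ∈ Ideal.map (algebraMap C (Localization.AtPrime x)) P := by
  obtain ⟨⟨a, s⟩, rfl⟩ := IsLocalization.mk'_surjective x.primeCompl z
  have hsP : (s : C) ∉ P := fun h => s.2 (hPx h)
  have hs0 : (s : C) ≠ 0 := fun h => hsP (h ▸ P.zero_mem)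
  have hspec : algebraMap C K a = algebraMap C K (s : C) *
      atPrimeToField (K := K) x (IsLocalization.mk' (Localization.AtPrime x) a s) :=
    (IsLocalization.lift_mk'_spec (M := x.primeCompl) (S := Localization.AtPrime x)
      (isUnit_algebraMap_of_notMem (K := K) x) a _ s).1 rfl
  have hsV : algebraMap C K (s : C) ∈ heightOneVal (K := K) P hht :=
    algebraMap_mem_heightOneVal P hht _
  have hsV' : (algebraMap C K (s : C))⁻¹ ∈ heightOneVal (K := K) P hht :=
    (inv_algebraMap_mem_heightOneVal_iff P hht _ hs0).2 hsP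
  have hsK : algebraMap C K (s : C) ≠ 0 := fun h =>
    hs0 (IsFractionRing.injective C K (by rw [h, map_zero]))
  change atPrimeToField (K := K) x (IsLocalization.mk' (Localization.AtPrime x) a s) ∈
      (heightOneVal (K := K) P hht).nonunits ↔
    IsLocalization.mk' (Localization.AtPrime x) a s ∈
      Ideal.map (algebraMap C (Localization.AtPrime x)) P
  rw [IsLocalization.mk'_mem_map_algebraMap_iff]
  constructor
  · intro h
    refine ⟨1, Submonoid.one_mem _, ?_⟩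
    rw [one_mul, ← algebraMap_mem_nonunits_heightOneVal_iff (K := K) P hht a,
      ValuationSubring.mem_nonunits_iff, hspec, mul_comm]
    exact val_lt_one_mul _ ((ValuationSubring.mem_nonunits_iff _).1 h) hsV
  · rintro ⟨s', hs', h⟩
    have hs'P : s' ∉ P := fun h' => hs' (hPx h')
    have haP : a ∈ P := (hP.mem_or_mem h).resolve_left hs'P
    have h1 : (heightOneVal (K := K) P hht).valuation (algebraMap C K a) < 1 := by
      rw [← ValuationSubring.mem_nonunits_iff]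
      exact (algebraMap_mem_nonunits_heightOneVal_iff P hht a).2 haP
    have e1 : atPrimeToField (K := K) x (IsLocalization.mk' (Localization.AtPrime x) a s)
        = algebraMap C K a * (algebraMap C K (s : C))⁻¹ := by
      rw [hspec, mul_comm (algebraMap C K (s : C)), mul_assoc, mul_inv_cancel₀ hsK, mul_one]
    rw [ValuationSubring.mem_nonunits_iff, e1]
    exact val_lt_one_mul _ h1 hsV'

/-- **Local equation of a rational horizontal prime through a node.**  `x` a prime of `C` whose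
local ring `C_x ⊆ K` has maximal ideal `(J, b, ϖ)` with `J * b = ϖ ^ e * ε`, `ε` a unit of `C_x`;
`P ≤ x` a height-one prime not containing `ϖ` at which `b` takes the value `ξ`, where `ξ` is `0`
or a unit times a power of `ϖ`.  Then `b - ξ ≠ 0` generates the maximal ideal of `C_P` and is a
unit at every other height-one prime `P' ≤ x` not containing `ϖ`. -/
theorem node_local_eq (x : Ideal C) [hx : x.IsPrime] (ϖ : C) (hϖx : ϖ ∈ x)
    (J b ε : K) (e : ℕ)
    (hJ : J ∈ locSubring (K := K) x) (hJ' : J⁻¹ ∉ locSubring (K := K) x)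
    (hb : b ∈ locSubring (K := K) x) (hb' : b⁻¹ ∉ locSubring (K := K) x)
    (hε : ε ∈ locSubring (K := K) x) (hε' : ε⁻¹ ∈ locSubring (K := K) x) (hε0 : ε ≠ 0)
    (hJb : J * b = algebraMap C K ϖ ^ e * ε)
    (hgen : ∀ c ∈ x, ∃ c₁ ∈ locSubring (K := K) x, ∃ c₂ ∈ locSubring (K := K) x,
      ∃ c₃ ∈ locSubring (K := K) x, algebraMap C K c = c₁ * J + c₂ * b + c₃ * algebraMap C K ϖ)
    (ξ : C) (hξ : ξ = 0 ∨ ∃ (k : ℕ) (u₁ : C), IsUnit u₁ ∧ ξ = ϖ ^ k * u₁)
    (P : Ideal C) [hP : P.IsPrime] (hht : P.height = 1) (hPx : P ≤ x) (hϖP : ϖ ∉ P)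
    (hbξ : b - algebraMap C K ξ ∈ (heightOneVal (K := K) P hht).nonunits) :
    b - algebraMap C K ξ ≠ 0 ∧
    (∀ y ∈ (heightOneVal (K := K) P hht).nonunits,
      y / (b - algebraMap C K ξ) ∈ heightOneVal (K := K) P hht) ∧
    ∀ (P' : Ideal C) [P'.IsPrime] (hht' : P'.height = 1), P' ≤ x → ϖ ∉ P' → P' ≠ P →
      (b - algebraMap C K ξ)⁻¹ ∈ heightOneVal (K := K) P' hht' := by
  classical
  have hinjK : Function.Injective (algebraMap C K) := IsFractionRing.injective C K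
  have hι : Function.Injective (atPrimeToField (K := K) x) := atPrimeToField_injective x
  have hrange := range_atPrimeToField (K := K) x
  have hιalg : ∀ c : C, atPrimeToField (K := K) x (algebraMap C (Localization.AtPrime x) c)
      = algebraMap C K c := fun c =>
    IsLocalization.lift_eq (M := x.primeCompl) (isUnit_algebraMap_of_notMem (K := K) x) c
  have hpre : ∀ y : K, y ∈ locSubring (K := K) x →
      ∃ z : Localization.AtPrime x, atPrimeToField (K := K) x z = y := by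
    intro y hy
    rw [← hrange] at hy
    exact hy
  obtain ⟨JΛ, hJΛ⟩ := hpre J hJ
  obtain ⟨bΛ, hbΛ⟩ := hpre b hb
  obtain ⟨εΛ, hεΛ⟩ := hpre ε hε
  obtain ⟨εΛ', hεΛ'⟩ := hpre ε⁻¹ hε'
  -- non-units
  have hnu : ∀ (z : Localization.AtPrime x), (atPrimeToField (K := K) x z)⁻¹ ∉
      locSubring (K := K) x → z ∈ IsLocalRing.maximalIdeal (Localization.AtPrime x) := by
    intro z hz
    rw [IsLocalRing.mem_maximalIdeal]
    intro hu
    obtain ⟨w, hw⟩ := hu.exists_right_inv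
    apply hz
    rw [← hrange]
    refine ⟨w, ?_⟩
    have h1 : atPrimeToField (K := K) x z * atPrimeToField (K := K) x w = 1 := by
      rw [← map_mul, hw, map_one]
    exact eq_inv_of_mul_eq_one_right h1
  have hεu : IsUnit εΛ := by
    refine IsUnit.of_mul_eq_one εΛ' (hι ?_)
    rw [map_mul, hεΛ, hεΛ', map_one, mul_inv_cancel₀ hε0]
  have hJbΛ : JΛ * bΛ = algebraMap C (Localization.AtPrime x) ϖ ^ e * εΛ := by
    apply hι
    rw [map_mul, map_mul, map_pow, hJΛ, hbΛ, hεΛ, hιalg, hJb]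
  have hm : IsLocalRing.maximalIdeal (Localization.AtPrime x)
      = Ideal.span {JΛ, bΛ, algebraMap C (Localization.AtPrime x) ϖ} := by
    apply le_antisymm
    · rw [← Localization.AtPrime.map_eq_maximalIdeal, Ideal.map_le_iff_le_comap]
      intro c hc
      obtain ⟨c₁, hc₁, c₂, hc₂, c₃, hc₃, hcc⟩ := hgen c hc
      obtain ⟨z₁, hz₁⟩ := hpre c₁ hc₁
      obtain ⟨z₂, hz₂⟩ := hpre c₂ hc₂
      obtain ⟨z₃, hz₃⟩ := hpre c₃ hc₃
      have e1 : algebraMap C (Localization.AtPrime x) c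
          = z₁ * JΛ + z₂ * bΛ + z₃ * algebraMap C (Localization.AtPrime x) ϖ := by
        apply hι
        rw [map_add, map_add, map_mul, map_mul, map_mul, hιalg, hιalg, hz₁, hz₂, hz₃, hJΛ, hbΛ,
          hcc]
      rw [Ideal.mem_comap, e1]
      refine Ideal.add_mem _ (Ideal.add_mem _ ?_ ?_) ?_
      · exact Ideal.mul_mem_left _ _ (Ideal.subset_span (by simp))
      · exact Ideal.mul_mem_left _ _ (Ideal.subset_span (by simp))
      · exact Ideal.mul_mem_left _ _ (Ideal.subset_span (by simp))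
    · rw [Ideal.span_le]
      intro z hz
      simp only [Set.mem_insert_iff, Set.mem_singleton_iff] at hz
      rcases hz with rfl | rfl | rfl
      · exact hnu _ (by rw [hJΛ]; exact hJ')
      · exact hnu _ (by rw [hbΛ]; exact hb')
      · rw [← Localization.AtPrime.map_eq_maximalIdeal]
        exact Ideal.mem_map_of_mem _ hϖx
  have hξΛ : algebraMap C (Localization.AtPrime x) ξ = 0 ∨ ∃ (k : ℕ)
      (u₁ : Localization.AtPrime x), IsUnit u₁ ∧
        algebraMap C (Localization.AtPrime x) ξ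
          = algebraMap C (Localization.AtPrime x) ϖ ^ k * u₁ := by
    rcases hξ with h0 | ⟨k, u₁, hu₁, hk⟩
    · left
      rw [h0, map_zero]
    · right
      exact ⟨k, algebraMap C _ u₁, hu₁.map _, by rw [hk, map_mul, map_pow]⟩
  -- the primes of `C_x`
  have hdisj : ∀ Q : Ideal C, Q ≤ x → Disjoint (x.primeCompl : Set C) (Q : Set C) := fun Q hQ =>
    Set.disjoint_left.mpr fun a ha haQ => ha (hQ haQ)
  have hprime : ∀ Q : Ideal C, Q.IsPrime → Q ≤ x →
      (Ideal.map (algebraMap C (Localization.AtPrime x)) Q).IsPrime := fun Q hQ hQx =>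
    IsLocalization.isPrime_of_isPrime_disjoint x.primeCompl _ Q hQ (hdisj Q hQx)
  have hϖQ : ∀ (Q : Ideal C) [Q.IsPrime] (hhtQ : Q.height = 1), Q ≤ x → ϖ ∉ Q →
      algebraMap C (Localization.AtPrime x) ϖ ∉
        Ideal.map (algebraMap C (Localization.AtPrime x)) Q := by
    intro Q _ hhtQ hQx hϖ h
    rw [← atPrimeToField_mem_nonunits_iff (K := K) x Q hhtQ hQx, hιalg,
      algebraMap_mem_nonunits_heightOneVal_iff] at h
    exact hϖ h
  have hιf : atPrimeToField (K := K) x (bΛ - algebraMap C (Localization.AtPrime x) ξ)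
      = b - algebraMap C K ξ := by
    rw [map_sub, hbΛ, hιalg]
  have hbξΛ : bΛ - algebraMap C (Localization.AtPrime x) ξ ∈
      Ideal.map (algebraMap C (Localization.AtPrime x)) P := by
    rw [← atPrimeToField_mem_nonunits_iff (K := K) x P hht hPx, hιf]
    exact hbξ
  obtain ⟨hgenΛ, huniq⟩ := node_prime (algebraMap C (Localization.AtPrime x) ϖ) JΛ bΛ εΛ
    (algebraMap C (Localization.AtPrime x) ξ) e hm hJbΛ hεu hξΛ _ (hprime P hP hPx)
    (hϖQ P hht hPx hϖP) hbξΛ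
  have hϖ0 : ϖ ≠ 0 := fun h => hϖP (h ▸ P.zero_mem)
  have hϖK : algebraMap C K ϖ ≠ 0 := fun h => hϖ0 (hinjK (by rw [h, map_zero]))
  -- the equation of an element of `P`
  have heq : ∀ a ∈ P, ∃ (n : ℕ) (c : Localization.AtPrime x),
      algebraMap C K ϖ ^ n * algebraMap C K a
        = (b - algebraMap C K ξ) * atPrimeToField (K := K) x c := by
    intro a ha
    obtain ⟨n, c, hnc⟩ := hgenΛ _ (Ideal.mem_map_of_mem _ ha)
    refine ⟨n, c, ?_⟩
    have := congrArg (atPrimeToField (K := K) x) hnc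
    rwa [map_mul, map_mul, map_pow, hιalg, hιalg, hιf] at this
  have hf0 : b - algebraMap C K ξ ≠ 0 := by
    intro h0
    have hPbot : P ≠ ⊥ := by
      rintro rfl
      rw [Ideal.height_bot] at hht
      exact zero_ne_one hht
    obtain ⟨a, haP, ha0⟩ := Submodule.exists_mem_ne_zero_of_ne_bot hPbot
    obtain ⟨n, c, hnc⟩ := heq a haP
    rw [h0, zero_mul] at hnc
    rcases mul_eq_zero.mp hnc with h | h
    · exact hϖK (pow_eq_zero_iff (n := n) (by
        rintro rfl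
        rw [pow_zero] at h
        exact one_ne_zero h) |>.mp h)
    · exact ha0 (hinjK (by rw [h, map_zero]))
  refine ⟨hf0, ?_, ?_⟩
  · -- generation
    intro y hy
    have hyV : y ∈ heightOneVal (K := K) P hht := by
      rw [← ValuationSubring.valuation_le_one_iff]
      exact le_of_lt ((ValuationSubring.mem_nonunits_iff _).1 hy)
    obtain ⟨s, hsP, a, ha⟩ := (mem_heightOneVal_iff P hht y).1 hyV
    have hs0 : s ≠ 0 := fun h => hsP (h ▸ P.zero_mem)
    have hsK : algebraMap C K s ≠ 0 := fun h => hs0 (hinjK (by rw [h, map_zero]))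
    have haP : a ∈ P := by
      rw [← algebraMap_mem_nonunits_heightOneVal_iff (K := K) P hht, ha,
        ValuationSubring.mem_nonunits_iff, mul_comm]
      exact val_lt_one_mul _ ((ValuationSubring.mem_nonunits_iff _).1 hy)
        (algebraMap_mem_heightOneVal P hht s)
    obtain ⟨n, c, hnc⟩ := heq a haP
    have e1 : y / (b - algebraMap C K ξ)
        = atPrimeToField (K := K) x c * ((algebraMap C K ϖ)⁻¹ ^ n * (algebraMap C K s)⁻¹) := by
      have hy' : y = algebraMap C K a * (algebraMap C K s)⁻¹ := by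
        rw [ha, mul_comm (algebraMap C K s), mul_assoc, mul_inv_cancel₀ hsK, mul_one]
      have ha' : algebraMap C K a
          = (b - algebraMap C K ξ) * atPrimeToField (K := K) x c * (algebraMap C K ϖ)⁻¹ ^ n := by
        rw [← hnc, inv_pow, mul_comm (algebraMap C K ϖ ^ n), mul_assoc,
          mul_inv_cancel₀ (pow_ne_zero n hϖK), mul_one]
      rw [hy', ha', div_eq_mul_inv]
      field_simp
    rw [e1]
    refine ValuationSubring.mul_mem _ _ _ (atPrimeToField_mem_heightOneVal x P hht hPx c)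
      (ValuationSubring.mul_mem _ _ _ (pow_mem ?_ n) ?_)
    · exact (inv_algebraMap_mem_heightOneVal_iff P hht ϖ hϖ0).2 hϖP
    · exact (inv_algebraMap_mem_heightOneVal_iff P hht s hs0).2 hsP
  · -- the other primes
    intro P' hP' hht' hP'x hϖP' hne
    by_contra hcon
    have hmem : b - algebraMap C K ξ ∈ (heightOneVal (K := K) P' hht').nonunits := by
      rw [ValuationSubring.mem_nonunits_iff_or]
      exact Or.inr hcon
    have h1 : bΛ - algebraMap C (Localization.AtPrime x) ξ ∈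
        Ideal.map (algebraMap C (Localization.AtPrime x)) P' := by
      rw [← atPrimeToField_mem_nonunits_iff (K := K) x P' hht' hP'x, hιf]
      exact hmem
    have h2 := huniq _ (hprime P' hP' hP'x) (hϖQ P' hht' hP'x hϖP') h1
    apply hne
    rw [← IsLocalization.under_map_of_isPrime_disjoint x.primeCompl (Localization.AtPrime x) hP'
      (hdisj P' hP'x), h2, IsLocalization.under_map_of_isPrime_disjoint x.primeCompl
      (Localization.AtPrime x) hP (hdisj P hPx)]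

/-- The height-one local ring attached to an ideal (junk value `⊤` off the height-one primes). -/
def valOf (P : Ideal C) : ValuationSubring K := by
  classical
  exact if h : P.IsPrime ∧ P.height = 1 then @heightOneVal C _ _ _ _ K _ _ _ P h.1 h.2 else ⊤

theorem valOf_eq (P : Ideal C) [hP : P.IsPrime] (hht : P.height = 1) :
    valOf (K := K) P = heightOneVal (K := K) P hht := by
  classical
  unfold valOf
  rw [dif_pos ⟨hP, hht⟩]

/-- A nonzero function is a unit at all but finitely many height-one primes. -/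
theorem finite_not_isU_heightOne (u : K) (hu : u ≠ 0) :
    {P : Ideal C | ∃ (hP : P.IsPrime) (hht : P.height = 1),
      ¬ IsU (@heightOneVal C _ _ _ _ K _ _ _ P hP hht) u}.Finite := by
  have hinjK : Function.Injective (algebraMap C K) := IsFractionRing.injective C K
  obtain ⟨a, b, hb, rfl⟩ := IsFractionRing.div_surjective (A := C) u
  have hb0 : b ≠ 0 := nonZeroDivisors.ne_zero hb
  have ha0 : a ≠ 0 := by
    rintro rfl
    rw [map_zero, zero_div] at hu
    exact hu rfl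
  have haK : algebraMap C K a ≠ 0 := fun h => ha0 (hinjK (by rw [h, map_zero]))
  have hbK : algebraMap C K b ≠ 0 := fun h => hb0 (hinjK (by rw [h, map_zero]))
  refine (Ideal.finite_minimalPrimes_of_isNoetherianRing C (Ideal.span {a * b})).subset ?_
  rintro P ⟨hP, hht, hnu⟩
  refine mem_minimalPrimes_span_singleton_of_height_eq_one (a * b) (mul_ne_zero ha0 hb0) P hht ?_
  by_contra hab
  have haP : a ∉ P := fun h => hab (P.mul_mem_right b h)
  have hbP : b ∉ P := fun h => hab (P.mul_mem_left a h)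
  apply hnu
  constructor
  · exact (mem_heightOneVal_iff P hht _).2 ⟨b, hbP, a, by rw [mul_div_cancel₀ _ hbK]⟩
  · refine (mem_heightOneVal_iff P hht _).2 ⟨a, haP, b, ?_⟩
    rw [inv_div, mul_div_cancel₀ _ haK]

/-- **From units at the horizontal height-one primes below `x` to the datum `HLoc`.**  If
`u / g ^ m` is a unit of `C_Q` for every height-one prime `Q ≤ x` not containing `ϖ`, then it is
a unit at every prime `P ≤ x` not containing `ϖ` (Krull). -/
theorem hLoc_of_isU (x : Ideal C) (ϖ : C) (m : ℕ) (u g : K) (hu : u ≠ 0) (hg : g ≠ 0)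
    (h : ∀ (Q : Ideal C) [Q.IsPrime] (hht : Q.height = 1), Q ≤ x → ϖ ∉ Q →
      IsU (heightOneVal (K := K) Q hht) (u / g ^ m)) :
    ∀ P : Ideal C, P.IsPrime → P ≤ x → ϖ ∉ P →
      ∃ a b : C, a ∉ P ∧ b ∉ P ∧ u * algebraMap C K b = algebraMap C K a * g ^ m := by
  intro P hP hPx hϖP
  have hinjK : Function.Injective (algebraMap C K) := IsFractionRing.injective C K
  have hgm : g ^ m ≠ 0 := pow_ne_zero m hg
  have hy0 : u / g ^ m ≠ 0 := div_ne_zero hu hgm
  have hfam : ∀ V ∈ heightOneFamily (K := K) P, IsU V (u / g ^ m) := by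
    rintro V ⟨Q, hQ, hht, hQP, rfl⟩
    exact h Q hht (hQP.trans hPx) (fun hϖQ => hϖP (hQP hϖQ))
  obtain ⟨a, b, hb, hab⟩ := krull_at P (u / g ^ m) fun V hV => (hfam V hV).1
  obtain ⟨c, d, hd, hcd⟩ := krull_at P (u / g ^ m)⁻¹ fun V hV => (hfam V hV).2
  refine ⟨a, b, ?_, hb, ?_⟩
  · intro haP
    have h1 : algebraMap C K (a * c) = algebraMap C K (b * d) := by
      rw [map_mul, map_mul, ← hab, ← hcd]
      field_simp
    have h2 : b * d ∈ P := by
      rw [← hinjK h1]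
      exact P.mul_mem_right c haP
    rcases hP.mem_or_mem h2 with h3 | h3
    · exact hb h3
    · exact hd h3
  · rw [← hab]
    field_simp

end Chart

section Main

variable {A₀ : Type*} [CommRing A₀] [IsDomain A₀] [IsDiscreteValuationRing A₀]
  {F₀ : Type*} [Field F₀] [Algebra A₀ F₀]

/-- **M6b: the local divisor datum at a crossing point.**  `C` a normal noetherian chart with
fraction field `F₀`, `x` a prime of `C` containing `ϖ` whose local ring is a node: maximal ideal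
`(J, b, ϖ)`, `J * b = ϖ ^ e * ε`, `ε` a unit of `C_x`.  If `u ≠ 0` has order divisible by `m` at
every height-one prime `P ≤ x` not containing `ϖ` (`hdiv`), and `b` is congruent to a constant
`a ∈ A₀` modulo every such `P` at which `u` is not a unit (`hrat`), then `u / f ^ m` is a unit at
every prime `P ≤ x` not containing `ϖ`, for some `f ≠ 0`: this is
`Fermat.Agent.S34.H30.HLoc ϖ m C x u`. -/
theorem hLoc_of_node (ϖ : A₀) (hϖ : Irreducible ϖ) (m : ℕ) (C : Subalgebra A₀ F₀)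
    [IsIntegrallyClosed ↥C] [IsNoetherianRing ↥C] [IsFractionRing ↥C F₀]
    (x : Ideal ↥C) [hx : x.IsPrime] (hϖx : algebraMap A₀ ↥C ϖ ∈ x)
    (J b ε : F₀) (e : ℕ)
    (hJ : J ∈ locSubring (K := F₀) x) (hJ' : J⁻¹ ∉ locSubring (K := F₀) x)
    (hb : b ∈ locSubring (K := F₀) x) (hb' : b⁻¹ ∉ locSubring (K := F₀) x)
    (hε : ε ∈ locSubring (K := F₀) x) (hε' : ε⁻¹ ∈ locSubring (K := F₀) x) (hε0 : ε ≠ 0)
    (hJb : J * b = algebraMap A₀ F₀ ϖ ^ e * ε)
    (hgen : ∀ c ∈ x, ∃ c₁ ∈ locSubring (K := F₀) x, ∃ c₂ ∈ locSubring (K := F₀) x,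
      ∃ c₃ ∈ locSubring (K := F₀) x, (c : F₀) = c₁ * J + c₂ * b + c₃ * algebraMap A₀ F₀ ϖ)
    (u : F₀) (hu : u ≠ 0)
    (hdiv : ∀ (P : Ideal ↥C) [P.IsPrime] (hht : P.height = 1), P ≤ x →
      algebraMap A₀ ↥C ϖ ∉ P → ∃ t : F₀, t ≠ 0 ∧ IsU (heightOneVal (K := F₀) P hht) (u / t ^ m))
    (hrat : ∀ (P : Ideal ↥C) [P.IsPrime] (hht : P.height = 1), P ≤ x →
      algebraMap A₀ ↥C ϖ ∉ P → ¬ IsU (heightOneVal (K := F₀) P hht) u →
      ∃ a : A₀, b - algebraMap A₀ F₀ a ∈ (heightOneVal (K := F₀) P hht).nonunits) :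
    ∃ f : F₀, f ≠ 0 ∧ ∀ P : Ideal ↥C, P.IsPrime → P ≤ x → algebraMap A₀ ↥C ϖ ∉ P →
      ∃ a b : ↥C, a ∉ P ∧ b ∉ P ∧ u * (b : F₀) = (a : F₀) * f ^ m := by
  classical
  -- the horizontal height-one valuation rings below `x`
  set 𝒱h : Set (ValuationSubring F₀) :=
    {V | ∃ (P : Ideal ↥C) (hP : P.IsPrime) (hht : P.height = 1), P ≤ x ∧
      algebraMap A₀ ↥C ϖ ∉ P ∧ V = @heightOneVal ↥C _ _ _ _ F₀ _ _ _ P hP hht} with h𝒱
  have hdiv' : ∀ V ∈ 𝒱h, ∃ t : F₀, t ≠ 0 ∧ IsU V (u / t ^ m) := by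
    rintro V ⟨P, hP, hht, hPx, hϖP, rfl⟩
    exact hdiv P hht hPx hϖP
  have hfin : {V : ValuationSubring F₀ | V ∈ 𝒱h ∧ ¬ IsU V u}.Finite := by
    refine ((finite_not_isU_heightOne (C := ↥C) (K := F₀) u hu).image
      (valOf (K := F₀))).subset ?_
    rintro V ⟨⟨P, hP, hht, -, -, rfl⟩, hnu⟩
    exact ⟨P, ⟨hP, hht, hnu⟩, valOf_eq P hht⟩
  have hloc : ∀ V ∈ 𝒱h, ¬ IsU V u → ∃ f : F₀, f ≠ 0 ∧
      (∀ y : F₀, y ≠ 0 → ∃ n : ℤ, IsU V (y / f ^ n)) ∧ ∀ V' ∈ 𝒱h, V' ≠ V → IsU V' f := by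
    rintro V ⟨P, hP, hht, hPx, hϖP, rfl⟩ hnu
    obtain ⟨a, ha⟩ := hrat P hht hPx hϖP hnu
    have hξ : algebraMap A₀ ↥C a = 0 ∨ ∃ (k : ℕ) (u₁ : ↥C), IsUnit u₁ ∧
        algebraMap A₀ ↥C a = algebraMap A₀ ↥C ϖ ^ k * u₁ := by
      by_cases ha0 : a = 0
      · left
        rw [ha0, map_zero]
      · right
        obtain ⟨k, v, hv⟩ := IsDiscreteValuationRing.eq_unit_mul_pow_irreducible ha0 hϖ
        refine ⟨k, algebraMap A₀ ↥C (v : A₀), v.isUnit.map _, ?_⟩
        rw [hv, map_mul, map_pow, mul_comm]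
    obtain ⟨hf0, hgenf, hother⟩ := node_local_eq (C := ↥C) (K := F₀) x (algebraMap A₀ ↥C ϖ) hϖx
      J b ε e hJ hJ' hb hb' hε hε' hε0 hJb hgen (algebraMap A₀ ↥C a) hξ P hht hPx hϖP ha
    have : IsDiscreteValuationRing ↥(heightOneVal (K := F₀) P hht) :=
      isDiscreteValuationRing_heightOneVal P hht
    refine ⟨b - algebraMap A₀ F₀ a, hf0, exists_zpow_isU_of_generator _ _ hf0 ha hgenf, ?_⟩
    rintro V' ⟨P', hP', hht', hP'x, hϖP', rfl⟩ hne
    have hPP' : P' ≠ P := by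
      rintro rfl
      exact hne rfl
    refine ⟨?_, hother P' hht' hP'x hϖP' hPP'⟩
    exact locSubring_mono hP'x (Subring.sub_mem _ hb (algebraMap_mem_locSubring x (algebraMap A₀ ↥C a)))
  obtain ⟨g, hg0, hg⟩ := exists_root_of_local_eqs 𝒱h m u hdiv' hfin hloc
  refine ⟨g, hg0, ?_⟩
  exact hLoc_of_isU (C := ↥C) (K := F₀) x (algebraMap A₀ ↥C ϖ) m u g hu hg0
    (fun Q _ hht hQx hϖQ => hg _ ⟨Q, inferInstance, hht, hQx, hϖQ, rfl⟩)

/-- A height-one prime not containing `ϖ` is horizontal: every nonzero constant is a unit of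
its local ring. -/
theorem inv_algebraMap_mem_heightOneVal (ϖ : A₀) (hϖ : Irreducible ϖ) (C : Subalgebra A₀ F₀)
    [IsIntegrallyClosed ↥C] [IsNoetherianRing ↥C] [IsFractionRing ↥C F₀]
    (P : Ideal ↥C) [hP : P.IsPrime] (hht : P.height = 1) (hϖP : algebraMap A₀ ↥C ϖ ∉ P)
    (a : A₀) (ha : a ≠ 0) : (algebraMap A₀ F₀ a)⁻¹ ∈ heightOneVal (K := F₀) P hht := by
  obtain ⟨k, v, hv⟩ := IsDiscreteValuationRing.eq_unit_mul_pow_irreducible ha hϖ
  have haP : algebraMap A₀ ↥C a ∉ P := by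
    rw [hv, map_mul, map_pow]
    intro h
    rcases hP.mem_or_mem h with h1 | h1
    · exact hP.ne_top (Ideal.eq_top_of_isUnit_mem _ h1 (v.isUnit.map _))
    · exact hϖP (hP.mem_of_pow_mem k h1)
  have ha0 : algebraMap A₀ ↥C a ≠ 0 := fun h => haP (h ▸ P.zero_mem)
  exact (inv_algebraMap_mem_heightOneVal_iff (K := F₀) P hht _ ha0).2 haP

/-- **Rational points through a closed point have integral coordinates.**  If `b ∈ C_x` is
congruent to a constant `a / a'` of `Frac A₀` modulo a height-one prime `P ≤ x`, `ϖ ∈ x`, then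
this constant lies in `A₀`. -/
theorem exists_const_of_frac [FaithfulSMul A₀ F₀] (ϖ : A₀) (hϖ : Irreducible ϖ)
    (C : Subalgebra A₀ F₀) [IsIntegrallyClosed ↥C] [IsNoetherianRing ↥C] [IsFractionRing ↥C F₀]
    (x : Ideal ↥C) [hx : x.IsPrime] (hϖx : algebraMap A₀ ↥C ϖ ∈ x)
    (b : F₀) (hb : b ∈ locSubring (K := F₀) x)
    (P : Ideal ↥C) [hP : P.IsPrime] (hht : P.height = 1) (hPx : P ≤ x)
    (a a' : A₀) (ha' : a' ≠ 0)
    (h : b - algebraMap A₀ F₀ a / algebraMap A₀ F₀ a' ∈ (heightOneVal (K := F₀) P hht).nonunits) :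
    ∃ a'' : A₀, algebraMap A₀ F₀ a / algebraMap A₀ F₀ a' = algebraMap A₀ F₀ a'' := by
  have hinj : Function.Injective (algebraMap A₀ F₀) := FaithfulSMul.algebraMap_injective A₀ F₀
  have ha'F : algebraMap A₀ F₀ a' ≠ 0 := fun h0 => ha' (hinj (by rw [h0, map_zero]))
  by_cases ha : a = 0
  · exact ⟨0, by rw [ha, map_zero, zero_div]⟩
  obtain ⟨k, v, hv⟩ := IsDiscreteValuationRing.eq_unit_mul_pow_irreducible ha hϖ
  obtain ⟨k', v', hv'⟩ := IsDiscreteValuationRing.eq_unit_mul_pow_irreducible ha' hϖ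
  rcases le_or_gt k' k with hkk | hkk
  · obtain ⟨d, rfl⟩ := Nat.exists_eq_add_of_le hkk
    refine ⟨(v : A₀) * ((v'⁻¹ : A₀ˣ) : A₀) * ϖ ^ d, ?_⟩
    rw [div_eq_iff ha'F, ← map_mul]
    congr 1
    rw [hv, hv', pow_add]
    have h1 : ((v'⁻¹ : A₀ˣ) : A₀) * (v' : A₀) = 1 := by
      rw [← Units.val_mul, inv_mul_cancel, Units.val_one]
    calc (v : A₀) * (ϖ ^ k' * ϖ ^ d)
        = (v : A₀) * (((v'⁻¹ : A₀ˣ) : A₀) * (v' : A₀)) * (ϖ ^ k' * ϖ ^ d) := by rw [h1, mul_one]
      _ = (v : A₀) * ((v'⁻¹ : A₀ˣ) : A₀) * ϖ ^ d * ((v' : A₀) * ϖ ^ k') := by ring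
  · exfalso
    obtain ⟨d, rfl⟩ := Nat.exists_eq_add_of_lt hkk
    -- `a' = dd * a` with `dd ∈ (ϖ)`
    set dd : A₀ := (v' : A₀) * ((v⁻¹ : A₀ˣ) : A₀) * ϖ ^ (d + 1) with hdd
    have h1 : ((v⁻¹ : A₀ˣ) : A₀) * (v : A₀) = 1 := by
      rw [← Units.val_mul, inv_mul_cancel, Units.val_one]
    have haa' : a' = dd * a := by
      rw [hv', hv, hdd]
      calc (v' : A₀) * ϖ ^ (k + d + 1)
          = (v' : A₀) * (((v⁻¹ : A₀ˣ) : A₀) * (v : A₀)) * ϖ ^ (k + d + 1) := by rw [h1, mul_one]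
        _ = (v' : A₀) * ((v⁻¹ : A₀ˣ) : A₀) * ϖ ^ (d + 1) * ((v : A₀) * ϖ ^ k) := by ring
    have haF : algebraMap A₀ F₀ a ≠ 0 := fun h0 => ha (hinj (by rw [h0, map_zero]))
    have hcd : algebraMap A₀ F₀ a / algebraMap A₀ F₀ a' * algebraMap A₀ F₀ dd = 1 := by
      rw [haa', map_mul]
      have hddF : algebraMap A₀ F₀ dd ≠ 0 := by
        intro h0
        apply ha'F
        rw [haa', map_mul, h0, zero_mul]
      field_simp
    have hddx : algebraMap A₀ ↥C dd ∈ x := by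
      rw [hdd, map_mul, map_pow, pow_succ]
      exact x.mul_mem_left _ (x.mul_mem_left _ hϖx)
    obtain ⟨s, hsx, t, ht⟩ := hb
    -- `w = 1 - b * dd` is a unit of `C_x`, hence of `C_P`
    have hsub : s - t * algebraMap A₀ ↥C dd ∉ x := fun h2 =>
      hsx (by
        have := x.add_mem h2 (x.mul_mem_left t hddx)
        rwa [sub_add_cancel] at this)
    have hsubP : s - t * algebraMap A₀ ↥C dd ∉ P := fun h2 => hsub (hPx h2)
    have hsub0 : s - t * algebraMap A₀ ↥C dd ≠ 0 := fun h2 => hsubP (h2 ▸ P.zero_mem)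
    have hs0 : s ≠ 0 := fun h2 => hsx (h2 ▸ x.zero_mem)
    have hinjK : Function.Injective (algebraMap ↥C F₀) := IsFractionRing.injective ↥C F₀
    have hsK : algebraMap ↥C F₀ s ≠ 0 := fun h2 => hs0 (hinjK (by rw [h2, map_zero]))
    have hsubK : algebraMap ↥C F₀ (s - t * algebraMap A₀ ↥C dd) ≠ 0 := fun h2 =>
      hsub0 (hinjK (by rw [h2, map_zero]))
    have hw : algebraMap ↥C F₀ s * (1 - b * algebraMap A₀ F₀ dd)
        = algebraMap ↥C F₀ (s - t * algebraMap A₀ ↥C dd) := by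
      have e2 : algebraMap ↥C F₀ (s - t * algebraMap A₀ ↥C dd)
          = algebraMap ↥C F₀ s - algebraMap ↥C F₀ t * algebraMap A₀ F₀ dd := by
        rw [map_sub, map_mul]
        rfl
      rw [e2, ht]
      ring
    have hw0 : 1 - b * algebraMap A₀ F₀ dd ≠ 0 := by
      intro h0
      rw [h0, mul_zero] at hw
      exact hsubK hw.symm
    have hwinv : (1 - b * algebraMap A₀ F₀ dd)⁻¹ ∈ heightOneVal (K := F₀) P hht := by
      have e1 : (1 - b * algebraMap A₀ F₀ dd)⁻¹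
          = algebraMap ↥C F₀ s * (algebraMap ↥C F₀ (s - t * algebraMap A₀ ↥C dd))⁻¹ := by
        rw [← hw]
        field_simp
      rw [e1]
      exact ValuationSubring.mul_mem _ _ _ (algebraMap_mem_heightOneVal P hht s)
        ((inv_algebraMap_mem_heightOneVal_iff (K := F₀) P hht _ hsub0).2 hsubP)
    have hwnu : 1 - b * algebraMap A₀ F₀ dd ∈ (heightOneVal (K := F₀) P hht).nonunits := by
      have e1 : 1 - b * algebraMap A₀ F₀ dd
          = -((b - algebraMap A₀ F₀ a / algebraMap A₀ F₀ a') * algebraMap A₀ F₀ dd) := by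
        rw [sub_mul, hcd]
        ring
      rw [e1, ValuationSubring.mem_nonunits_iff, Valuation.map_neg]
      refine val_lt_one_mul _ ((ValuationSubring.mem_nonunits_iff _).1 h) ?_
      exact algebraMap_mem_heightOneVal (K := F₀) P hht (algebraMap A₀ ↥C dd)
    rw [ValuationSubring.mem_nonunits_iff_or] at hwnu
    rcases hwnu with h2 | h2
    · exact hw0 h2
    · exact h2 hwinv

/-- **M6b, valuation form.**  The same as `hLoc_of_node`, with the divisibility and the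
rationality of the support stated on the discrete valuation rings `V` of `F₀` in which the
nonzero constants are units (the shapes of `S18.H8.exists_descent`): `hdiv` — the order of `u`
at `V` is divisible by `m`; `hrat` — if `u` is not a unit of `V`, the residue field of `V` is
`Frac A₀`. -/
theorem hLoc_of_node_val [FaithfulSMul A₀ F₀] (ϖ : A₀) (hϖ : Irreducible ϖ) (m : ℕ)
    (C : Subalgebra A₀ F₀) [IsIntegrallyClosed ↥C] [IsNoetherianRing ↥C] [IsFractionRing ↥C F₀]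
    (x : Ideal ↥C) [hx : x.IsPrime] (hϖx : algebraMap A₀ ↥C ϖ ∈ x)
    (J b ε : F₀) (e : ℕ)
    (hJ : J ∈ locSubring (K := F₀) x) (hJ' : J⁻¹ ∉ locSubring (K := F₀) x)
    (hb : b ∈ locSubring (K := F₀) x) (hb' : b⁻¹ ∉ locSubring (K := F₀) x)
    (hε : ε ∈ locSubring (K := F₀) x) (hε' : ε⁻¹ ∈ locSubring (K := F₀) x) (hε0 : ε ≠ 0)
    (hJb : J * b = algebraMap A₀ F₀ ϖ ^ e * ε)
    (hgen : ∀ c ∈ x, ∃ c₁ ∈ locSubring (K := F₀) x, ∃ c₂ ∈ locSubring (K := F₀) x,
      ∃ c₃ ∈ locSubring (K := F₀) x, (c : F₀) = c₁ * J + c₂ * b + c₃ * algebraMap A₀ F₀ ϖ)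
    (u : F₀) (hu : u ≠ 0)
    (hdiv : ∀ V : ValuationSubring F₀, (∀ a : A₀, a ≠ 0 → (algebraMap A₀ F₀ a)⁻¹ ∈ V) →
      IsDiscreteValuationRing ↥V → (∀ c ∈ C, c ∈ V) →
      ∃ t : F₀, t ≠ 0 ∧ u / t ^ m ∈ V ∧ (u / t ^ m)⁻¹ ∈ V)
    (hrat : ∀ V : ValuationSubring F₀, (∀ a : A₀, a ≠ 0 → (algebraMap A₀ F₀ a)⁻¹ ∈ V) →
      IsDiscreteValuationRing ↥V → (∀ c ∈ C, c ∈ V) → ¬ (u ∈ V ∧ u⁻¹ ∈ V) →
      ∀ y ∈ V, ∃ a a' : A₀, a' ≠ 0 ∧ y - algebraMap A₀ F₀ a / algebraMap A₀ F₀ a' ∈ V.nonunits) :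
    ∃ f : F₀, f ≠ 0 ∧ ∀ P : Ideal ↥C, P.IsPrime → P ≤ x → algebraMap A₀ ↥C ϖ ∉ P →
      ∃ a b : ↥C, a ∉ P ∧ b ∉ P ∧ u * (b : F₀) = (a : F₀) * f ^ m := by
  refine hLoc_of_node ϖ hϖ m C x hϖx J b ε e hJ hJ' hb hb' hε hε' hε0 hJb hgen u hu ?_ ?_
  · intro P _ hht _ hϖP
    exact hdiv _ (inv_algebraMap_mem_heightOneVal ϖ hϖ C P hht hϖP)
      (isDiscreteValuationRing_heightOneVal P hht)
      (fun c hc => algebraMap_mem_heightOneVal (K := F₀) P hht ⟨c, hc⟩)
  · intro P _ hht hPx hϖP hnu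
    obtain ⟨a, a', ha', h⟩ := hrat _ (inv_algebraMap_mem_heightOneVal ϖ hϖ C P hht hϖP)
      (isDiscreteValuationRing_heightOneVal P hht)
      (fun c hc => algebraMap_mem_heightOneVal (K := F₀) P hht ⟨c, hc⟩) hnu b
      (locSubring_mono hPx hb)
    obtain ⟨a'', ha''⟩ := exists_const_of_frac ϖ hϖ C x hϖx b hb P hht hPx a a' ha' h
    exact ⟨a'', by rw [← ha'']; exact h⟩

end Main


end Fermat.Agent.S34.H77
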