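/-
Program B' (S34), leaf M6b (helper77): the certificate `HGen` of `Fermat.Agent.S34.H30.Model`
(= the hypothesis `hgen` of `Fermat.Agent.S34.H7.step1_chart`) at a CROSSING POINT.

* `node_sat_gen` : at a node `x` of a normal noetherian domain `C` (maximal ideal of `C_x`
  generated by `J`, `b`, `ϖ`, `J * b = ϖ ^ e * ε`), a height-one prime `P ≤ x` not containing `ϖ`
  at which `b` takes a constant value `ξ` has the saturated generator `b - ξ`.
* `hGen_of_node` : the body of `HGen C x ϖ u` from the node structure and the rationality of the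
  support of `u`.
* `crossing_hgen` : the same from the UNRAMIFIED local ring `R` at the crossing point
  (`m_R = (J, b)`, `J * b = q`: the output of `H46.NodeConcl.regular`), the decomposition
  `C = C₀ + ϖ C` of the ramified chart (`H46.EisShape.exists_eq_add`) and `q = ϖ ^ e * ε`.
-/
import Fermat.Agent.S34.H77.NodeHLoc
import Fermat.Agent.S34.H7.Step1Supply

set_option autoImplicit false

noncomputable section

namespace Fermat.Agent.S34.H77

open Fermat.Agent.S34.H54 Fermat.Agent.S34.H7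

section Chart

variable {C : Type*} [CommRing C] [IsDomain C] [IsNoetherianRing C] [IsIntegrallyClosed C]
variable {K : Type*} [Field K] [Algebra C K] [IsFractionRing C K]

/-- **Saturated generator of a rational horizontal prime through a node.**  Same hypotheses as
`node_local_eq`; the conclusion is the generator in the shape of `H7.step1_chart`: some `f ∈ P`
generates `P` up to a denominator outside `x` and a power of `ϖ`. -/
theorem node_sat_gen (x : Ideal C) [hx : x.IsPrime] (ϖ : C) (hϖx : ϖ ∈ x)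
    (J b ε : K) (e : ℕ)
    (hJ : J ∈ locSubring (K := K) x) (hJ' : J⁻¹ ∉ locSubring (K := K) x)
    (hb : b ∈ locSubring (K := K) x) (hb' : b⁻¹ ∉ locSubring (K := K) x)
    (hε : ε ∈ locSubring (K := K) x) (hε' : ε⁻¹ ∈ locSubring (K := K) x) (hε0 : ε ≠ 0)
    (hJb : J * b = algebraMap C K ϖ ^ e * ε)
    (hgen : ∀ c ∈ x, ∃ c₁ ∈ locSubring (K := K) x, ∃ c₂ ∈ locSubring (K := K) x,
      ∃ c₃ ∈ locSubring (K := K) x, algebraMap C K c = c₁ * J + c₂ * b + c₃ * algebraMap C K ϖ)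
    (ξ : C) (hξ : ξ = 0 ∨ ∃ (k : ℕ) (u₁ : C), IsUnit u₁ ∧ ξ = ϖ ^ k * u₁)
    (P : Ideal C) [hP : P.IsPrime] (hht : P.height = 1) (hPx : P ≤ x) (hϖP : ϖ ∉ P)
    (hbξ : b - algebraMap C K ξ ∈ (heightOneVal (K := K) P hht).nonunits) :
    ∃ f ∈ P, ∀ y ∈ P, ∃ s : C, s ∉ x ∧ ∃ (n : ℕ) (c : C), s * ϖ ^ n * y = f * c := by
  classical
  have hinjK : Function.Injective (algebraMap C K) := IsFractionRing.injective C K
  have hι : Function.Injective (atPrimeToField (K := K) x) := atPrimeToField_injective x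
  have hrange := range_atPrimeToField (K := K) x
  have hιalg : ∀ c : C, atPrimeToField (K := K) x (algebraMap C (Localization.AtPrime x) c)
      = algebraMap C K c := fun c =>
    IsLocalization.lift_eq (M := x.primeCompl) (isUnit_algebraMap_of_notMem (K := K) x) c
  have hpre : ∀ y : K, y ∈ locSubring (K := K) x →
      ∃ z : Localization.AtPrime x, atPrimeToField (K := K) x z = y := by
    intro y hy
    rw [← hrange] at hy
    exact hy
  obtain ⟨JΛ, hJΛ⟩ := hpre J hJ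
  obtain ⟨bΛ, hbΛ⟩ := hpre b hb
  obtain ⟨εΛ, hεΛ⟩ := hpre ε hε
  obtain ⟨εΛ', hεΛ'⟩ := hpre ε⁻¹ hε'
  -- non-units
  have hnu : ∀ (z : Localization.AtPrime x), (atPrimeToField (K := K) x z)⁻¹ ∉
      locSubring (K := K) x → z ∈ IsLocalRing.maximalIdeal (Localization.AtPrime x) := by
    intro z hz
    rw [IsLocalRing.mem_maximalIdeal]
    intro hu
    obtain ⟨w, hw⟩ := hu.exists_right_inv
    apply hz
    rw [← hrange]
    refine ⟨w, ?_⟩
    have h1 : atPrimeToField (K := K) x z * atPrimeToField (K := K) x w = 1 := by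
      rw [← map_mul, hw, map_one]
    exact eq_inv_of_mul_eq_one_right h1
  have hεu : IsUnit εΛ := by
    refine IsUnit.of_mul_eq_one εΛ' (hι ?_)
    rw [map_mul, hεΛ, hεΛ', map_one, mul_inv_cancel₀ hε0]
  have hJbΛ : JΛ * bΛ = algebraMap C (Localization.AtPrime x) ϖ ^ e * εΛ := by
    apply hι
    rw [map_mul, map_mul, map_pow, hJΛ, hbΛ, hεΛ, hιalg, hJb]
  have hm : IsLocalRing.maximalIdeal (Localization.AtPrime x)
      = Ideal.span {JΛ, bΛ, algebraMap C (Localization.AtPrime x) ϖ} := by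
    apply le_antisymm
    · rw [← Localization.AtPrime.map_eq_maximalIdeal, Ideal.map_le_iff_le_comap]
      intro c hc
      obtain ⟨c₁, hc₁, c₂, hc₂, c₃, hc₃, hcc⟩ := hgen c hc
      obtain ⟨z₁, hz₁⟩ := hpre c₁ hc₁
      obtain ⟨z₂, hz₂⟩ := hpre c₂ hc₂
      obtain ⟨z₃, hz₃⟩ := hpre c₃ hc₃
      have e1 : algebraMap C (Localization.AtPrime x) c
          = z₁ * JΛ + z₂ * bΛ + z₃ * algebraMap C (Localization.AtPrime x) ϖ := by
        apply hι
        rw [map_add, map_add, map_mul, map_mul, map_mul, hιalg, hιalg, hz₁, hz₂, hz₃, hJΛ, hbΛ,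
          hcc]
      rw [Ideal.mem_comap, e1]
      refine Ideal.add_mem _ (Ideal.add_mem _ ?_ ?_) ?_
      · exact Ideal.mul_mem_left _ _ (Ideal.subset_span (by simp))
      · exact Ideal.mul_mem_left _ _ (Ideal.subset_span (by simp))
      · exact Ideal.mul_mem_left _ _ (Ideal.subset_span (by simp))
    · rw [Ideal.span_le]
      intro z hz
      simp only [Set.mem_insert_iff, Set.mem_singleton_iff] at hz
      rcases hz with rfl | rfl | rfl
      · exact hnu _ (by rw [hJΛ]; exact hJ')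
      · exact hnu _ (by rw [hbΛ]; exact hb')
      · rw [← Localization.AtPrime.map_eq_maximalIdeal]
        exact Ideal.mem_map_of_mem _ hϖx
  have hξΛ : algebraMap C (Localization.AtPrime x) ξ = 0 ∨ ∃ (k : ℕ)
      (u₁ : Localization.AtPrime x), IsUnit u₁ ∧
        algebraMap C (Localization.AtPrime x) ξ
          = algebraMap C (Localization.AtPrime x) ϖ ^ k * u₁ := by
    rcases hξ with h0 | ⟨k, u₁, hu₁, hk⟩
    · left
      rw [h0, map_zero]
    · right
      exact ⟨k, algebraMap C _ u₁, hu₁.map _, by rw [hk, map_mul, map_pow]⟩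
  -- the primes of `C_x`
  have hdisj : ∀ Q : Ideal C, Q ≤ x → Disjoint (x.primeCompl : Set C) (Q : Set C) := fun Q hQ =>
    Set.disjoint_left.mpr fun a ha haQ => ha (hQ haQ)
  have hprime : ∀ Q : Ideal C, Q.IsPrime → Q ≤ x →
      (Ideal.map (algebraMap C (Localization.AtPrime x)) Q).IsPrime := fun Q hQ hQx =>
    IsLocalization.isPrime_of_isPrime_disjoint x.primeCompl _ Q hQ (hdisj Q hQx)
  have hϖQ : ∀ (Q : Ideal C) [Q.IsPrime] (hhtQ : Q.height = 1), Q ≤ x → ϖ ∉ Q →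
      algebraMap C (Localization.AtPrime x) ϖ ∉
        Ideal.map (algebraMap C (Localization.AtPrime x)) Q := by
    intro Q _ hhtQ hQx hϖ h
    rw [← atPrimeToField_mem_nonunits_iff (K := K) x Q hhtQ hQx, hιalg,
      algebraMap_mem_nonunits_heightOneVal_iff] at h
    exact hϖ h
  have hιf : atPrimeToField (K := K) x (bΛ - algebraMap C (Localization.AtPrime x) ξ)
      = b - algebraMap C K ξ := by
    rw [map_sub, hbΛ, hιalg]
  have hbξΛ : bΛ - algebraMap C (Localization.AtPrime x) ξ ∈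
      Ideal.map (algebraMap C (Localization.AtPrime x)) P := by
    rw [← atPrimeToField_mem_nonunits_iff (K := K) x P hht hPx, hιf]
    exact hbξ
  obtain ⟨hgenΛ, -⟩ := node_prime (algebraMap C (Localization.AtPrime x) ϖ) JΛ bΛ εΛ
    (algebraMap C (Localization.AtPrime x) ξ) e hm hJbΛ hεu hξΛ _ (hprime P hP hPx)
    (hϖQ P hht hPx hϖP) hbξΛ
  refine sat_gen_of_isLocalization x ϖ (Localization.AtPrime x) P hPx
    (bΛ - algebraMap C (Localization.AtPrime x) ξ) hbξΛ (fun y hy => ?_)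
  obtain ⟨n, c, hnc⟩ := hgenΛ _ (Ideal.mem_map_of_mem _ hy)
  exact ⟨n, c, by rw [map_mul, map_pow]; exact hnc⟩

end Chart

section Main

variable {A₀ : Type*} [CommRing A₀] [IsDomain A₀] [IsDiscreteValuationRing A₀]
  {F₀ : Type*} [Field F₀] [Algebra A₀ F₀] [FaithfulSMul A₀ F₀]

/-- `heightOneVal P hht` is the local ring at `P` in the sense of `H7.IsLocAt`. -/
theorem isLocAt_heightOneVal {C : Type*} [CommRing C] [IsDomain C] [IsNoetherianRing C]
    [IsIntegrallyClosed C] {K : Type*} [Field K] [Algebra C K] [IsFractionRing C K]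
    (P : Ideal C) [P.IsPrime] (hht : P.height = 1) : IsLocAt P (heightOneVal (K := K) P hht) := by
  intro y
  rw [mem_heightOneVal_iff]
  constructor
  · rintro ⟨s, hs, a, ha⟩
    exact ⟨a, s, hs, by rw [ha, mul_comm]⟩
  · rintro ⟨a, s, hs, h⟩
    exact ⟨s, hs, a, by rw [← h, mul_comm]⟩

/-- **M6b: the certificate `HGen` at a node.**  `x` a prime of the normal noetherian chart `C`
containing `ϖ` whose local ring is a node (maximal ideal `(J, b, ϖ)`, `J * b = ϖ ^ e * ε`, `ε` a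
unit of `C_x`); `hrat`: a discrete valuation ring `V ⊇ C` of `F₀` in which the nonzero constants
are units and `u` is not a unit has residue field `Frac A₀`.  Then every height-one prime
`P ≤ x` not containing `ϖ` at which `u` is not a unit has a saturated generator: this is
`Fermat.Agent.S34.H30.HGen C x (algebraMap A₀ ↥C ϖ) u`. -/
theorem hGen_of_node (ϖ : A₀) (hϖ : Irreducible ϖ) (C : Subalgebra A₀ F₀)
    [IsIntegrallyClosed ↥C] [IsNoetherianRing ↥C] [IsFractionRing ↥C F₀]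
    (x : Ideal ↥C) [hx : x.IsPrime] (hϖx : algebraMap A₀ ↥C ϖ ∈ x)
    (J b ε : F₀) (e : ℕ)
    (hJ : J ∈ locSubring (K := F₀) x) (hJ' : J⁻¹ ∉ locSubring (K := F₀) x)
    (hb : b ∈ locSubring (K := F₀) x) (hb' : b⁻¹ ∉ locSubring (K := F₀) x)
    (hε : ε ∈ locSubring (K := F₀) x) (hε' : ε⁻¹ ∈ locSubring (K := F₀) x) (hε0 : ε ≠ 0)
    (hJb : J * b = algebraMap A₀ F₀ ϖ ^ e * ε)
    (hgen : ∀ c ∈ x, ∃ c₁ ∈ locSubring (K := F₀) x, ∃ c₂ ∈ locSubring (K := F₀) x,
      ∃ c₃ ∈ locSubring (K := F₀) x, (c : F₀) = c₁ * J + c₂ * b + c₃ * algebraMap A₀ F₀ ϖ)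
    (u : F₀)
    (hrat : ∀ V : ValuationSubring F₀, (∀ a : A₀, a ≠ 0 → (algebraMap A₀ F₀ a)⁻¹ ∈ V) →
      IsDiscreteValuationRing ↥V → (∀ c ∈ C, c ∈ V) → ¬ (u ∈ V ∧ u⁻¹ ∈ V) →
      ∀ y ∈ V, ∃ a a' : A₀, a' ≠ 0 ∧ y - algebraMap A₀ F₀ a / algebraMap A₀ F₀ a' ∈ V.nonunits) :
    ∀ P : Ideal ↥C, P.IsPrime → P.height = 1 → P ≤ x → algebraMap A₀ ↥C ϖ ∉ P →
      (∀ V : ValuationSubring F₀, IsLocAt P V → ¬ IsU V u) →
      ∃ f ∈ P, ∀ y ∈ P, ∃ s : ↥C, s ∉ x ∧ ∃ (n : ℕ) (c : ↥C),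
        s * algebraMap A₀ ↥C ϖ ^ n * y = f * c := by
  intro P hP hht hPx hϖP hnu
  have hnu' : ¬ (u ∈ heightOneVal (K := F₀) P hht ∧ u⁻¹ ∈ heightOneVal (K := F₀) P hht) :=
    hnu _ (isLocAt_heightOneVal P hht)
  obtain ⟨a, a', ha', h⟩ := hrat _ (inv_algebraMap_mem_heightOneVal ϖ hϖ C P hht hϖP)
    (isDiscreteValuationRing_heightOneVal P hht)
    (fun c hc => algebraMap_mem_heightOneVal (K := F₀) P hht ⟨c, hc⟩) hnu' b
    (locSubring_mono hPx hb)
  obtain ⟨a'', ha''⟩ := exists_const_of_frac ϖ hϖ C x hϖx b hb P hht hPx a a' ha' h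
  rw [ha''] at h
  have hξ : algebraMap A₀ ↥C a'' = 0 ∨ ∃ (k : ℕ) (u₁ : ↥C), IsUnit u₁ ∧
      algebraMap A₀ ↥C a'' = algebraMap A₀ ↥C ϖ ^ k * u₁ := by
    by_cases ha0 : a'' = 0
    · left
      rw [ha0, map_zero]
    · right
      obtain ⟨k, v, hv⟩ := IsDiscreteValuationRing.eq_unit_mul_pow_irreducible ha0 hϖ
      refine ⟨k, algebraMap A₀ ↥C (v : A₀), v.isUnit.map _, ?_⟩
      rw [hv, map_mul, map_pow, mul_comm]
  exact node_sat_gen (C := ↥C) (K := F₀) x (algebraMap A₀ ↥C ϖ) hϖx J b ε e hJ hJ' hb hb' hε hε'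
    hε0 hJb hgen (algebraMap A₀ ↥C a'') hξ P hht hPx hϖP h

/-- An element of `x` is not invertible in the local ring `C_x`. -/
theorem mul_ne_one_of_mem {C : Type*} [CommRing C] {K : Type*} [Field K] [Algebra C K]
    [IsFractionRing C K] (x : Ideal C) [hx : x.IsPrime] {c : C} (hc : c ∈ x) {z : K}
    (hz : z ∈ locSubring (K := K) x) : algebraMap C K c * z ≠ 1 := by
  intro h1
  obtain ⟨s, hs, a, ha⟩ := hz
  apply hs
  have e1 : algebraMap C K s = algebraMap C K (c * a) := by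
    rw [map_mul, ha]
    calc algebraMap C K s = algebraMap C K s * (algebraMap C K c * z) := by rw [h1, mul_one]
      _ = algebraMap C K c * (algebraMap C K s * z) := by ring
  rw [IsFractionRing.injective C K e1]
  exact x.mul_mem_right a hc

/-- **M6b: crossing points, from the unramified local ring.**  `C` the normal noetherian chart
over the (ramified) discrete valuation ring `A₀`, `x` a prime of `C` containing `ϖ`.  `R` a local
ring with a ring homomorphism `ρ : R → F₀` into the local ring `C_x` (`hρ`) which is local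
(`hρm`): the local ring of the chart over the UNRAMIFIED base at the crossing point, a regular
node `m_R = (J, b)`, `J * b = q` (the output of `H46.NodeConcl.regular`).  `hdec`: every element
of `C` is `ρ r + ϖ t` (`C = C₀[ϖ]`: `H46.EisShape.exists_eq_add`); `hq`: `q = ϖ ^ e * ε` in `A₀`
(`A₀` is totally ramified of degree `e` over the unramified base).  With the rationality `hrat`
of the support of `u`, the certificate `Fermat.Agent.S34.H30.HGen C x (algebraMap A₀ ↥C ϖ) u`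
holds. -/
theorem crossing_hgen (ϖ : A₀) (hϖ : Irreducible ϖ) (C : Subalgebra A₀ F₀)
    [IsIntegrallyClosed ↥C] [IsNoetherianRing ↥C] [IsFractionRing ↥C F₀]
    (x : Ideal ↥C) [hx : x.IsPrime] (hϖx : algebraMap A₀ ↥C ϖ ∈ x)
    {R : Type*} [CommRing R] [IsLocalRing R] (ρ : R →+* F₀)
    (hρ : ∀ r : R, ρ r ∈ locSubring (K := F₀) x)
    (hρm : ∀ r ∈ IsLocalRing.maximalIdeal R, ∀ z ∈ locSubring (K := F₀) x, ρ r * z ≠ 1)
    (hdec : ∀ c ∈ C, ∃ r : R, ∃ t ∈ C, c = ρ r + algebraMap A₀ F₀ ϖ * t)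
    (q e : ℕ) (ε : A₀ˣ) (hq : (q : A₀) = ϖ ^ e * (ε : A₀))
    (J b : R) (hJb : J * b = (q : R)) (hm : IsLocalRing.maximalIdeal R = Ideal.span {J, b})
    (u : F₀)
    (hrat : ∀ V : ValuationSubring F₀, (∀ a : A₀, a ≠ 0 → (algebraMap A₀ F₀ a)⁻¹ ∈ V) →
      IsDiscreteValuationRing ↥V → (∀ c ∈ C, c ∈ V) → ¬ (u ∈ V ∧ u⁻¹ ∈ V) →
      ∀ y ∈ V, ∃ a a' : A₀, a' ≠ 0 ∧ y - algebraMap A₀ F₀ a / algebraMap A₀ F₀ a' ∈ V.nonunits) :
    ∀ P : Ideal ↥C, P.IsPrime → P.height = 1 → P ≤ x → algebraMap A₀ ↥C ϖ ∉ P →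
      (∀ V : ValuationSubring F₀, IsLocAt P V → ¬ IsU V u) →
      ∃ f ∈ P, ∀ y ∈ P, ∃ s : ↥C, s ∉ x ∧ ∃ (n : ℕ) (c : ↥C),
        s * algebraMap A₀ ↥C ϖ ^ n * y = f * c := by
  have hinj : Function.Injective (algebraMap A₀ F₀) := FaithfulSMul.algebraMap_injective A₀ F₀
  have hϖF : algebraMap A₀ F₀ ϖ ≠ 0 := fun h0 => hϖ.ne_zero (hinj (by rw [h0, map_zero]))
  have hεmul : algebraMap A₀ F₀ (ε : A₀) * algebraMap A₀ F₀ ((ε⁻¹ : A₀ˣ) : A₀) = 1 := by
    rw [← map_mul, ← Units.val_mul, mul_inv_cancel, Units.val_one, map_one]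
  have hεF : algebraMap A₀ F₀ (ε : A₀) ≠ 0 := left_ne_zero_of_mul_eq_one hεmul
  have hJbF : ρ J * ρ b = algebraMap A₀ F₀ ϖ ^ e * algebraMap A₀ F₀ (ε : A₀) := by
    rw [← map_mul, hJb, map_natCast, ← map_pow, ← map_mul, ← hq, map_natCast]
  have hprod0 : ρ J * ρ b ≠ 0 := by
    rw [hJbF]
    exact mul_ne_zero (pow_ne_zero e hϖF) hεF
  have hJm : J ∈ IsLocalRing.maximalIdeal R := by
    rw [hm]
    exact Ideal.subset_span (by simp)
  have hbm : b ∈ IsLocalRing.maximalIdeal R := by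
    rw [hm]
    exact Ideal.subset_span (by simp)
  have hmemC : ∀ a : A₀, algebraMap A₀ F₀ a ∈ locSubring (K := F₀) x := fun a =>
    algebraMap_mem_locSubring x (algebraMap A₀ ↥C a)
  refine hGen_of_node ϖ hϖ C x hϖx (ρ J) (ρ b) (algebraMap A₀ F₀ (ε : A₀)) e (hρ J) ?_ (hρ b) ?_
    (hmemC _) ?_ hεF hJbF ?_ u hrat
  · intro h
    exact hρm J hJm _ h (mul_inv_cancel₀ (left_ne_zero_of_mul hprod0))
  · intro h
    exact hρm b hbm _ h (mul_inv_cancel₀ (right_ne_zero_of_mul hprod0))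
  · have e1 : (algebraMap A₀ F₀ (ε : A₀))⁻¹ = algebraMap A₀ F₀ ((ε⁻¹ : A₀ˣ) : A₀) :=
      (eq_inv_of_mul_eq_one_right hεmul).symm
    rw [e1]
    exact hmemC _
  · intro c hc
    obtain ⟨r, t, ht, hrt⟩ := hdec (c : F₀) c.2
    -- `ρ r = c - ϖ t` is the image of an element of `x`
    have hc' : c - algebraMap A₀ ↥C ϖ * ⟨t, ht⟩ ∈ x := x.sub_mem hc (x.mul_mem_right _ hϖx)
    have hρr : ρ r = algebraMap ↥C F₀ (c - algebraMap A₀ ↥C ϖ * ⟨t, ht⟩) := by
      have e2 : algebraMap ↥C F₀ (c - algebraMap A₀ ↥C ϖ * ⟨t, ht⟩)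
          = (c : F₀) - algebraMap A₀ F₀ ϖ * t := rfl
      rw [e2, hrt]
      ring
    have hrm : r ∈ IsLocalRing.maximalIdeal R := by
      rw [IsLocalRing.mem_maximalIdeal]
      intro hru
      obtain ⟨r', hr'⟩ := hru.exists_right_inv
      have h1 : ρ r * ρ r' = 1 := by rw [← map_mul, hr', map_one]
      rw [hρr] at h1
      exact mul_ne_one_of_mem x hc' (hρ r') h1
    rw [hm] at hrm
    obtain ⟨r₁, r₂, hr⟩ := Ideal.mem_span_pair.mp hrm
    refine ⟨ρ r₁, hρ r₁, ρ r₂, hρ r₂, t, ?_, ?_⟩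
    · exact algebraMap_mem_locSubring x (⟨t, ht⟩ : ↥C)
    · rw [hrt, ← hr, map_add, map_mul, map_mul]
      ring

end Main

end Fermat.Agent.S34.H77
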