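/-
S34 / B' (helper77): glue for the crossing points (M6b).

* `crossing_hgen_atPrime` : `crossing_hgen` with the unramified local ring given as a localisation
  `R` of an unramified chart `C₀` at the prime `x₀` under `x` (`f : C₀ →+* ↥C`); the map
  `ρ : R →+* F₀` and its two properties are constructed here.
-/
import Fermat.Agent.S34.H77.NodeHGen

set_option autoImplicit false

namespace Fermat.Agent.S34.H77

open Fermat.Agent.S34.H54 Fermat.Agent.S34.H7

section Wrapper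

variable {A₀ : Type*} [CommRing A₀] [IsDomain A₀] [IsDiscreteValuationRing A₀]
variable {F₀ : Type*} [Field F₀] [Algebra A₀ F₀] [FaithfulSMul A₀ F₀]

/-- `crossing_hgen` for the localisation `R` of an unramified chart `C₀` at the prime `x₀`
under `x`. -/
theorem crossing_hgen_atPrime (ϖ : A₀) (hϖ : Irreducible ϖ) (C : Subalgebra A₀ F₀)
    [IsIntegrallyClosed ↥C] [IsNoetherianRing ↥C] [IsFractionRing ↥C F₀]
    (x : Ideal ↥C) [hx : x.IsPrime] (hϖx : algebraMap A₀ ↥C ϖ ∈ x)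
    {C₀ : Type*} [CommRing C₀] (f : C₀ →+* ↥C)
    (x₀ : Ideal C₀) [hx₀p : x₀.IsPrime] (hx₀ : x₀ = x.comap f)
    (hdec : ∀ c : ↥C, ∃ (a : C₀) (t : ↥C), c = f a + algebraMap A₀ ↥C ϖ * t)
    (R : Type*) [CommRing R] [Algebra C₀ R] [IsLocalization.AtPrime R x₀] [IsLocalRing R]
    (q e : ℕ) (ε : A₀ˣ) (hq : (q : A₀) = ϖ ^ e * (ε : A₀))
    (J b : R) (hJb : J * b = (q : R)) (hm : IsLocalRing.maximalIdeal R = Ideal.span {J, b})
    (u : F₀)
    (hrat : ∀ V : ValuationSubring F₀, (∀ a : A₀, a ≠ 0 → (algebraMap A₀ F₀ a)⁻¹ ∈ V) →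
      IsDiscreteValuationRing ↥V → (∀ c ∈ C, c ∈ V) → ¬ (u ∈ V ∧ u⁻¹ ∈ V) →
      ∀ y ∈ V, ∃ a a' : A₀, a' ≠ 0 ∧ y - algebraMap A₀ F₀ a / algebraMap A₀ F₀ a' ∈ V.nonunits) :
    ∀ P : Ideal ↥C, P.IsPrime → P.height = 1 → P ≤ x → algebraMap A₀ ↥C ϖ ∉ P →
      (∀ V : ValuationSubring F₀, IsLocAt P V → ¬ IsU V u) →
      ∃ f' ∈ P, ∀ y ∈ P, ∃ s : ↥C, s ∉ x ∧ ∃ (n : ℕ) (c : ↥C),
        s * algebraMap A₀ ↥C ϖ ^ n * y = f' * c := by
  -- the composite `g : C₀ → F₀`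
  let g : C₀ →+* F₀ := (algebraMap ↥C F₀).comp f
  have hgcoe : ∀ a : C₀, g a = ((f a : ↥C) : F₀) := fun a => rfl
  have hnotmem : ∀ s : C₀, s ∉ x₀ → f s ∉ x := by
    intro s hs hfs
    apply hs
    rw [hx₀]
    exact hfs
  have hmem : ∀ s : C₀, s ∈ x₀ → f s ∈ x := by
    intro s hs
    rw [hx₀] at hs
    exact hs
  have hne : ∀ s : C₀, s ∉ x₀ → g s ≠ 0 := by
    intro s hs h0
    apply hnotmem s hs
    have h1 : f s = 0 := by
      apply Subtype.ext
      rw [← hgcoe, h0]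
      rfl
    rw [h1]
    exact x.zero_mem
  have hunit : ∀ s : x₀.primeCompl, IsUnit (g (s : C₀)) := fun s => IsUnit.mk0 _ (hne s.1 s.2)
  let ρ : R →+* F₀ := IsLocalization.lift (M := x₀.primeCompl) (g := g) hunit
  have hρmk : ∀ (a : C₀) (s : x₀.primeCompl),
      ρ (IsLocalization.mk' R a s) * g (s : C₀) = g a := by
    intro a s
    have h := (IsLocalization.lift_mk'_spec (M := x₀.primeCompl) (S := R) hunit a
      (ρ (IsLocalization.mk' R a s)) s).1 rfl
    rw [mul_comm]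
    exact h.symm
  have hρ : ∀ r : R, ρ r ∈ locSubring (K := F₀) x := by
    intro r
    obtain ⟨⟨a, s⟩, rfl⟩ := IsLocalization.mk'_surjective x₀.primeCompl r
    refine ⟨f (s : C₀), hnotmem _ s.2, f a, ?_⟩
    have h := hρmk a s
    rw [mul_comm] at h
    exact h.symm
  have hρm : ∀ r ∈ IsLocalRing.maximalIdeal R, ∀ z ∈ locSubring (K := F₀) x, ρ r * z ≠ 1 := by
    intro r hr z hz h1
    obtain ⟨⟨a, s⟩, rfl⟩ := IsLocalization.mk'_surjective x₀.primeCompl r
    have ha : a ∈ x₀ := by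
      have h2 := (IsLocalization.AtPrime.mk'_mem_maximal_iff R x₀ a s).1 hr
      exact h2
    obtain ⟨σ, hσ, c, hc⟩ := hz
    -- `g a * (σ z) = g s * σ` with the left side in `x` and the right side not
    have hkey : (f a * c : ↥C) = f (s : C₀) * σ := by
      apply Subtype.ext
      have h3 := hρmk a s
      have hc' : ((c : ↥C) : F₀) = (σ : F₀) * z := hc
      have e1 : ((f a * c : ↥C) : F₀) = g a * ((σ : F₀) * z) := by
        rw [← hc']
        rfl
      have e2 : ((f (s : C₀) * σ : ↥C) : F₀) = g (s : C₀) * (σ : F₀) := rfl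
      rw [e1, e2, ← h3]
      calc ρ (IsLocalization.mk' R a s) * g (s : C₀) * ((σ : F₀) * z)
          = (ρ (IsLocalization.mk' R a s) * z) * (g (s : C₀) * (σ : F₀)) := by ring
        _ = g (s : C₀) * (σ : F₀) := by rw [h1, one_mul]
    have hL : (f a * c : ↥C) ∈ x := x.mul_mem_right _ (hmem a ha)
    rw [hkey] at hL
    rcases hx.mem_or_mem hL with h | h
    · exact hnotmem _ s.2 h
    · exact hσ h
  have hdec' : ∀ c ∈ C, ∃ r : R, ∃ t ∈ C, c = ρ r + algebraMap A₀ F₀ ϖ * t := by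
    intro c hc
    obtain ⟨a, t, hat⟩ := hdec ⟨c, hc⟩
    refine ⟨algebraMap C₀ R a, (t : F₀), t.2, ?_⟩
    have h1 : ρ (algebraMap C₀ R a) = g a :=
      IsLocalization.lift_eq (M := x₀.primeCompl) (S := R) hunit a
    rw [h1, hgcoe]
    have h2 := congrArg (Subtype.val : ↥C → F₀) hat
    exact h2
  exact crossing_hgen ϖ hϖ C x hϖx ρ hρ hρm hdec' q e ε hq J b hJb hm u hrat

end Wrapper

end Fermat.Agent.S34.H77
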