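/-
Program B' (S34), helper77: the interface of the crossing-point leaf (M6b).

`RegularCrossLeaf` : over the INERTIA FIELD `E = H92.inertiaField A K₀` (where the residue
characteristic `q` is a uniformiser of `A ∩ E`), every closed point of the chart of the standard
base function lying on both components of the special fibre is a regular node: the maximal
ideal of its local ring is generated by two elements whose product is `q`.

The leaf `H77.CrossLeafB H30.StdB` of the root follows from it (file `CrossFinal.lean`).
-/
import Fermat.Agent.S34.H30.Final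
import Fermat.Agent.S34.H92.BaseFinal

set_option autoImplicit false
set_option linter.style.haveILetI false
set_option linter.unusedSectionVars false

open AlgebraicCurve ModularCurve

noncomputable section

namespace Fermat.Agent.S34.H77

open Fermat.Agent.S34.H27 Fermat.Agent.S34.H10 Fermat.Agent.S34.H7
  Fermat.Agent.S18 Fermat.Agent.S18.H74 Fermat.Agent.S18.H19 Fermat.Agent.S34.H19
  Fermat.Agent.S34.H61 Fermat.Agent.S34.H64 Fermat.Agent.S34.H30

/-- **The regular node over the inertia field** (the E-level form of leaf M6b): at the good
level `M` (no elliptic elements, `2 ∣ M` unless `q = 2`, `3 ∣ M` unless `q = 3`), for the standard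
base function `x₀`, over the inertia field `E` of `A` in a normal number field `K₀`: every
maximal ideal `y` of the chart `chart (A ∩ E) (α x₀)` of level `M q` containing the nonunits of
both Gauss valuation rings has a local ring whose maximal ideal is `(J, b)` with `J b = q`. -/
def RegularCrossLeaf : Prop :=
  ∀ (M q : ℕ) [NeZero M] [Fact q.Prime] (hqM : ¬ q ∣ M), LevelOK M q →
    ∀ (A : ValuationSubring Kb) (hA : A.LiesOverPrime q) (_hAtop : A ≠ ⊤)
      (O₁ : ValuationSubring (FN (M * q))) (w : FN (M * q) ≃+* FN (M * q)),
      TwoGauss M q hqM A hA O₁ w →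
      ∀ (x₀ : FN M), IsBase M q hqM A hA x₀ → StdB M q x₀ →
      ∀ (K₀ : IntermediateField ℚ Kb) [FiniteDimensional ℚ K₀] [Normal ℚ K₀]
        (jE : ↥(ratForm (M * q) (Fermat.Agent.S34.H92.inertiaField A K₀))),
        (jE : FN (M * q)) = heckeAlphaBar Kb M q x₀ →
        letI := algComap (A.comap (algebraMap (Fermat.Agent.S34.H92.inertiaField A K₀) Kb))
          (ratForm (M * q) (Fermat.Agent.S34.H92.inertiaField A K₀))
        ∀ (y : Ideal ↥(chart ↥(A.comap (algebraMap (Fermat.Agent.S34.H92.inertiaField A K₀) Kb))
            jE)) [y.IsPrime], y.IsMaximal →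
          (∀ c : ↥(chart ↥(A.comap (algebraMap (Fermat.Agent.S34.H92.inertiaField A K₀) Kb)) jE),
            (c : ↥(ratForm (M * q) (Fermat.Agent.S34.H92.inertiaField A K₀))) ∈
              (O₁.comap (algebraMap ↥(ratForm (M * q) (Fermat.Agent.S34.H92.inertiaField A K₀))
                (FN (M * q)))).nonunits → c ∈ y) →
          (∀ c : ↥(chart ↥(A.comap (algebraMap (Fermat.Agent.S34.H92.inertiaField A K₀) Kb)) jE),
            (c : ↥(ratForm (M * q) (Fermat.Agent.S34.H92.inertiaField A K₀))) ∈
              ((gaussTwo M q O₁ w).comap
                (algebraMap ↥(ratForm (M * q) (Fermat.Agent.S34.H92.inertiaField A K₀))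
                  (FN (M * q)))).nonunits → c ∈ y) →
          ∃ J b : Localization.AtPrime y, J * b = ((q : ℕ) : Localization.AtPrime y) ∧
            IsLocalRing.maximalIdeal (Localization.AtPrime y) = Ideal.span {J, b}

end Fermat.Agent.S34.H77
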