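/-
Program B' (S34), helper77: the crossing-point leaf (M6b) from the regular node over the inertia
field.

* `comap_isMaximal_of_dec`          : if `C = f(C₀) + ϖ C` and `ϖ ∈ x`, the trace of the maximal
                                      ideal `x` on `C₀` is maximal;
* `span_natCast_isRadical_ratForm`  : the special fibre of the chart over an unramified base is
                                      reduced;
* `crossLeafB_std_of_regular`       : `RegularCrossLeaf → CrossLeafB StdB`.
-/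
import Fermat.Agent.S34.H77.CrossDefs
import Fermat.Agent.S34.H46.CrossConcrete
import Fermat.Agent.S34.H61.Concrete3
import Fermat.Agent.S34.H59.FDeg
import Fermat.Agent.S34.H97.Radical
import Fermat.Agent.S34.H92.BaseAdapt
import Fermat.Agent.S34.H44.RatCharts
import Fermat.Agent.S34.H54.KrullAut
import Fermat.Agent.S34.H30.ChartClose

set_option autoImplicit false
set_option linter.style.haveILetI false
set_option linter.unusedSectionVars false

open AlgebraicCurve ModularCurve

noncomputable section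

namespace Fermat.Agent.S34.H77

open Fermat.Agent.S34.H27 Fermat.Agent.S34.H10 Fermat.Agent.S34.H7
  Fermat.Agent.S18 Fermat.Agent.S18.H74 Fermat.Agent.S18.H19 Fermat.Agent.S34.H19
  Fermat.Agent.S34.H61 Fermat.Agent.S34.H64 Fermat.Agent.S34.H30

/-- If every element of `C` is congruent modulo `ϖ` to an element of the image of `C₀` and `ϖ`
lies in the maximal ideal `x`, then the trace of `x` on `C₀` is maximal. -/
theorem comap_isMaximal_of_dec {C₀ C : Type*} [CommRing C₀] [CommRing C] (f : C₀ →+* C)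
    (x : Ideal C) (hx : x.IsMaximal) (ϖ : C) (hϖ : ϖ ∈ x)
    (hdec : ∀ c : C, ∃ (a : C₀) (t : C), c = f a + ϖ * t) : (x.comap f).IsMaximal := by
  haveI := hx
  have hsurj : Function.Surjective ((Ideal.Quotient.mk x).comp f) := by
    intro y
    obtain ⟨c, rfl⟩ := Ideal.Quotient.mk_surjective y
    obtain ⟨a, t, rfl⟩ := hdec c
    refine ⟨a, ?_⟩
    rw [RingHom.comp_apply, eq_comm, ← sub_eq_zero, ← map_sub, Ideal.Quotient.eq_zero_iff_mem]
    rw [add_sub_cancel_left]
    exact x.mul_mem_right t hϖ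
  have hker : RingHom.ker ((Ideal.Quotient.mk x).comp f) = x.comap f := by
    ext a
    rw [RingHom.mem_ker, RingHom.comp_apply, Ideal.Quotient.eq_zero_iff_mem, Ideal.mem_comap]
  rw [← hker]
  letI : Field (C ⧸ x) := Ideal.Quotient.field x
  exact RingHom.ker_isMaximal_of_surjective _ hsurj

set_option maxHeartbeats 1000000 in
set_option synthInstance.maxHeartbeats 400000 in
/-- **Reduced special fibre over an unramified base**: if `q` is a uniformiser of `A ∩ E`, the
ideal `q C` of the chart `C = chart (A ∩ E) (α x₀)` of an admissible base function is radical. -/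
theorem span_natCast_isRadical_ratForm {M q : ℕ} [NeZero M] [Fact q.Prime] {hqM : ¬ q ∣ M}
    {A : ValuationSubring Kb} {hA : A.LiesOverPrime q} {O₁ : ValuationSubring (FN (M * q))}
    {w : FN (M * q) ≃+* FN (M * q)} (hTG : TwoGauss M q hqM A hA O₁ w) (hAtop : A ≠ ⊤)
    (x₀ : FN M) (hx₀ : IsBase M q hqM A hA x₀) (E : IntermediateField ℚ Kb)
    [FiniteDimensional ℚ E]
    (hqE : Irreducible ((q : ℕ) : ↥(A.comap (algebraMap E Kb))))
    (jE : ↥(ratForm (M * q) E)) (hjE : (jE : FN (M * q)) = heckeAlphaBar Kb M q x₀) :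
    letI := algComap (A.comap (algebraMap E Kb)) (ratForm (M * q) E)
    (Ideal.span {((q : ℕ) : ↥(chart ↥(A.comap (algebraMap E Kb)) jE))}).IsRadical := by
  have hqp : q.Prime := Fact.out
  haveI : NeZero q := ⟨hqp.ne_zero⟩
  letI algE := algComap (A.comap (algebraMap E Kb)) (ratForm (M * q) E)
  haveI hdvr : IsDiscreteValuationRing ↥(A.comap (algebraMap E Kb)) :=
    Fermat.Agent.S34.H78.isDVR_comap hAtop E
  have hxE : x₀ ∈ ratForm M E := mem_ratForm_of_mem_range M E hx₀.1
  obtain ⟨hS, hS'⟩ := hx₀.2 E hxE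
  have hdeg := Fermat.Agent.S34.H59.finrank_alphaForm M q E hqp hqM
  have hgood := vGood_ratForm_of_finrank hTG E ((q : ℕ) : ↥(A.comap (algebraMap E Kb))) hqE
    (⟨x₀, hxE⟩ : ↥(ratForm M E)) hS hS' hdeg
  obtain rfl : jE = alphaForm M q E (⟨x₀, hxE⟩ : ↥(ratForm M E)) := Subtype.ext hjE
  have hq0 : ((q : ℕ) : ↥(ratForm (M * q) E)) ≠ 0 := Nat.cast_ne_zero.2 hqp.ne_zero
  exact Fermat.Agent.S34.H97.span_natCast_isRadical_of_unif_sat q hq0 _ _ _ hgood.unif₁
    hgood.unif₂ hgood.le₁₁ hgood.le₁₂ hgood.sat₁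

set_option maxHeartbeats 2000000 in
set_option synthInstance.maxHeartbeats 400000 in
/-- **The crossing leaf from the regular node over the inertia field.** -/
theorem crossLeafB_std_of_regular (hreg : RegularCrossLeaf) : CrossLeafB StdB := by
  intro M q _ _ hqM hlev A hA hAtop O₁ w hTG x₀ hx₀ hB K₀ _ _ ϖ hϖ j hj σ m u₀ hu₀ hD hR
  intro x hx hϖx hboth
  have hqp : q.Prime := Fact.out
  haveI : NeZero q := ⟨hqp.ne_zero⟩
  haveI : NeZero (M * q) := ⟨Nat.mul_ne_zero (NeZero.ne M) (NeZero.ne q)⟩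
  obtain ⟨π, e, g, hIB, hπ0, hg0⟩ :=
    Fermat.Agent.S34.H92.inertiaBase_exists (A := A) (K := K₀) q hqp hA
  haveI hfinE : FiniteDimensional ℚ ↥(Fermat.Agent.S34.H92.inertiaField A K₀) := hIB.fin
  have hrat : heckeAlphaBar Kb M q x₀ ∈ Set.range (ratEmb (M * q)) := hx₀.alpha_rat
  have htr : Transcendental Kb (heckeAlphaBar Kb M q x₀) := hx₀.alpha_transcendental
  obtain ⟨jE, hjE⟩ : ∃ jE : ↥(ratForm (M * q) (Fermat.Agent.S34.H92.inertiaField A K₀)),
      (jE : FN (M * q)) = heckeAlphaBar Kb M q x₀ :=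
    ⟨⟨_, mem_ratForm_of_mem_range (M * q) _ hrat⟩, rfl⟩
  obtain rfl : j = Fermat.Agent.S34.H46.ratIncl (M * q) hIB.le jE :=
    Subtype.ext (by rw [Fermat.Agent.S34.H46.coe_ratIncl, hj, hjE])
  right
  letI algE := algComap (A.comap (algebraMap ↥(Fermat.Agent.S34.H92.inertiaField A K₀) Kb))
    (ratForm (M * q) (Fermat.Agent.S34.H92.inertiaField A K₀))
  letI algK := algComap (A.comap (algebraMap ↥K₀ Kb)) (ratForm (M * q) K₀)
  -- the chart over the inertia field
  have hgoodE := Fermat.Agent.S34.H44.ratForm_chartsGood_of_mem (M * q) A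
    (Fermat.Agent.S34.H92.inertiaField A K₀) hAtop jE (by rw [hjE]; exact hrat)
    (by rw [hjE]; exact htr)
  have hiclE := hgoodE.icl₁
  have hfracE : IsFractionRing
      ↥(chart ↥(A.comap (algebraMap ↥(Fermat.Agent.S34.H92.inertiaField A K₀) Kb)) jE)
      ↥(ratForm (M * q) (Fermat.Agent.S34.H92.inertiaField A K₀)) :=
    Fermat.Agent.S34.H54.isFractionRing_of_forall_div _ hgoodE.frac₁
  have hqE : Irreducible
      ((q : ℕ) : ↥(A.comap (algebraMap ↥(Fermat.Agent.S34.H92.inertiaField A K₀) Kb))) :=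
    hIB.irreducible_natCast hqp hA
  have hradE := span_natCast_isRadical_ratForm hTG hAtop x₀ hx₀
    (Fermat.Agent.S34.H92.inertiaField A K₀) hqE jE hjE
  -- the chart of the model
  have hgoodK := Fermat.Agent.S34.H44.ratForm_chartsGood_of_mem (M * q) A K₀ hAtop
    (Fermat.Agent.S34.H46.ratIncl (M * q) hIB.le jE) (by rw [hj]; exact hrat)
    (by rw [hj]; exact htr)
  haveI hdvrK : IsDiscreteValuationRing ↥(A.comap (algebraMap ↥K₀ Kb)) :=
    Fermat.Agent.S34.H78.isDVR_comap hAtop K₀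
  haveI hiclK := hgoodK.icl₁
  haveI hnoethK := hgoodK.noeth₁
  haveI hfracK : IsFractionRing
      ↥(chart ↥(A.comap (algebraMap ↥K₀ Kb)) (Fermat.Agent.S34.H46.ratIncl (M * q) hIB.le jE))
      ↥(ratForm (M * q) K₀) :=
    Fermat.Agent.S34.H54.isFractionRing_of_forall_div _ hgoodK.frac₁
  haveI hxp : x.IsPrime := hx.isPrime
  -- the trace of `x` on the chart over the inertia field
  have hdec := Fermat.Agent.S34.H46.chart_dec_ratForm_hom (M * q) A hIB hqp.ne_zero hπ0 hg0 ϖ hϖ
    jE hiclE hfracE hradE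
  have hymax := comap_isMaximal_of_dec (Fermat.Agent.S34.H46.chartIncl (M * q) A hIB.le jE) x hx
    _ hϖx hdec
  haveI hyp := hymax.isPrime
  -- both components pass through the trace
  have hb : ∀ V : ValuationSubring (FN (M * q)),
      (∀ c : ↥(chart ↥(A.comap (algebraMap ↥K₀ Kb))
          (Fermat.Agent.S34.H46.ratIncl (M * q) hIB.le jE)),
        (c : ↥(ratForm (M * q) K₀)) ∈
          (V.comap (algebraMap ↥(ratForm (M * q) K₀) (FN (M * q)))).nonunits → c ∈ x) →
      ∀ c : ↥(chart ↥(A.comap (algebraMap ↥(Fermat.Agent.S34.H92.inertiaField A K₀) Kb)) jE),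
        (c : ↥(ratForm (M * q) (Fermat.Agent.S34.H92.inertiaField A K₀))) ∈
          (V.comap (algebraMap ↥(ratForm (M * q) (Fermat.Agent.S34.H92.inertiaField A K₀))
            (FN (M * q)))).nonunits →
        c ∈ x.comap (Fermat.Agent.S34.H46.chartIncl (M * q) A hIB.le jE) := by
    intro V hV c hc
    rw [Ideal.mem_comap]
    apply hV
    rw [Fermat.Agent.S34.H61.mem_nonunits_comap_iff] at hc ⊢
    exact hc
  have hnode := hreg M q hqM hlev A hA hAtop O₁ w hTG x₀ hx₀ hB K₀ jE hjE
    (x.comap (Fermat.Agent.S34.H46.chartIncl (M * q) A hIB.le jE)) hymax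
    (hb O₁ hboth.1) (hb (gaussTwo M q O₁ w) hboth.2)
  exact Fermat.Agent.S34.H46.hgen_ratForm_of_regular (M * q) A hIB hqp.ne_zero hπ0 hg0 ϖ hϖ jE
    hiclE hfracE hradE x hϖx _ rfl hnode u₀ (fun V hV hdvr _ hnu => hR V hV hdvr hnu)

end Fermat.Agent.S34.H77
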