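/-
S34 / B' (helper77): transfer of the local certificate `H30.PointOK` between two charts.

* `atPrimeEquivLocSubring` : `Localization.AtPrime P ≃+* C_P ⊆ K`.
* `height_eq_one_of_isLocAt` : a prime whose local ring is a discrete valuation ring has
  height one.
* `pointUFD_transfer`, `hGen_transfer`, `pointOK_transfer` : if two charts `C`, `C'` have the
  same local ring `C_x = C'_{x'}` inside the function field, the certificate passes from
  `(C, x)` to `(C', x')`.
-/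
import Fermat.Agent.S34.H30.Model

set_option autoImplicit false
set_option linter.style.haveILetI false

namespace Fermat.Agent.S34.H77

open Fermat.Agent.S34.H54 Fermat.Agent.S34.H7

section General

variable {C : Type*} [CommRing C] [IsDomain C] {K : Type*} [Field K] [Algebra C K]
  [IsFractionRing C K]

/-- `Localization.AtPrime P ≃+* C_P ⊆ K`. -/
noncomputable def atPrimeEquivLocSubring (P : Ideal C) [P.IsPrime] :
    Localization.AtPrime P ≃+* ↥(locSubring (K := K) P) :=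
  RingEquiv.ofBijective
    ((atPrimeToField (K := K) P).codRestrict (locSubring (K := K) P)
      (fun z => by
        have h : atPrimeToField (K := K) P z ∈ (atPrimeToField (K := K) P).range := ⟨z, rfl⟩
        rw [range_atPrimeToField] at h
        exact h))
    ⟨fun a b hab => atPrimeToField_injective (K := K) P (congrArg Subtype.val hab),
      fun y => by
        have h : (y : K) ∈ (atPrimeToField (K := K) P).range := by
          rw [range_atPrimeToField]
          exact y.2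
        obtain ⟨z, hz⟩ := h
        exact ⟨z, Subtype.ext hz⟩⟩

/-- A prime whose local ring (inside the fraction field) is a discrete valuation ring has
height one. -/
theorem height_eq_one_of_isLocAt (P : Ideal C) [P.IsPrime] (V : ValuationSubring K)
    (hV : IsLocAt P V) (hdvr : IsDiscreteValuationRing ↥V) : P.height = 1 := by
  have hS : locSubring (K := K) P = V.toSubring := by
    ext y
    constructor
    · rintro ⟨s, hs, a, ha⟩
      exact (hV y).2 ⟨a, s, hs, by rw [mul_comm]; exact ha.symm⟩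
    · intro hy
      obtain ⟨a, s, hs, h⟩ := (hV y).1 hy
      exact ⟨s, hs, a, by rw [mul_comm]; exact h.symm⟩
  let e : Localization.AtPrime P ≃+* ↥V :=
    (atPrimeEquivLocSubring (K := K) P).trans (RingEquiv.subringCongr hS)
  have h1 : ringKrullDim (Localization.AtPrime P) = P.height :=
    IsLocalization.AtPrime.ringKrullDim_eq_height P (Localization.AtPrime P)
  have h2 : ringKrullDim ↥V = 1 := IsDiscreteValuationRing.ringKrullDim_eq_one ↥V
  have h3 := ringKrullDim_eq_of_ringEquiv e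
  rw [h1, h2] at h3
  exact_mod_cast h3

end General

section Transfer

variable {A₀ F₀ : Type} [CommRing A₀] [Field F₀] [Algebra A₀ F₀]

/-- Factoriality of the local ring passes between two charts with the same local ring. -/
theorem pointUFD_transfer (C C' : Subalgebra A₀ F₀) [IsFractionRing ↥C F₀]
    [IsFractionRing ↥C' F₀] (x : Ideal ↥C) (hx : x.IsPrime) (x' : Ideal ↥C') (hx' : x'.IsPrime)
    (hloc : ∀ y : F₀, y ∈ @locSubring _ _ F₀ _ _ x hx ↔ y ∈ @locSubring _ _ F₀ _ _ x' hx')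
    (h : H30.PointUFD C x hx) : H30.PointUFD C' x' hx' := by
  haveI := hx
  haveI := hx'
  have hS : locSubring (K := F₀) x = locSubring (K := F₀) x' := by
    ext y
    exact hloc y
  let e : Localization.AtPrime x ≃+* Localization.AtPrime x' :=
    ((atPrimeEquivLocSubring (K := F₀) x).trans (RingEquiv.subringCongr hS)).trans
      (atPrimeEquivLocSubring (K := F₀) x').symm
  have h0 : UniqueFactorizationMonoid (Localization.AtPrime x) := h
  exact MulEquiv.uniqueFactorizationMonoid e.toMulEquiv h0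

/-- The saturated generators pass between two charts with the same local ring. -/
theorem hGen_transfer (C C' : Subalgebra A₀ F₀) [IsFractionRing ↥C F₀]
    [IsFractionRing ↥C' F₀] [IsNoetherianRing ↥C'] [IsIntegrallyClosed ↥C']
    (x : Ideal ↥C) (hx : x.IsPrime) (x' : Ideal ↥C') (hx' : x'.IsPrime)
    (hloc : ∀ y : F₀, y ∈ @locSubring _ _ F₀ _ _ x hx ↔ y ∈ @locSubring _ _ F₀ _ _ x' hx')
    (ϖ : A₀) (u : F₀)
    (h : H30.HGen C x (algebraMap A₀ ↥C ϖ) u) :
    H30.HGen C' x' (algebraMap A₀ ↥C' ϖ) u := by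
  haveI := hx
  haveI := hx'
  intro P' hP' hht' hle' hπ' hnu'
  haveI := hP'
  obtain ⟨V, hV, hdvr⟩ := exists_isLocAt (F := F₀) P' hht'
  -- the common local ring lies in `V`
  have hLV : ∀ y : F₀, y ∈ locSubring (K := F₀) x' → y ∈ V := by
    rintro y ⟨s, hs, a, ha⟩
    exact (hV y).2 ⟨a, s, fun hsP => hs (hle' hsP), by rw [mul_comm]; exact ha.symm⟩
  have hCL : ∀ c : ↥C, (c : F₀) ∈ locSubring (K := F₀) x' := fun c =>
    (hloc _).1 (algebraMap_mem_locSubring x c)
  have hCV : ∀ c : ↥C, (c : F₀) ∈ V := fun c => hLV _ (hCL c)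
  have hC'L : ∀ c : ↥C', (c : F₀) ∈ locSubring (K := F₀) x := fun c =>
    (hloc _).2 (algebraMap_mem_locSubring x' c)
  -- units
  have hunit : ∀ c : ↥C, c ∉ x → (c : F₀)⁻¹ ∈ locSubring (K := F₀) x := by
    intro c hc
    have hc0 : (c : F₀) ≠ 0 := by
      intro h0
      apply hc
      have : c = 0 := Subtype.ext h0
      rw [this]
      exact x.zero_mem
    exact ⟨c, hc, 1, by
      show ((1 : ↥C) : F₀) = (c : F₀) * (c : F₀)⁻¹
      rw [mul_inv_cancel₀ hc0]
      rfl⟩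
  have hunit' : ∀ c : ↥C', c ∉ x' → (c : F₀)⁻¹ ∈ locSubring (K := F₀) x' := by
    intro c hc
    have hc0 : (c : F₀) ≠ 0 := by
      intro h0
      apply hc
      have : c = 0 := Subtype.ext h0
      rw [this]
      exact x'.zero_mem
    exact ⟨c, hc, 1, by
      show ((1 : ↥C') : F₀) = (c : F₀) * (c : F₀)⁻¹
      rw [mul_inv_cancel₀ hc0]
      rfl⟩
  -- the centre of `V` on `C`
  let φ : ↥C →+* ↥V := (algebraMap ↥C F₀).codRestrict V.toSubring hCV
  let P : Ideal ↥C := (IsLocalRing.maximalIdeal ↥V).comap φ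
  haveI hPprime : P.IsPrime := Ideal.comap_isPrime φ _
  have hPmem : ∀ c : ↥C, c ∈ P ↔ (c : F₀) ∈ V.nonunits := by
    intro c
    have h1 : c ∈ P ↔ φ c ∈ IsLocalRing.maximalIdeal ↥V := Iff.rfl
    rw [h1, ← ValuationSubring.coe_mem_nonunits_iff]
    rfl
  have hP'mem : ∀ c : ↥C', c ∈ P' ↔ (c : F₀) ∈ V.nonunits := by
    intro c
    constructor
    · intro hc
      exact hV.mem_nonunits_of_mem hc
    · intro hc
      by_contra hcP
      have hU := hV.isU_of_notMem hcP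
      rw [ValuationSubring.mem_nonunits_iff_or] at hc
      rcases hc with hc | hc
      · exact hcP (by
          have : c = 0 := Subtype.ext hc
          rw [this]
          exact P'.zero_mem)
      · exact hc hU.2
  have hPle : P ≤ x := by
    intro c hc
    by_contra hcx
    have h1 := (hPmem c).1 hc
    have h2 : (c : F₀)⁻¹ ∈ V := hLV _ ((hloc _).1 (hunit c hcx))
    rw [ValuationSubring.mem_nonunits_iff_or] at h1
    rcases h1 with h1 | h1
    · apply hcx
      have : c = 0 := Subtype.ext h1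
      rw [this]
      exact x.zero_mem
    · exact h1 h2
  have hIs : IsLocAt P V := by
    intro y
    constructor
    · intro hy
      obtain ⟨a', s', hs', hys⟩ := (hV y).1 hy
      obtain ⟨σ₁, hσ₁, a₁, ha₁⟩ := hC'L a'
      obtain ⟨σ₂, hσ₂, a₂, ha₂⟩ := hC'L s'
      refine ⟨σ₂ * a₁, σ₁ * a₂, ?_, ?_⟩
      · intro hmem
        rcases hPprime.mem_or_mem hmem with h1 | h1
        · exact hσ₁ (hPle h1)
        · -- `a₂ = σ₂ s'` is a unit of `V`
          have h2 := (hPmem a₂).1 h1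
          have h3 : (a₂ : F₀) = (σ₂ : F₀) * (s' : F₀) := ha₂
          have h4 : IsU V ((s' : ↥C') : F₀) := hV.isU_of_notMem hs'
          have h5 : ((σ₂ : ↥C) : F₀)⁻¹ ∈ V := hLV _ ((hloc _).1 (hunit σ₂ hσ₂))
          rw [ValuationSubring.mem_nonunits_iff_or] at h2
          rcases h2 with h2 | h2
          · have hσ0 : (σ₂ : F₀) ≠ 0 := by
              intro h0
              apply hσ₂
              have : σ₂ = 0 := Subtype.ext h0
              rw [this]
              exact x.zero_mem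
            have hs0 : (s' : F₀) ≠ 0 := by
              intro h0
              apply hs'
              have : s' = 0 := Subtype.ext h0
              rw [this]
              exact P'.zero_mem
            rw [h3] at h2
            exact (mul_ne_zero hσ0 hs0) h2
          · apply h2
            rw [h3, mul_inv]
            exact V.mul_mem _ _ h5 h4.2
      · have e1 : (a₁ : F₀) = (σ₁ : F₀) * (a' : F₀) := ha₁
        have e2 : (a₂ : F₀) = (σ₂ : F₀) * (s' : F₀) := ha₂
        have e3 : y * (s' : F₀) = (a' : F₀) := hys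
        show y * ((σ₁ : F₀) * (a₂ : F₀)) = (σ₂ : F₀) * (a₁ : F₀)
        rw [e1, e2, ← e3]
        ring
    · rintro ⟨a, s, hs, hys⟩
      have hs0 : (s : F₀) ≠ 0 := by
        intro h0
        apply hs
        have : s = 0 := Subtype.ext h0
        rw [this]
        exact P.zero_mem
      have hsV : (s : F₀)⁻¹ ∈ V := by
        by_contra hcon
        apply hs
        rw [hPmem, ValuationSubring.mem_nonunits_iff_or]
        exact Or.inr hcon
      have hy : y = (a : F₀) * (s : F₀)⁻¹ := by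
        have h1 : y * (s : F₀) = (a : F₀) := hys
        rw [← h1]
        field_simp
      rw [hy]
      exact V.mul_mem _ _ (hCV a) hsV
  have hπP : algebraMap A₀ ↥C ϖ ∉ P := by
    intro hmem
    have h1 := (hPmem _).1 hmem
    have h2 : ((algebraMap A₀ ↥C ϖ : ↥C) : F₀) = ((algebraMap A₀ ↥C' ϖ : ↥C') : F₀) := rfl
    rw [h2, ← hP'mem] at h1
    exact hπ' h1
  have hht : P.height = 1 := height_eq_one_of_isLocAt P V hIs hdvr
  obtain ⟨f, hfP, hf⟩ := h P hPprime hht hPle hπP (fun V₂ hV₂ => by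
    rw [← IsLocAt.unique hIs hV₂]
    exact hnu' V hV)
  -- move `f` to `C'`
  obtain ⟨τ, hτ, f', hf'⟩ := hCL f
  have hf'e : (f' : F₀) = (τ : F₀) * (f : F₀) := hf'
  refine ⟨f', ?_, ?_⟩
  · rw [hP'mem, hf'e]
    have h1 := (hPmem f).1 hfP
    have h2 : ((τ : ↥C') : F₀) ∈ V := hV.algebraMap_mem τ
    rw [ValuationSubring.mem_nonunits_iff] at h1 ⊢
    exact val_mul_lt_one' V h1 h2
  · intro y' hy'
    obtain ⟨σ, hσ, y, hy⟩ := hC'L y'
    have hye : (y : F₀) = (σ : F₀) * (y' : F₀) := hy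
    have hyP : y ∈ P := by
      rw [hPmem, hye]
      have h1 := (hP'mem y').1 hy'
      rw [ValuationSubring.mem_nonunits_iff] at h1 ⊢
      exact val_mul_lt_one' V h1 (hCV σ)
    obtain ⟨s, hs, n, c, hc⟩ := hf y hyP
    have hce : (s : F₀) * ((algebraMap A₀ ↥C ϖ : ↥C) : F₀) ^ n * (y : F₀) = (f : F₀) * (c : F₀) :=
      congrArg (Subtype.val : ↥C → F₀) hc
    -- `s σ` is a unit of the local ring: write it and `c` over `C'`
    obtain ⟨t₁, ht₁, c₁, hc₁⟩ := hCL c
    obtain ⟨t₂, ht₂, a₂, ha₂⟩ := hCL (s * σ)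
    have hc₁e : (c₁ : F₀) = (t₁ : F₀) * (c : F₀) := hc₁
    have ha₂e : (a₂ : F₀) = (t₂ : F₀) * ((s : F₀) * (σ : F₀)) := ha₂
    have hsσ : s * σ ∉ x := fun hmem => (hx.mem_or_mem hmem).elim hs hσ
    have ha₂x : a₂ ∉ x' := by
      intro hmem
      obtain ⟨t₃, ht₃, a₃, ha₃⟩ := (hloc _).1 (hunit (s * σ) hsσ)
      have ha₃e : (a₃ : F₀) = (t₃ : F₀) * ((s : F₀) * (σ : F₀))⁻¹ := ha₃
      have hsσ0 : (s : F₀) * (σ : F₀) ≠ 0 := by
        intro h0
        apply hsσ
        have : s * σ = 0 := Subtype.ext h0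
        rw [this]
        exact x.zero_mem
      have hprod : a₂ * a₃ = t₂ * t₃ := by
        apply Subtype.ext
        show (a₂ : F₀) * (a₃ : F₀) = (t₂ : F₀) * (t₃ : F₀)
        rw [ha₂e, ha₃e]
        calc (t₂ : F₀) * ((s : F₀) * (σ : F₀)) * ((t₃ : F₀) * ((s : F₀) * (σ : F₀))⁻¹)
            = (t₂ : F₀) * (t₃ : F₀) * (((s : F₀) * (σ : F₀)) * ((s : F₀) * (σ : F₀))⁻¹) := by
              ring
          _ = (t₂ : F₀) * (t₃ : F₀) := by rw [mul_inv_cancel₀ hsσ0, mul_one]
      have h1 : t₂ * t₃ ∈ x' := by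
        rw [← hprod]
        exact x'.mul_mem_right _ hmem
      exact (hx'.mem_or_mem h1).elim ht₂ ht₃
    refine ⟨τ * a₂ * t₁, ?_, n, c₁ * t₂, ?_⟩
    · intro hmem
      rcases hx'.mem_or_mem hmem with h1 | h1
      · exact (hx'.mem_or_mem h1).elim hτ ha₂x
      · exact ht₁ h1
    · apply Subtype.ext
      have hπe : ((algebraMap A₀ ↥C ϖ : ↥C) : F₀) = ((algebraMap A₀ ↥C' ϖ : ↥C') : F₀) := rfl
      show (τ : F₀) * (a₂ : F₀) * (t₁ : F₀) * ((algebraMap A₀ ↥C' ϖ : ↥C') : F₀) ^ n * (y' : F₀)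
        = (f' : F₀) * ((c₁ : F₀) * (t₂ : F₀))
      rw [hf'e, hc₁e, ha₂e, ← hπe]
      have h3 : (s : F₀) * ((algebraMap A₀ ↥C ϖ : ↥C) : F₀) ^ n * ((σ : F₀) * (y' : F₀))
          = (f : F₀) * (c : F₀) := by
        rw [← hye]
        exact hce
      calc (τ : F₀) * ((t₂ : F₀) * ((s : F₀) * (σ : F₀))) * (t₁ : F₀) *
            ((algebraMap A₀ ↥C ϖ : ↥C) : F₀) ^ n * (y' : F₀)
          = (τ : F₀) * (t₂ : F₀) * (t₁ : F₀) *
            ((s : F₀) * ((algebraMap A₀ ↥C ϖ : ↥C) : F₀) ^ n * ((σ : F₀) * (y' : F₀))) := by ring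
        _ = (τ : F₀) * (t₂ : F₀) * (t₁ : F₀) * ((f : F₀) * (c : F₀)) := by rw [h3]
        _ = (τ : F₀) * (f : F₀) * ((t₁ : F₀) * (c : F₀) * (t₂ : F₀)) := by ring

/-- **Transfer of the local certificate** between two charts with the same local ring. -/
theorem pointOK_transfer (C C' : Subalgebra A₀ F₀) [IsFractionRing ↥C F₀]
    [IsFractionRing ↥C' F₀] [IsNoetherianRing ↥C'] [IsIntegrallyClosed ↥C']
    (x : Ideal ↥C) (hx : x.IsPrime) (x' : Ideal ↥C') (hx' : x'.IsPrime)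
    (hloc : ∀ y : F₀, y ∈ @locSubring _ _ F₀ _ _ x hx ↔ y ∈ @locSubring _ _ F₀ _ _ x' hx')
    (ϖ : A₀) (u : F₀)
    (h : H30.PointOK C x hx (algebraMap A₀ ↥C ϖ) u) :
    H30.PointOK C' x' hx' (algebraMap A₀ ↥C' ϖ) u := by
  rcases h with h | h
  · exact Or.inl (pointUFD_transfer C C' x hx x' hx' hloc h)
  · exact Or.inr (hGen_transfer C C' x hx x' hx' hloc ϖ u h)

end Transfer

section Glue

open Polynomial

variable {A₀ : Type*} [CommRing A₀] {F₀ : Type*} [Field F₀] [Algebra A₀ F₀]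

/-- The maximal ideal of the local ring `C_x ⊆ F₀`, as a predicate on `F₀`. -/
def locMax (C : Subalgebra A₀ F₀) (x : Ideal ↥C) (y : F₀) : Prop :=
  ∃ σ : ↥C, σ ∉ x ∧ ∃ a : ↥C, a ∈ x ∧ (σ : F₀) * y = (a : F₀)

theorem locMax_of_mem (C : Subalgebra A₀ F₀) (x : Ideal ↥C) [hx : x.IsPrime] (a : ↥C)
    (ha : a ∈ x) : locMax C x (a : F₀) :=
  ⟨1, (Ideal.ne_top_iff_one x).1 hx.ne_top, a, ha, by
    show (1 : F₀) * (a : F₀) = (a : F₀)
    rw [one_mul]⟩

theorem locMax_zero (C : Subalgebra A₀ F₀) (x : Ideal ↥C) [hx : x.IsPrime] :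
    locMax C x (0 : F₀) :=
  locMax_of_mem C x 0 x.zero_mem

theorem locMax_add (C : Subalgebra A₀ F₀) (x : Ideal ↥C) [hx : x.IsPrime] {y z : F₀}
    (hy : locMax C x y) (hz : locMax C x z) : locMax C x (y + z) := by
  obtain ⟨σ, hσ, a, ha, e1⟩ := hy
  obtain ⟨τ, hτ, b, hb, e2⟩ := hz
  refine ⟨σ * τ, fun h => (hx.mem_or_mem h).elim hσ hτ, τ * a + σ * b,
    x.add_mem (x.mul_mem_left _ ha) (x.mul_mem_left _ hb), ?_⟩
  show (σ : F₀) * (τ : F₀) * (y + z) = (τ : F₀) * (a : F₀) + (σ : F₀) * (b : F₀)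
  rw [← e1, ← e2]
  ring

theorem locMax_mul (C : Subalgebra A₀ F₀) (x : Ideal ↥C) [hx : x.IsPrime] {y z : F₀}
    (hy : locMax C x y) (hz : z ∈ locSubring (K := F₀) x) : locMax C x (z * y) := by
  obtain ⟨σ, hσ, a, ha, e1⟩ := hy
  obtain ⟨τ, hτ, b, e2⟩ := hz
  have e2' : (b : F₀) = (τ : F₀) * z := e2
  refine ⟨σ * τ, fun h => (hx.mem_or_mem h).elim hσ hτ, a * b, x.mul_mem_right _ ha, ?_⟩
  show (σ : F₀) * (τ : F₀) * (z * y) = (a : F₀) * (b : F₀)
  rw [← e1, e2']
  ring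

theorem not_locMax_one (C : Subalgebra A₀ F₀) (x : Ideal ↥C) :
    ¬ locMax C x (1 : F₀) := by
  rintro ⟨σ, hσ, a, ha, e⟩
  apply hσ
  have h1 : σ = a := Subtype.ext (by rw [← e, mul_one])
  rw [h1]
  exact ha

theorem locMax_mem (C : Subalgebra A₀ F₀) (x : Ideal ↥C) [x.IsPrime] {y : F₀}
    (hy : locMax C x y) : y ∈ locSubring (K := F₀) x := by
  obtain ⟨σ, hσ, a, ha, e⟩ := hy
  exact ⟨σ, hσ, a, e.symm⟩

/-- An element of the local ring outside its maximal ideal is invertible in the local ring. -/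
theorem inv_mem_of_not_locMax (C : Subalgebra A₀ F₀) (x : Ideal ↥C) [hx : x.IsPrime] {y : F₀}
    (hy : y ∈ locSubring (K := F₀) x) (hy' : ¬ locMax C x y) :
    y⁻¹ ∈ locSubring (K := F₀) x := by
  obtain ⟨σ, hσ, a, e⟩ := hy
  have e' : (a : F₀) = (σ : F₀) * y := e
  have hax : a ∉ x := fun ha => hy' ⟨σ, hσ, a, ha, e'.symm⟩
  have hy0 : y ≠ 0 := by
    rintro rfl
    apply hax
    have h1 : a = 0 := Subtype.ext (by rw [e', mul_zero]; rfl)
    rw [h1]
    exact x.zero_mem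
  refine ⟨a, hax, σ, ?_⟩
  show (σ : F₀) = (a : F₀) * y⁻¹
  rw [e', mul_assoc, mul_inv_cancel₀ hy0, mul_one]

theorem locMax_mul_sub_one (C : Subalgebra A₀ F₀) (x : Ideal ↥C) [hx : x.IsPrime] {u v : F₀}
    (hu : locMax C x (u - 1)) (hv : locMax C x (v - 1)) : locMax C x (u * v - 1) := by
  have hvL : v ∈ locSubring (K := F₀) x := by
    have h1 := (locSubring (K := F₀) x).add_mem (locMax_mem C x hv)
      (locSubring (K := F₀) x).one_mem
    rw [sub_add_cancel] at h1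
    exact h1
  have h1 := locMax_add C x (locMax_mul C x hu hvL) hv
  have e : v * (u - 1) + (v - 1) = u * v - 1 := by ring
  rw [e] at h1
  exact h1

theorem locMax_pow_sub_one (C : Subalgebra A₀ F₀) (x : Ideal ↥C) [hx : x.IsPrime] {u : F₀}
    (hu : locMax C x (u - 1)) (N : ℕ) : locMax C x (u ^ N - 1) := by
  induction N with
  | zero =>
    rw [pow_zero, sub_self]
    exact locMax_zero C x
  | succ N ih =>
    rw [pow_succ]
    exact locMax_mul_sub_one C x ih hu

/-- If `x` is a maximal ideal of a chart `C` which is integral over `A₀[s]`, `s ∉ x`, then the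
inverse of `s` modulo `x` is a polynomial in `s`. -/
theorem exists_poly_inv (C : Subalgebra A₀ F₀) (s : F₀) (hs : s ∈ C)
    (hint : ∀ c ∈ C, IsIntegral (Algebra.adjoin A₀ ({s} : Set F₀)) c)
    (x : Ideal ↥C) (hx : x.IsMaximal) (hsx : (⟨s, hs⟩ : ↥C) ∉ x) :
    ∃ G : A₀[X], (⟨s, hs⟩ : ↥C) * aeval (⟨s, hs⟩ : ↥C) G - 1 ∈ x := by
  let s' : ↥C := ⟨s, hs⟩
  let f : A₀[X] →+* ↥C := (aeval s' : A₀[X] →ₐ[A₀] ↥C).toRingHom
  have hfX : f X = s' := by simp [f]
  have hfC : ∀ a : A₀, f (Polynomial.C a) = algebraMap A₀ ↥C a := by intro a; simp [f]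
  have hf : f.IsIntegral := by
    intro c
    obtain ⟨p, hp, hp0⟩ := hint c.1 c.2
    let sa : ↥(Algebra.adjoin A₀ ({s} : Set F₀)) :=
      ⟨s, Algebra.subset_adjoin (Set.mem_singleton s)⟩
    let g : A₀[X] →+* ↥(Algebra.adjoin A₀ ({s} : Set F₀)) :=
      (aeval sa : A₀[X] →ₐ[A₀] ↥(Algebra.adjoin A₀ ({s} : Set F₀))).toRingHom
    have hgX : g X = sa := by simp [g]
    have hgC : ∀ a : A₀, g (Polynomial.C a) = algebraMap A₀ _ a := by intro a; simp [g]
    have hcomp : (algebraMap ↥C F₀).comp f =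
        (algebraMap ↥(Algebra.adjoin A₀ ({s} : Set F₀)) F₀).comp g := by
      apply Polynomial.ringHom_ext
      · intro a
        rw [RingHom.comp_apply, RingHom.comp_apply, hfC, hgC]
        rfl
      · rw [RingHom.comp_apply, RingHom.comp_apply, hfX, hgX]
        rfl
    have hg : Function.Surjective g := by
      intro b
      have hb : (b : F₀) ∈ (aeval s : A₀[X] →ₐ[A₀] F₀).range := by
        rw [← Algebra.adjoin_singleton_eq_range_aeval]
        exact b.2
      obtain ⟨P, hP⟩ := hb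
      refine ⟨P, Subtype.ext ?_⟩
      have h1 : ((g P : ↥(Algebra.adjoin A₀ ({s} : Set F₀))) : F₀) =
          ((algebraMap ↥(Algebra.adjoin A₀ ({s} : Set F₀)) F₀).comp g) P := rfl
      rw [h1, ← hP]
      have h2 : ((algebraMap ↥(Algebra.adjoin A₀ ({s} : Set F₀)) F₀).comp g) =
          (aeval s : A₀[X] →ₐ[A₀] F₀).toRingHom := by
        apply Polynomial.ringHom_ext
        · intro a
          rw [RingHom.comp_apply, hgC]
          simp
        · rw [RingHom.comp_apply, hgX]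
          simp [sa]
      rw [h2]
    obtain ⟨p', hp', -, hp'm⟩ := Polynomial.lifts_and_natDegree_eq_and_monic
      ((Polynomial.mem_lifts p).2 (Polynomial.map_surjective g hg p)) hp
    refine ⟨p', hp'm, ?_⟩
    apply Subtype.val_injective
    have h1 : ((eval₂ f c p' : ↥C) : F₀) = eval₂ ((algebraMap ↥C F₀).comp f) (c : F₀) p' :=
      Polynomial.hom_eval₂ p' f (algebraMap ↥C F₀) c
    rw [h1, hcomp, ← Polynomial.eval₂_map, hp']
    exact hp0
  have hN : (x.comap f).IsMaximal := Ideal.isMaximal_comap_of_isIntegral_of_isMaximal' f hf x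
  have hX : (X : A₀[X]) ∉ x.comap f := by
    intro h
    apply hsx
    rw [Ideal.mem_comap, hfX] at h
    exact h
  obtain ⟨G, i, hi, hGi⟩ := hN.exists_inv hX
  refine ⟨G, ?_⟩
  have h2 : f (X * G - 1) ∈ x := by
    have h3 : X * G - 1 = -i := by rw [← hGi]; ring
    rw [h3, map_neg]
    exact x.neg_mem hi
  rw [map_sub, map_mul, map_one, hfX] at h2
  exact h2

/-- From a monic equation for `j` modulo the maximal ideal of a local ring (with residue
characteristic that of `A₀`) to an inverse of `j` which is a polynomial in `j`. -/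
theorem exists_inv_of_monic [IsDomain A₀] [IsDiscreteValuationRing A₀] (ϖ : A₀)
    (hϖ : Irreducible ϖ) (m : F₀ → Prop) (L : Subring F₀)
    (hL : ∀ a : A₀, algebraMap A₀ F₀ a ∈ L)
    (hadd : ∀ y z, m y → m z → m (y + z)) (hmul : ∀ y z, m y → z ∈ L → m (z * y))
    (h1 : ¬ m 1) (hϖm : m (algebraMap A₀ F₀ ϖ))
    (j : F₀) (hjinv : j⁻¹ ∈ L) (hj0 : j ≠ 0) :
    ∀ n : ℕ, ∀ M : A₀[X], M.Monic → M.natDegree = n → m (aeval j M) →
      ∃ E : A₀[X], m (j * aeval j E - 1) := by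
  intro n
  induction n with
  | zero =>
    intro M hM hdeg hm
    exfalso
    rw [Polynomial.eq_one_of_monic_natDegree_zero hM hdeg, map_one] at hm
    exact h1 hm
  | succ n ih =>
    intro M hM hdeg hm
    have hsplit : aeval j M = aeval j (divX M) * j + algebraMap A₀ F₀ (M.coeff 0) := by
      conv_lhs => rw [← Polynomial.divX_mul_X_add M]
      rw [map_add, map_mul, aeval_X, aeval_C]
    by_cases hu : IsUnit (M.coeff 0)
    · obtain ⟨w, hw⟩ := hu
      refine ⟨C (-(↑w⁻¹ : A₀)) * divX M, ?_⟩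
      have hww : algebraMap A₀ F₀ (↑w⁻¹ : A₀) * algebraMap A₀ F₀ (M.coeff 0) = 1 := by
        rw [← map_mul, ← hw, Units.inv_mul, map_one]
      have e : j * aeval j (C (-(↑w⁻¹ : A₀)) * divX M) - 1 =
          algebraMap A₀ F₀ (-(↑w⁻¹ : A₀)) * aeval j M := by
        rw [map_mul, aeval_C, hsplit, map_neg]
        linear_combination hww
      rw [e]
      exact hmul _ _ hm (hL _)
    · -- the constant coefficient is divisible by `ϖ`
      have hmem : M.coeff 0 ∈ IsLocalRing.maximalIdeal A₀ := hu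
      rw [hϖ.maximalIdeal_eq, Ideal.mem_span_singleton] at hmem
      obtain ⟨a', ha'⟩ := hmem
      have h2 : m (aeval j (divX M) * j) := by
        have e : aeval j (divX M) * j =
            aeval j M + algebraMap A₀ F₀ (-a') * algebraMap A₀ F₀ ϖ := by
          rw [hsplit, ha', map_mul, map_neg]
          ring
        rw [e]
        exact hadd _ _ hm (hmul _ _ hϖm (hL _))
      have h3 : m (aeval j (divX M)) := by
        have e : aeval j (divX M) = j⁻¹ * (aeval j (divX M) * j) := by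
          field_simp
        rw [e]
        exact hmul _ _ h2 hjinv
      have hdeg' : (divX M).natDegree = n := by
        rw [Polynomial.natDegree_divX_eq_natDegree_tsub_one, hdeg]
        rfl
      have hmon' : (divX M).Monic := by
        unfold Polynomial.Monic Polynomial.leadingCoeff
        rw [hdeg', Polynomial.coeff_divX, ← hdeg]
        exact hM
      exact ih (divX M) hmon' hdeg' h3

/-- **A non-cusp point of the chart at infinity is a point of the finite chart.**  `C₁`, `C₂`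
glued along `j` (`C₁[1/j] = C₂[j]`), `C₂` integral over `A₀[1/j]`; `x` a maximal ideal of `C₂`
over the closed point of `A₀` not containing `1/j`.  Then the centre `x₁` of `(C₂)_x` on `C₁` is
a maximal ideal over the closed point with the same local ring. -/
theorem exists_point_of_glue [IsDomain A₀] [IsDiscreteValuationRing A₀] (ϖ : A₀)
    (hϖ : Irreducible ϖ) (j : F₀) (hj0 : j ≠ 0) (C₁ C₂ : Subalgebra A₀ F₀)
    (hj₁ : j ∈ C₁) (hj₂ : j⁻¹ ∈ C₂)
    (hint₂ : ∀ c ∈ C₂, IsIntegral (Algebra.adjoin A₀ ({j⁻¹} : Set F₀)) c)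
    (hglue : ∀ y : F₀, (∃ n : ℕ, j ^ n * y ∈ C₁) ↔ (∃ n : ℕ, j⁻¹ ^ n * y ∈ C₂))
    (x : Ideal ↥C₂) (hx : x.IsMaximal) (hϖx : algebraMap A₀ ↥C₂ ϖ ∈ x)
    (hjx : (⟨j⁻¹, hj₂⟩ : ↥C₂) ∉ x) :
    ∃ (x₁ : Ideal ↥C₁) (hx₁ : x₁.IsMaximal), algebraMap A₀ ↥C₁ ϖ ∈ x₁ ∧
      ∀ y : F₀, y ∈ @locSubring _ _ F₀ _ _ x₁ hx₁.isPrime ↔
        y ∈ @locSubring _ _ F₀ _ _ x hx.isPrime := by
  haveI hxp : x.IsPrime := hx.isPrime
  let s' : ↥C₂ := ⟨j⁻¹, hj₂⟩
  have hsj : j⁻¹ * j = 1 := inv_mul_cancel₀ hj0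
  have hjs : j * j⁻¹ = 1 := mul_inv_cancel₀ hj0
  -- `C₁` lies in the local ring
  have hC₁L : ∀ c ∈ C₁, c ∈ locSubring (K := F₀) x := by
    intro c hc
    obtain ⟨n, hn⟩ := (hglue c).1 ⟨0, by rw [pow_zero, one_mul]; exact hc⟩
    exact ⟨s' ^ n, fun h => hjx (hxp.mem_of_pow_mem n h), ⟨j⁻¹ ^ n * c, hn⟩, rfl⟩
  have hsL : j⁻¹ ∈ locSubring (K := F₀) x := algebraMap_mem_locSubring x s'
  have hAL : ∀ a : A₀, algebraMap A₀ F₀ a ∈ locSubring (K := F₀) x := fun a =>
    algebraMap_mem_locSubring x (algebraMap A₀ ↥C₂ a)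
  -- the centre
  let x₁ : Ideal ↥C₁ :=
    { carrier := {c | locMax C₂ x (c : F₀)}
      add_mem' := fun {a b} ha hb => locMax_add C₂ x ha hb
      zero_mem' := locMax_zero C₂ x
      smul_mem' := fun c {a} ha => locMax_mul C₂ x ha (hC₁L c c.2) }
  have hx₁mem : ∀ c : ↥C₁, c ∈ x₁ ↔ locMax C₂ x (c : F₀) := fun c => Iff.rfl
  -- the inverse of `j` modulo the maximal ideal is a polynomial in `j`
  obtain ⟨G, hG⟩ := exists_poly_inv C₂ j⁻¹ hj₂ hint₂ x hx hjx
  have hGm : locMax C₂ x (j⁻¹ * aeval j⁻¹ G - 1) := by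
    have h1 := locMax_of_mem C₂ x _ hG
    have h2 : ((s' * aeval s' G - 1 : ↥C₂) : F₀) = j⁻¹ * aeval j⁻¹ G - 1 := by
      have h3 : ((aeval s' G : ↥C₂) : F₀) = aeval j⁻¹ G := (Subalgebra.aeval_coe C₂ s' G).symm
      show j⁻¹ * ((aeval s' G : ↥C₂) : F₀) - 1 = _
      rw [h3]
    rw [← h2]
    exact h1
  obtain ⟨E, hE⟩ : ∃ E : A₀[X], locMax C₂ x (j * aeval j E - 1) := by
    let n := G.natDegree
    let M : A₀[X] := X ^ (n + 1) - reflect n G
    have hdegr : (reflect n G).degree < ((n + 1 : ℕ) : WithBot ℕ) := by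
      have h1 : (reflect n G).natDegree ≤ n := by
        have := Polynomial.natDegree_reflect_le (N := n) (p := G)
        simpa [n] using this
      exact lt_of_le_of_lt (Polynomial.degree_le_of_natDegree_le h1)
        (by exact_mod_cast Nat.lt_succ_self n)
    have hM : M.Monic := Polynomial.monic_X_pow_sub hdegr
    have hrefl : aeval j (reflect n G) = aeval j⁻¹ G * j ^ n := by
      letI : Invertible j⁻¹ := invertibleOfNonzero (inv_ne_zero hj0)
      have h1 := Polynomial.eval₂_reflect_mul_pow (algebraMap A₀ F₀) j⁻¹ n G le_rfl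
      rw [invOf_eq_inv, inv_inv] at h1
      rw [Polynomial.aeval_def, Polynomial.aeval_def, ← h1, mul_assoc, ← mul_pow, hsj, one_pow,
        mul_one]
    have hMval : aeval j M = (-(j ^ (n + 1))) * (j⁻¹ * aeval j⁻¹ G - 1) := by
      show aeval j (X ^ (n + 1) - reflect n G) = _
      rw [map_sub, map_pow, aeval_X, hrefl, pow_succ]
      linear_combination (j ^ n * aeval j⁻¹ G) * hjs
    have hjL : j ∈ locSubring (K := F₀) x := hC₁L j hj₁
    have hMm : locMax C₂ x (aeval j M) := by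
      rw [hMval]
      exact locMax_mul C₂ x hGm
        ((locSubring (K := F₀) x).neg_mem ((locSubring (K := F₀) x).pow_mem hjL _))
    exact exists_inv_of_monic ϖ hϖ (locMax C₂ x) (locSubring (K := F₀) x) hAL
      (fun y z hy hz => locMax_add C₂ x hy hz) (fun y z hy hz => locMax_mul C₂ x hy hz)
      (not_locMax_one C₂ x) (locMax_of_mem C₂ x _ hϖx) j hsL hj0 M.natDegree M hM rfl hMm
  let j' : ↥C₁ := ⟨j, hj₁⟩
  let e' : ↥C₁ := aeval j' E
  have he' : ((e' : ↥C₁) : F₀) = aeval j E := (Subalgebra.aeval_coe C₁ j' E).symm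
  have hmax : x₁.IsMaximal := by
    rw [Ideal.isMaximal_iff]
    refine ⟨fun h1 => not_locMax_one C₂ x h1, ?_⟩
    intro J c hJ hcx₁ hcJ
    obtain ⟨σ, hσ, a, ea⟩ := hC₁L c c.2
    have ea' : (a : F₀) = (σ : F₀) * (c : F₀) := ea
    have hax : a ∉ x := fun ha => hcx₁ ⟨σ, hσ, a, ha, ea'.symm⟩
    obtain ⟨a', i, hi, hai⟩ := hx.exists_inv hax
    have hcc₂ : locMax C₂ x ((c : F₀) * ((σ : F₀) * (a' : F₀)) - 1) := by
      have h3 : (a' : F₀) * (a : F₀) + (i : F₀) = 1 := congrArg (Subtype.val : ↥C₂ → F₀) hai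
      have h1 : (c : F₀) * ((σ : F₀) * (a' : F₀)) - 1 = ((-i : ↥C₂) : F₀) := by
        show _ = -(i : F₀)
        rw [ea'] at h3
        linear_combination h3
      rw [h1]
      exact locMax_of_mem C₂ x _ (x.neg_mem hi)
    obtain ⟨N, hN⟩ := (hglue ((σ : F₀) * (a' : F₀))).2
      ⟨0, by rw [pow_zero, one_mul]; exact (σ * a').2⟩
    let d : ↥C₁ := e' ^ N * ⟨j ^ N * ((σ : F₀) * (a' : F₀)), hN⟩
    have hcd : c * d - 1 ∈ x₁ := by
      rw [hx₁mem]
      have h1 : ((c * d - 1 : ↥C₁) : F₀) =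
          (j * aeval j E) ^ N * ((c : F₀) * ((σ : F₀) * (a' : F₀))) - 1 := by
        show (c : F₀) * (((e' : ↥C₁) : F₀) ^ N * (j ^ N * ((σ : F₀) * (a' : F₀)))) - 1 = _
        rw [he']
        ring
      rw [h1]
      exact locMax_mul_sub_one C₂ x (locMax_pow_sub_one C₂ x hE N) hcc₂
    have h1 : (1 : ↥C₁) = c * d - (c * d - 1) := by ring
    rw [h1]
    exact J.sub_mem (J.mul_mem_right _ hcJ) (hJ hcd)
  refine ⟨x₁, hmax, locMax_of_mem C₂ x _ hϖx, ?_⟩
  intro y
  constructor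
  · rintro ⟨c, hc, b, eb⟩
    have eb' : (b : F₀) = (c : F₀) * y := eb
    have hcinv : (c : F₀)⁻¹ ∈ locSubring (K := F₀) x :=
      inv_mem_of_not_locMax C₂ x (hC₁L c c.2) hc
    have hc0 : (c : F₀) ≠ 0 := by
      intro h0
      apply hc
      rw [hx₁mem, h0]
      exact locMax_zero C₂ x
    have hy : y = (c : F₀)⁻¹ * (b : F₀) := by
      rw [eb', ← mul_assoc, inv_mul_cancel₀ hc0, one_mul]
    rw [hy]
    exact (locSubring (K := F₀) x).mul_mem hcinv (hC₁L b b.2)
  · rintro ⟨σ, hσ, a, ea⟩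
    have ea' : (a : F₀) = (σ : F₀) * y := ea
    obtain ⟨n, hn⟩ := (hglue (σ : F₀)).2 ⟨0, by rw [pow_zero, one_mul]; exact σ.2⟩
    obtain ⟨k, hk⟩ := (hglue (a : F₀)).2 ⟨0, by rw [pow_zero, one_mul]; exact a.2⟩
    have h1 : j ^ (n + k) * (σ : F₀) ∈ C₁ := by
      have e : j ^ (n + k) * (σ : F₀) = j ^ k * (j ^ n * (σ : F₀)) := by ring
      rw [e]
      exact C₁.mul_mem (C₁.pow_mem hj₁ k) hn
    have h2 : j ^ (n + k) * (a : F₀) ∈ C₁ := by
      have e : j ^ (n + k) * (a : F₀) = j ^ n * (j ^ k * (a : F₀)) := by ring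
      rw [e]
      exact C₁.mul_mem (C₁.pow_mem hj₁ n) hk
    refine ⟨⟨_, h1⟩, ?_, ⟨_, h2⟩, ?_⟩
    · rintro ⟨τ, hτ, b, hb, eb⟩
      have eb' : (τ : F₀) * (j ^ (n + k) * (σ : F₀)) = (b : F₀) := eb
      have hsjN : j⁻¹ ^ (n + k) * j ^ (n + k) = 1 := by rw [← mul_pow, hsj, one_pow]
      have h3 : τ * σ = s' ^ (n + k) * b := by
        apply Subtype.ext
        show (τ : F₀) * (σ : F₀) = j⁻¹ ^ (n + k) * (b : F₀)
        rw [← eb']
        linear_combination (-(τ : F₀) * (σ : F₀)) * hsjN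
      have hmem : τ * σ ∈ x := by
        rw [h3]
        exact x.mul_mem_left _ hb
      exact (hxp.mem_or_mem hmem).elim hτ hσ
    · show j ^ (n + k) * (a : F₀) = j ^ (n + k) * (σ : F₀) * y
      rw [ea']
      ring

end Glue

section Final

variable {A₀ F₀ : Type} [CommRing A₀] [IsDomain A₀] [IsDiscreteValuationRing A₀] [Field F₀]
  [Algebra A₀ F₀]

/-- **The local certificate at the non-cusp points of the chart at infinity** from the local
certificates on the finite chart. -/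
theorem pointOK_of_glue (ϖ : A₀) (hϖ : Irreducible ϖ) (j : F₀) (hj0 : j ≠ 0)
    (C₁ C₂ : Subalgebra A₀ F₀) [IsFractionRing ↥C₁ F₀] [IsFractionRing ↥C₂ F₀]
    [IsNoetherianRing ↥C₂] [IsIntegrallyClosed ↥C₂]
    (hj₁ : j ∈ C₁) (hj₂ : j⁻¹ ∈ C₂)
    (hint₂ : ∀ c ∈ C₂, IsIntegral (Algebra.adjoin A₀ ({j⁻¹} : Set F₀)) c)
    (hglue : ∀ y : F₀, (∃ n : ℕ, j ^ n * y ∈ C₁) ↔ (∃ n : ℕ, j⁻¹ ^ n * y ∈ C₂))
    (u : F₀)
    (h₁ : ∀ (x₁ : Ideal ↥C₁) (hx₁ : x₁.IsMaximal), algebraMap A₀ ↥C₁ ϖ ∈ x₁ →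
      H30.PointOK C₁ x₁ hx₁.isPrime (algebraMap A₀ ↥C₁ ϖ) u)
    (x : Ideal ↥C₂) (hx : x.IsMaximal) (hϖx : algebraMap A₀ ↥C₂ ϖ ∈ x)
    (hjx : (⟨j⁻¹, hj₂⟩ : ↥C₂) ∉ x) :
    H30.PointOK C₂ x hx.isPrime (algebraMap A₀ ↥C₂ ϖ) u := by
  obtain ⟨x₁, hx₁, hϖ₁, hloc⟩ :=
    exists_point_of_glue ϖ hϖ j hj0 C₁ C₂ hj₁ hj₂ hint₂ hglue x hx hϖx hjx
  exact pointOK_transfer C₁ C₂ x₁ hx₁.isPrime x hx.isPrime hloc ϖ u (h₁ x₁ hx₁ hϖ₁)

end Final

end Fermat.Agent.S34.H77
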