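/-
Program B' (S34), helper77: the regular node over the inertia field (`RegularCrossLeaf`) for the
base function `j(q^M)` (the case `q ≠ 2, 3` of the standard base function), and the reduction of
the crossing leaf to the two Hauptmodul cases.

* `RegularCrossFor B`          : the statement `RegularCrossLeaf` relative to a predicate `B` on
                                 the base function (`RegularCrossLeaf = RegularCrossFor StdB`);
* `regularCross_jtop`          : `RegularCrossFor JtopB`, PROVED (helper68 `crossing_regular_ratForm`,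
                                 helper34 `exists_frob_supply`, helper59 `hunr_cross_jtop_le`,
                                 helper64 `betaForm_jtop_mem_chart`, helper92 `inertiaBase_exists`);
* `regularCrossLeaf_of_haupt`  : `RegularCrossFor HauptB → RegularCrossLeaf`;
* `crossLeafB_std_of_haupt`    : `RegularCrossFor HauptB → CrossLeafB StdB`.
-/
import Fermat.Agent.S34.H77.CrossFinal
import Fermat.Agent.S34.H68.CrossRat
import Fermat.Agent.S34.H34.FrobSupply
import Fermat.Agent.S34.H59.HUnrCross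
import Fermat.Agent.S34.H64.ChartJ
import Fermat.Agent.S34.H92.BaseAdapt

set_option autoImplicit false
set_option linter.style.haveILetI false
set_option linter.unusedSectionVars false

open AlgebraicCurve ModularCurve

noncomputable section

namespace Fermat.Agent.S34.H77

open Fermat.Agent.S34.H27 Fermat.Agent.S34.H10 Fermat.Agent.S34.H7
  Fermat.Agent.S18 Fermat.Agent.S18.H74 Fermat.Agent.S18.H19 Fermat.Agent.S34.H19
  Fermat.Agent.S34.H61 Fermat.Agent.S34.H64 Fermat.Agent.S34.H30

/-- The regular-node statement `RegularCrossLeaf`, relative to a predicate on the base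
function. -/
def RegularCrossFor (B : (M q : ℕ) → FN M → Prop) : Prop :=
  ∀ (M q : ℕ) [NeZero M] [Fact q.Prime] (hqM : ¬ q ∣ M), LevelOK M q →
    ∀ (A : ValuationSubring Kb) (hA : A.LiesOverPrime q) (_hAtop : A ≠ ⊤)
      (O₁ : ValuationSubring (FN (M * q))) (w : FN (M * q) ≃+* FN (M * q)),
      TwoGauss M q hqM A hA O₁ w →
      ∀ (x₀ : FN M), IsBase M q hqM A hA x₀ → B M q x₀ →
      ∀ (K₀ : IntermediateField ℚ Kb) [FiniteDimensional ℚ K₀] [Normal ℚ K₀]
        (jE : ↥(ratForm (M * q) (Fermat.Agent.S34.H92.inertiaField A K₀))),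
        (jE : FN (M * q)) = heckeAlphaBar Kb M q x₀ →
        letI := algComap (A.comap (algebraMap (Fermat.Agent.S34.H92.inertiaField A K₀) Kb))
          (ratForm (M * q) (Fermat.Agent.S34.H92.inertiaField A K₀))
        ∀ (y : Ideal ↥(chart ↥(A.comap (algebraMap (Fermat.Agent.S34.H92.inertiaField A K₀) Kb))
            jE)) [y.IsPrime], y.IsMaximal →
          (∀ c : ↥(chart ↥(A.comap (algebraMap (Fermat.Agent.S34.H92.inertiaField A K₀) Kb)) jE),
            (c : ↥(ratForm (M * q) (Fermat.Agent.S34.H92.inertiaField A K₀))) ∈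
              (O₁.comap (algebraMap ↥(ratForm (M * q) (Fermat.Agent.S34.H92.inertiaField A K₀))
                (FN (M * q)))).nonunits → c ∈ y) →
          (∀ c : ↥(chart ↥(A.comap (algebraMap (Fermat.Agent.S34.H92.inertiaField A K₀) Kb)) jE),
            (c : ↥(ratForm (M * q) (Fermat.Agent.S34.H92.inertiaField A K₀))) ∈
              ((gaussTwo M q O₁ w).comap
                (algebraMap ↥(ratForm (M * q) (Fermat.Agent.S34.H92.inertiaField A K₀))
                  (FN (M * q)))).nonunits → c ∈ y) →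
          ∃ J b : Localization.AtPrime y, J * b = ((q : ℕ) : Localization.AtPrime y) ∧
            IsLocalRing.maximalIdeal (Localization.AtPrime y) = Ideal.span {J, b}

/-- The base function is `j(q^M)`. -/
def JtopB (M _q : ℕ) (x₀ : FN M) : Prop :=
  ∃ _ : NeZero M, x₀ = Fermat.Agent.S18.H28.jtop M

theorem regularCrossLeaf_iff : RegularCrossLeaf ↔ RegularCrossFor StdB := Iff.rfl

set_option maxHeartbeats 2000000 in
set_option synthInstance.maxHeartbeats 400000 in
/-- **The regular node for the base function `j(q^M)`.** -/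
theorem regularCross_jtop : RegularCrossFor JtopB := by
  intro M q instM _ hqM hlev A hA hAtop O₁ w hTG x₀ hx₀ hB K₀ _ _ jE hjE
  intro y _ hy hb1 hb2
  obtain ⟨inst', hB⟩ := hB
  obtain rfl : inst' = instM := Subsingleton.elim _ _
  subst hB
  have hqp : q.Prime := Fact.out
  haveI : NeZero q := ⟨hqp.ne_zero⟩
  obtain ⟨π, e, g, hIB, hπ0, hg0⟩ :=
    Fermat.Agent.S34.H92.inertiaBase_exists (A := A) (K := K₀) q hqp hA
  haveI hfinE : FiniteDimensional ℚ ↥(Fermat.Agent.S34.H92.inertiaField A K₀) := hIB.fin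
  haveI hdvr : IsDiscreteValuationRing
      ↥(A.comap (algebraMap ↥(Fermat.Agent.S34.H92.inertiaField A K₀) Kb)) :=
    Fermat.Agent.S34.H78.isDVR_comap hAtop _
  have hqE : Irreducible
      ((q : ℕ) : ↥(A.comap (algebraMap ↥(Fermat.Agent.S34.H92.inertiaField A K₀) Kb))) :=
    hIB.irreducible_natCast hqp hA
  have hxE : Fermat.Agent.S18.H28.jtop M ∈ ratForm M (Fermat.Agent.S34.H92.inertiaField A K₀) :=
    mem_ratForm_of_mem_range M _ hx₀.1
  obtain ⟨hS, hS'⟩ := hx₀.2 (Fermat.Agent.S34.H92.inertiaField A K₀) hxE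
  obtain rfl : jE = alphaForm M q (Fermat.Agent.S34.H92.inertiaField A K₀)
      (⟨Fermat.Agent.S18.H28.jtop M, hxE⟩ : ↥(ratForm M (Fermat.Agent.S34.H92.inertiaField A K₀))) :=
    Subtype.ext hjE
  letI algM := algComap (A.comap (algebraMap ↥(Fermat.Agent.S34.H92.inertiaField A K₀) Kb))
    (ratForm M (Fermat.Agent.S34.H92.inertiaField A K₀))
  letI algN := algComap (A.comap (algebraMap ↥(Fermat.Agent.S34.H92.inertiaField A K₀) Kb))
    (ratForm (M * q) (Fermat.Agent.S34.H92.inertiaField A K₀))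
  letI algKL := algAlpha M q (Fermat.Agent.S34.H92.inertiaField A K₀)
  haveI tow := isScalarTower_algAlpha M q (Fermat.Agent.S34.H92.inertiaField A K₀) A
  obtain ⟨σ, hσA, hσA', hσx, kron1, kron2⟩ :=
    Fermat.Agent.S34.H34.exists_frob_supply hTG K₀
      (⟨Fermat.Agent.S18.H28.jtop M, hxE⟩ : ↥(ratForm M (Fermat.Agent.S34.H92.inertiaField A K₀)))
      hx₀.1 (Fermat.Agent.S18.H80.ds_chart_le hS)
  haveI : y.IsMaximal := hy
  haveI : FaithfulSMul ↥(A.comap (algebraMap ↥(Fermat.Agent.S34.H92.inertiaField A K₀) Kb))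
      ↥(ratForm M (Fermat.Agent.S34.H92.inertiaField A K₀)) :=
    Fermat.Agent.S34.H78.faithfulSMul_comap A _ (ratForm M (Fermat.Agent.S34.H92.inertiaField A K₀))
  have hdeg : Module.finrank ↥(ratForm M (Fermat.Agent.S34.H92.inertiaField A K₀))
      ↥(ratForm (M * q) (Fermat.Agent.S34.H92.inertiaField A K₀)) = q + 1 :=
    Fermat.Agent.S34.H59.finrank_alphaForm M q (Fermat.Agent.S34.H92.inertiaField A K₀) hqp hqM
  haveI : FiniteDimensional ↥(ratForm M (Fermat.Agent.S34.H92.inertiaField A K₀))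
      ↥(ratForm (M * q) (Fermat.Agent.S34.H92.inertiaField A K₀)) :=
    Fermat.Agent.S34.H61.finite_of_finrank_eq_succ hdeg
  have hβA : ∀ a : ↥(A.comap (algebraMap ↥(Fermat.Agent.S34.H92.inertiaField A K₀) Kb)),
      betaForm M q (Fermat.Agent.S34.H92.inertiaField A K₀)
        (algebraMap ↥(A.comap (algebraMap ↥(Fermat.Agent.S34.H92.inertiaField A K₀) Kb))
          ↥(ratForm M (Fermat.Agent.S34.H92.inertiaField A K₀)) a) =
      algebraMap ↥(A.comap (algebraMap ↥(Fermat.Agent.S34.H92.inertiaField A K₀) Kb))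
          ↥(ratForm (M * q) (Fermat.Agent.S34.H92.inertiaField A K₀)) a :=
    fun a => Fermat.Agent.S34.H61.betaForm_algebraMap M q (Fermat.Agent.S34.H92.inertiaField A K₀)
      (a : ↥(Fermat.Agent.S34.H92.inertiaField A K₀))
  have hβC := Fermat.Agent.S34.H68.beta_mem_chart
    (⟨Fermat.Agent.S18.H28.jtop M, hxE⟩ : ↥(ratForm M (Fermat.Agent.S34.H92.inertiaField A K₀)))
    (betaForm M q (Fermat.Agent.S34.H92.inertiaField A K₀)) hβA
    (Fermat.Agent.S34.H64.betaForm_jtop_mem_chart M q (Fermat.Agent.S34.H92.inertiaField A K₀) A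
      ⟨Fermat.Agent.S18.H28.jtop M, hxE⟩ rfl)
  exact Fermat.Agent.S34.H68.crossing_regular_ratForm hTG (Fermat.Agent.S34.H92.inertiaField A K₀)
    hqE ⟨Fermat.Agent.S18.H28.jtop M, hxE⟩ hS σ hσA hσA' hσx kron1 kron2 y
    (Fermat.Agent.S34.H68.hbeta_local_of_global _ (betaForm M q (Fermat.Agent.S34.H92.inertiaField A K₀)) hβC y)
    (Fermat.Agent.S34.H59.hunr_cross_jtop_le M q (Fermat.Agent.S34.H92.inertiaField A K₀) A hqp hqM
      hlev.1 hqE hxE _ hS y)
    hb1 hb2

/-- The base function is a Hauptmodul: of level two for `q = 3`, of level three for `q = 2`. -/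
def HauptB (M q : ℕ) (x₀ : FN M) : Prop :=
  ∃ _ : NeZero M,
    (q = 3 ∧ ∃ (n : ℕ) (_ : NeZero n) (hN : M = n * 2), x₀ = hauptTwo n M hN) ∨
    (q = 2 ∧ ∃ (n : ℕ) (_ : NeZero n) (hN : M = n * 3), x₀ = hauptThree n M hN)

/-- **The regular node over the inertia field, reduced to the Hauptmodul cases `q ∈ {2, 3}`.** -/
theorem regularCrossLeaf_of_haupt (h : RegularCrossFor HauptB) : RegularCrossLeaf := by
  intro M q instM _ hqM hlev A hA hAtop O₁ w hTG x₀ hx₀ hB K₀ _ _ jE hjE
  rcases hB.cases with h5 | h3 | h2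
  · exact regularCross_jtop M q hqM hlev A hA hAtop O₁ w hTG x₀ hx₀ ⟨instM, h5.2.2⟩ K₀ jE hjE
  · exact h M q hqM hlev A hA hAtop O₁ w hTG x₀ hx₀ ⟨instM, Or.inl h3⟩ K₀ jE hjE
  · exact h M q hqM hlev A hA hAtop O₁ w hTG x₀ hx₀ ⟨instM, Or.inr h2⟩ K₀ jE hjE

/-- **The crossing leaf, reduced to the regular nodes of the Hauptmodul charts (`q ∈ {2, 3}`).** -/
theorem crossLeafB_std_of_haupt (h : RegularCrossFor HauptB) : CrossLeafB StdB :=
  crossLeafB_std_of_regular (regularCrossLeaf_of_haupt h)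

end Fermat.Agent.S34.H77
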