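/-
Program B' (S34), helper77: the crossing leaf from the two Hauptmodul suppliers.

* `BetaSupplyFor B` / `BetaGlobalFor B` : supplier statement (X3), `β`-integrality (local at the
                                  crossing point / global on the chart), over any number field
                                  `E` in which `q` is a uniformiser of `A ∩ E`;
* `UnrSupplyFor B`              : supplier statement (X5), unramifiedness at the primes through a
                                  crossing point;
* `regularCrossFor_of_supply`   : `BetaSupplyFor B → UnrSupplyFor B → RegularCrossFor B`;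
* `crossLeafB_std_of_supply`    : `BetaSupplyFor HauptB → UnrSupplyFor HauptB → CrossLeafB StdB`.
-/
import Fermat.Agent.S34.H77.CrossJtop

set_option autoImplicit false
set_option linter.style.haveILetI false
set_option linter.unusedSectionVars false

open AlgebraicCurve ModularCurve

noncomputable section

namespace Fermat.Agent.S34.H77

open Fermat.Agent.S34.H27 Fermat.Agent.S34.H10 Fermat.Agent.S34.H7
  Fermat.Agent.S18 Fermat.Agent.S18.H74 Fermat.Agent.S18.H19 Fermat.Agent.S34.H19
  Fermat.Agent.S34.H61 Fermat.Agent.S34.H64 Fermat.Agent.S34.H30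

set_option maxHeartbeats 1000000 in
set_option synthInstance.maxHeartbeats 400000 in
/-- **Supplier statement (X3), local `β`-integrality**: over a number field `E` in which `q` is
a uniformiser of `A ∩ E`, at a closed point `y` of the chart of `α x₀` lying on both components,
`β` maps the chart of `x₀` into the local ring of `y` (with denominators from the chart of
`x₀`): the hypothesis `hβ` of `H68.crossing_regular_ratForm`. -/
def BetaSupplyFor (B : (M q : ℕ) → FN M → Prop) : Prop :=
  ∀ (M q : ℕ) [NeZero M] [Fact q.Prime] (hqM : ¬ q ∣ M), LevelOK M q →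
    ∀ (A : ValuationSubring Kb) (hA : A.LiesOverPrime q) (_hAtop : A ≠ ⊤)
      (O₁ : ValuationSubring (FN (M * q))) (w : FN (M * q) ≃+* FN (M * q)),
      TwoGauss M q hqM A hA O₁ w →
      ∀ (x₀ : FN M), IsBase M q hqM A hA x₀ → B M q x₀ →
      ∀ (E : IntermediateField ℚ Kb) [FiniteDimensional ℚ E]
        [IsDiscreteValuationRing ↥(A.comap (algebraMap E Kb))],
        Irreducible ((q : ℕ) : ↥(A.comap (algebraMap E Kb))) →
        ∀ (hxE : x₀ ∈ ratForm M E),
        haveI : NeZero q := ⟨(Fact.out : q.Prime).ne_zero⟩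
        letI := algComap (A.comap (algebraMap E Kb)) (ratForm M E)
        letI := algComap (A.comap (algebraMap E Kb)) (ratForm (M * q) E)
        letI := algAlpha M q E
        haveI : IsScalarTower ↥(A.comap (algebraMap E Kb)) ↥(ratForm M E) ↥(ratForm (M * q) E) :=
          isScalarTower_algAlpha M q E A
        ∀ (y : Ideal ↥(chart ↥(A.comap (algebraMap E Kb))
            (alphaForm M q E (⟨x₀, hxE⟩ : ↥(ratForm M E))))),
          y.IsMaximal →
          (∀ c : ↥(chart ↥(A.comap (algebraMap E Kb))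
              (alphaForm M q E (⟨x₀, hxE⟩ : ↥(ratForm M E)))),
            (c : ↥(ratForm (M * q) E)) ∈ (gaussOne M q O₁ E).nonunits → c ∈ y) →
          (∀ c : ↥(chart ↥(A.comap (algebraMap E Kb))
              (alphaForm M q E (⟨x₀, hxE⟩ : ↥(ratForm M E)))),
            (c : ↥(ratForm (M * q) E)) ∈ (gaussTwoForm M q O₁ w E).nonunits → c ∈ y) →
          ∀ g ∈ chart ↥(A.comap (algebraMap E Kb)) (⟨x₀, hxE⟩ : ↥(ratForm M E)),
            ∃ (c : ↥(chart ↥(A.comap (algebraMap E Kb))
                (alphaForm M q E (⟨x₀, hxE⟩ : ↥(ratForm M E)))))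
              (d : ↥(chart ↥(A.comap (algebraMap E Kb)) (⟨x₀, hxE⟩ : ↥(ratForm M E)))),
              Fermat.Agent.S34.H68.chartMap (A₀ := ↥(A.comap (algebraMap E Kb)))
                  (L := ↥(ratForm (M * q) E)) (⟨x₀, hxE⟩ : ↥(ratForm M E)) d ∉ y ∧
                betaForm M q E g * alphaForm M q E (d : ↥(ratForm M E)) =
                  (c : ↥(ratForm (M * q) E))

set_option maxHeartbeats 1000000 in
set_option synthInstance.maxHeartbeats 400000 in
/-- **Supplier statement (X5), unramifiedness at the primes through a crossing point**: over a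
number field `E` in which `q` is a uniformiser of `A ∩ E`, at a closed point `y` of the chart of
`α x₀` lying on both components, every prime `Q ≤ y` of the chart not containing `q` is
unramified over the chart of `x₀`: the hypothesis `hunr` of `H68.crossing_regular_ratForm`. -/
def UnrSupplyFor (B : (M q : ℕ) → FN M → Prop) : Prop :=
  ∀ (M q : ℕ) [NeZero M] [Fact q.Prime] (hqM : ¬ q ∣ M), LevelOK M q →
    ∀ (A : ValuationSubring Kb) (hA : A.LiesOverPrime q) (_hAtop : A ≠ ⊤)
      (O₁ : ValuationSubring (FN (M * q))) (w : FN (M * q) ≃+* FN (M * q)),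
      TwoGauss M q hqM A hA O₁ w →
      ∀ (x₀ : FN M), IsBase M q hqM A hA x₀ → B M q x₀ →
      ∀ (E : IntermediateField ℚ Kb) [FiniteDimensional ℚ E]
        [IsDiscreteValuationRing ↥(A.comap (algebraMap E Kb))],
        Irreducible ((q : ℕ) : ↥(A.comap (algebraMap E Kb))) →
        ∀ (hxE : x₀ ∈ ratForm M E),
        haveI : NeZero q := ⟨(Fact.out : q.Prime).ne_zero⟩
        letI := algComap (A.comap (algebraMap E Kb)) (ratForm M E)
        letI := algComap (A.comap (algebraMap E Kb)) (ratForm (M * q) E)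
        letI := algAlpha M q E
        haveI : IsScalarTower ↥(A.comap (algebraMap E Kb)) ↥(ratForm M E) ↥(ratForm (M * q) E) :=
          isScalarTower_algAlpha M q E A
        ∀ (y : Ideal ↥(chart ↥(A.comap (algebraMap E Kb))
            (alphaForm M q E (⟨x₀, hxE⟩ : ↥(ratForm M E))))),
          y.IsMaximal →
          (∀ c : ↥(chart ↥(A.comap (algebraMap E Kb))
              (alphaForm M q E (⟨x₀, hxE⟩ : ↥(ratForm M E)))),
            (c : ↥(ratForm (M * q) E)) ∈ (gaussOne M q O₁ E).nonunits → c ∈ y) →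
          (∀ c : ↥(chart ↥(A.comap (algebraMap E Kb))
              (alphaForm M q E (⟨x₀, hxE⟩ : ↥(ratForm M E)))),
            (c : ↥(ratForm (M * q) E)) ∈ (gaussTwoForm M q O₁ w E).nonunits → c ∈ y) →
          ∀ Q : Ideal ↥(chart ↥(A.comap (algebraMap E Kb))
              (alphaForm M q E (⟨x₀, hxE⟩ : ↥(ratForm M E)))),
            Q.IsPrime →
            ((q : ℕ) : ↥(chart ↥(A.comap (algebraMap E Kb))
              (alphaForm M q E (⟨x₀, hxE⟩ : ↥(ratForm M E))))) ∉ Q →
            Q ≤ y → ∀ a ∈ Q, ∃ b ∉ Q, b * a ∈ Ideal.map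
              (Fermat.Agent.S34.H68.chartMap (A₀ := ↥(A.comap (algebraMap E Kb)))
                (L := ↥(ratForm (M * q) E)) (⟨x₀, hxE⟩ : ↥(ratForm M E)))
              (Q.comap (Fermat.Agent.S34.H68.chartMap (A₀ := ↥(A.comap (algebraMap E Kb)))
                (L := ↥(ratForm (M * q) E)) (⟨x₀, hxE⟩ : ↥(ratForm M E))))

set_option maxHeartbeats 1000000 in
set_option synthInstance.maxHeartbeats 400000 in
/-- **Supplier statement (X3), global form**: `β` maps the chart of `x₀` into the chart of
`α x₀` (over a number field `E` in which `q` is a uniformiser of `A ∩ E`). -/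
def BetaGlobalFor (B : (M q : ℕ) → FN M → Prop) : Prop :=
  ∀ (M q : ℕ) [NeZero M] [Fact q.Prime] (hqM : ¬ q ∣ M), LevelOK M q →
    ∀ (A : ValuationSubring Kb) (hA : A.LiesOverPrime q) (_hAtop : A ≠ ⊤)
      (O₁ : ValuationSubring (FN (M * q))) (w : FN (M * q) ≃+* FN (M * q)),
      TwoGauss M q hqM A hA O₁ w →
      ∀ (x₀ : FN M), IsBase M q hqM A hA x₀ → B M q x₀ →
      ∀ (E : IntermediateField ℚ Kb) [FiniteDimensional ℚ E]
        [IsDiscreteValuationRing ↥(A.comap (algebraMap E Kb))],
        Irreducible ((q : ℕ) : ↥(A.comap (algebraMap E Kb))) →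
        ∀ (hxE : x₀ ∈ ratForm M E),
        haveI : NeZero q := ⟨(Fact.out : q.Prime).ne_zero⟩
        letI := algComap (A.comap (algebraMap E Kb)) (ratForm M E)
        letI := algComap (A.comap (algebraMap E Kb)) (ratForm (M * q) E)
        ∀ f ∈ chart ↥(A.comap (algebraMap E Kb)) (⟨x₀, hxE⟩ : ↥(ratForm M E)),
          betaForm M q E f ∈ chart ↥(A.comap (algebraMap E Kb))
            (alphaForm M q E (⟨x₀, hxE⟩ : ↥(ratForm M E)))

set_option maxHeartbeats 1000000 in
set_option synthInstance.maxHeartbeats 400000 in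
/-- The global form of (X3) gives the local one. -/
theorem betaSupplyFor_of_global (B : (M q : ℕ) → FN M → Prop) (h : BetaGlobalFor B) :
    BetaSupplyFor B := by
  intro M q _ _ hqM hlev A hA hAtop O₁ w hTG x₀ hx₀ hB E _ _ hqE hxE
  intro y hy _ _
  haveI : NeZero q := ⟨(Fact.out : q.Prime).ne_zero⟩
  letI algM := algComap (A.comap (algebraMap E Kb)) (ratForm M E)
  letI algN := algComap (A.comap (algebraMap E Kb)) (ratForm (M * q) E)
  letI algKL := algAlpha M q E
  haveI tow := isScalarTower_algAlpha M q E A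
  haveI : y.IsPrime := hy.isPrime
  haveI : FaithfulSMul ↥(A.comap (algebraMap E Kb)) ↥(ratForm M E) :=
    Fermat.Agent.S34.H78.faithfulSMul_comap A E (ratForm M E)
  have hdeg : Module.finrank ↥(ratForm M E) ↥(ratForm (M * q) E) = q + 1 :=
    Fermat.Agent.S34.H59.finrank_alphaForm M q E (Fact.out : q.Prime) hqM
  haveI : FiniteDimensional ↥(ratForm M E) ↥(ratForm (M * q) E) :=
    Fermat.Agent.S34.H61.finite_of_finrank_eq_succ hdeg
  exact Fermat.Agent.S34.H68.hbeta_local_of_global (⟨x₀, hxE⟩ : ↥(ratForm M E)) (betaForm M q E)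
    (h M q hqM hlev A hA hAtop O₁ w hTG x₀ hx₀ hB E hqE hxE) y

set_option maxHeartbeats 2000000 in
set_option synthInstance.maxHeartbeats 400000 in
/-- **The regular node over the inertia field from the two suppliers** (any base-function
predicate `B`): helper68's `crossing_regular_ratForm` with the `σ`-block of helper34. -/
theorem regularCrossFor_of_supply (B : (M q : ℕ) → FN M → Prop) (hβ : BetaSupplyFor B)
    (hu : UnrSupplyFor B) : RegularCrossFor B := by
  intro M q instM _ hqM hlev A hA hAtop O₁ w hTG x₀ hx₀ hB K₀ _ _ jE hjE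
  intro y _ hy hb1 hb2
  have hqp : q.Prime := Fact.out
  haveI : NeZero q := ⟨hqp.ne_zero⟩
  obtain ⟨π, e, g, hIB, hπ0, hg0⟩ :=
    Fermat.Agent.S34.H92.inertiaBase_exists (A := A) (K := K₀) q hqp hA
  haveI hfinE : FiniteDimensional ℚ ↥(Fermat.Agent.S34.H92.inertiaField A K₀) := hIB.fin
  haveI hdvr : IsDiscreteValuationRing
      ↥(A.comap (algebraMap ↥(Fermat.Agent.S34.H92.inertiaField A K₀) Kb)) :=
    Fermat.Agent.S34.H78.isDVR_comap hAtop _
  have hqE : Irreducible
      ((q : ℕ) : ↥(A.comap (algebraMap ↥(Fermat.Agent.S34.H92.inertiaField A K₀) Kb))) :=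
    hIB.irreducible_natCast hqp hA
  have hxE : x₀ ∈ ratForm M (Fermat.Agent.S34.H92.inertiaField A K₀) :=
    mem_ratForm_of_mem_range M _ hx₀.1
  obtain ⟨hS, hS'⟩ := hx₀.2 (Fermat.Agent.S34.H92.inertiaField A K₀) hxE
  obtain rfl : jE = alphaForm M q (Fermat.Agent.S34.H92.inertiaField A K₀)
      (⟨x₀, hxE⟩ : ↥(ratForm M (Fermat.Agent.S34.H92.inertiaField A K₀))) :=
    Subtype.ext hjE
  letI algM := algComap (A.comap (algebraMap ↥(Fermat.Agent.S34.H92.inertiaField A K₀) Kb))
    (ratForm M (Fermat.Agent.S34.H92.inertiaField A K₀))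
  letI algN := algComap (A.comap (algebraMap ↥(Fermat.Agent.S34.H92.inertiaField A K₀) Kb))
    (ratForm (M * q) (Fermat.Agent.S34.H92.inertiaField A K₀))
  letI algKL := algAlpha M q (Fermat.Agent.S34.H92.inertiaField A K₀)
  haveI tow := isScalarTower_algAlpha M q (Fermat.Agent.S34.H92.inertiaField A K₀) A
  obtain ⟨σ, hσA, hσA', hσx, kron1, kron2⟩ :=
    Fermat.Agent.S34.H34.exists_frob_supply hTG K₀
      (⟨x₀, hxE⟩ : ↥(ratForm M (Fermat.Agent.S34.H92.inertiaField A K₀)))
      hx₀.1 (Fermat.Agent.S18.H80.ds_chart_le hS)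
  haveI : y.IsMaximal := hy
  exact Fermat.Agent.S34.H68.crossing_regular_ratForm hTG (Fermat.Agent.S34.H92.inertiaField A K₀)
    hqE ⟨x₀, hxE⟩ hS σ hσA hσA' hσx kron1 kron2 y
    (hβ M q hqM hlev A hA hAtop O₁ w hTG x₀ hx₀ hB (Fermat.Agent.S34.H92.inertiaField A K₀) hqE
      hxE y hy hb1 hb2)
    (hu M q hqM hlev A hA hAtop O₁ w hTG x₀ hx₀ hB (Fermat.Agent.S34.H92.inertiaField A K₀) hqE
      hxE y hy hb1 hb2)
    hb1 hb2

/-- **The crossing leaf from the two Hauptmodul suppliers.** -/
theorem crossLeafB_std_of_supply (hβ : BetaSupplyFor HauptB) (hu : UnrSupplyFor HauptB) :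
    CrossLeafB StdB :=
  crossLeafB_std_of_haupt (regularCrossFor_of_supply HauptB hβ hu)

end Fermat.Agent.S34.H77
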