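/-
Program B' (S34), helper77: THE CROSSING LEAF (M6b) IS CLOSED.

* `aeval_not_mem_of_both` : a crossing point of the chart of `α x₀` (on both components of the
                            special fibre) is not a cusp of the finite chart: it does not contain
                            `D(α x₀)` when `j(q^M) · D(x₀) = N(x₀)` (helper42's
                            `not_both_of_aeval_mem` on the forms over a number field `E` in which
                            `q` is a uniformiser of `A ∩ E`; inputs from helper4's toolbox);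
* `unrSupply_haupt`       : `UnrSupplyFor HauptB` (helper61's `hunr_cross_le_of_rel_X` at a
                            crossing point);
* `betaGlobal_haupt`      : `BetaGlobalFor HauptB` (helper43's `hbetaC_ratForm`);
* `regularCrossLeaf`      : `RegularCrossLeaf`;
* `crossLeafB_std`        : `CrossLeafB StdB`.
-/
import Fermat.Agent.S34.H77.CrossSupply
import Fermat.Agent.S34.H61.HUnrRel
import Fermat.Agent.S34.H4.OneCompLeaf
import Fermat.Agent.S34.H42.CuspHaupt
import Fermat.Agent.S34.H43.BetaChart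

set_option autoImplicit false
set_option linter.style.haveILetI false
set_option linter.unusedSectionVars false

open AlgebraicCurve ModularCurve

noncomputable section

namespace Fermat.Agent.S34.H77

open Fermat.Agent.S34.H27 Fermat.Agent.S34.H10 Fermat.Agent.S34.H7
  Fermat.Agent.S18 Fermat.Agent.S18.H74 Fermat.Agent.S18.H19 Fermat.Agent.S34.H19
  Fermat.Agent.S34.H61 Fermat.Agent.S34.H30 Fermat.Agent.S28

set_option maxHeartbeats 2000000 in
set_option synthInstance.maxHeartbeats 400000 in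
/-- **A crossing point is not a cusp of the finite chart**: for a base function `x₀` with a
`j`-relation `j(q^M) · D(x₀) = N(x₀)` (`N`, `D` coprime modulo `q`), over a number field `E` in
which `q` is a uniformiser of `A ∩ E`: a prime of the chart of `α x₀` containing the nonunits of
both Gauss rings does not contain `D(α x₀)`. -/
theorem aeval_not_mem_of_both {M q : ℕ} [NeZero M] [Fact q.Prime] {hqM : ¬ q ∣ M}
    {A : ValuationSubring Kb} {hA : A.LiesOverPrime q} {O₁ : ValuationSubring (FN (M * q))}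
    {w : FN (M * q) ≃+* FN (M * q)} (hTG : Fermat.Agent.S34.H64.TwoGauss M q hqM A hA O₁ w) (hAtop : A ≠ ⊤)
    (x₀ : FN M) (hx₀ : IsBase M q hqM A hA x₀) (N D : Polynomial ℤ)
    (hrel : Fermat.Agent.S18.H28.jtop M * Polynomial.aeval x₀ D = Polynomial.aeval x₀ N)
    (hcop : ∃ (a b : Polynomial ℤ) (r : ℤ), ¬ (q : ℤ) ∣ r ∧ a * N + b * D = Polynomial.C r)
    (E : IntermediateField ℚ Kb) [FiniteDimensional ℚ E]
    [IsDiscreteValuationRing ↥(A.comap (algebraMap E Kb))]
    (hqE : Irreducible ((q : ℕ) : ↥(A.comap (algebraMap E Kb)))) (hxE : x₀ ∈ ratForm M E) :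
    haveI : NeZero q := ⟨(Fact.out : q.Prime).ne_zero⟩
    letI := algComap (A.comap (algebraMap E Kb)) (ratForm M E)
    letI := algComap (A.comap (algebraMap E Kb)) (ratForm (M * q) E)
    ∀ (y : Ideal ↥(chart ↥(A.comap (algebraMap E Kb))
        (alphaForm M q E (⟨x₀, hxE⟩ : ↥(ratForm M E))))) [y.IsPrime],
      (∀ c : ↥(chart ↥(A.comap (algebraMap E Kb))
          (alphaForm M q E (⟨x₀, hxE⟩ : ↥(ratForm M E)))),
        (c : ↥(ratForm (M * q) E)) ∈ (gaussOne M q O₁ E).nonunits → c ∈ y) →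
      (∀ c : ↥(chart ↥(A.comap (algebraMap E Kb))
          (alphaForm M q E (⟨x₀, hxE⟩ : ↥(ratForm M E)))),
        (c : ↥(ratForm (M * q) E)) ∈ (gaussTwoForm M q O₁ w E).nonunits → c ∈ y) →
      Polynomial.aeval (⟨alphaForm M q E (⟨x₀, hxE⟩ : ↥(ratForm M E)),
          self_mem_chart ↥(A.comap (algebraMap E Kb)) _⟩ :
          ↥(chart ↥(A.comap (algebraMap E Kb)) (alphaForm M q E (⟨x₀, hxE⟩ : ↥(ratForm M E)))))
        (D.map (Int.castRingHom ↥(A.comap (algebraMap E Kb)))) ∉ y := by
  have hq : q.Prime := Fact.out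
  haveI : NeZero q := ⟨hq.ne_zero⟩
  haveI : NeZero (M * q) := ⟨Nat.mul_ne_zero (NeZero.ne M) (NeZero.ne q)⟩
  letI algM := algComap (A.comap (algebraMap E Kb)) (ratForm M E)
  letI algN := algComap (A.comap (algebraMap E Kb)) (ratForm (M * q) E)
  letI algKL := algAlpha M q E
  haveI tow := isScalarTower_algAlpha M q E A
  haveI hfs : FaithfulSMul ↥(A.comap (algebraMap E Kb)) ↥(ratForm M E) :=
    Fermat.Agent.S34.H78.faithfulSMul_comap A E (ratForm M E)
  intro y _ h₁ h₂ hDy
  obtain ⟨hS, hS'⟩ := hx₀.2 E hxE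
  have hdeg := Fermat.Agent.S34.H59.finrank_alphaForm M q E hq hqM
  have hG := vGood_ratForm_of_finrank hTG E ((q : ℕ) : ↥(A.comap (algebraMap E Kb))) hqE
    (⟨x₀, hxE⟩ : ↥(ratForm M E)) hS hS' hdeg
  -- the chart
  have hrat : heckeAlphaBar Kb M q x₀ ∈ Set.range (ratEmb (M * q)) := hx₀.alpha_rat
  have htr : Transcendental Kb (heckeAlphaBar Kb M q x₀) := hx₀.alpha_transcendental
  have hCG := Fermat.Agent.S34.H44.ratForm_chartsGood_of_mem (M * q) A E hAtop
    (alphaForm M q E (⟨x₀, hxE⟩ : ↥(ratForm M E))) hrat htr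
  haveI hicl := hCG.icl₁
  -- the base function `j₀ = j(q^M)`
  have hjrat : Fermat.Agent.S18.H28.jtop M ∈ Set.range (ratEmb M) := ⟨jqNFull M, rfl⟩
  have hjm : Fermat.Agent.S18.H28.jtop M ∈ ratForm M E := mem_ratForm_of_mem_range M E hjrat
  have hj₀ne : (⟨Fermat.Agent.S18.H28.jtop M, hjm⟩ : ↥(ratForm M E)) ≠ 0 := fun h0 =>
    Fermat.Agent.S34.H42.jFN_ne_zero M M dvd_rfl (congrArg Subtype.val h0)
  have hj₀u : (⟨Fermat.Agent.S18.H28.jtop M, hjm⟩ : ↥(ratForm M E))⁻¹
      ∈ gaussForm M hqM A hA E := by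
    show algebraMap ↥(ratForm M E) (FN M)
      (⟨Fermat.Agent.S18.H28.jtop M, hjm⟩ : ↥(ratForm M E))⁻¹
        ∈ Fermat.Agent.S18.H66.gaussO A M hA hqM
    rw [map_inv₀]
    exact Fermat.Agent.S34.H4.jtop_inv_mem_gaussO M q hqM A hA
  have hjmemO : Fermat.Agent.S18.H28.jtop M ∈ Fermat.Agent.S18.H66.gaussO A M hA hqM :=
    Fermat.Agent.S18.H66.jFN_mem_gaussO A M hA hqM M dvd_rfl
  obtain ⟨Φ, hΦ⟩ := Fermat.Agent.S28.hasModPolys q hq
  obtain ⟨hm12, hm21⟩ := Fermat.Agent.S34.H4.evalY_jtop M q hΦ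
  obtain ⟨hkj₁F, hkj₂F⟩ := Fermat.Agent.S34.H4.kronecker_rat hTG (Fermat.Agent.S18.H28.jtop M)
    hjrat hjmemO
  have h12 := Fermat.Agent.S34.H4.evalY_form₁₂ hTG E ⟨Fermat.Agent.S18.H28.jtop M, hjm⟩ hm12
  have h21 := Fermat.Agent.S34.H4.evalY_form₂₁ hTG E ⟨Fermat.Agent.S18.H28.jtop M, hjm⟩ hm21
  have hk1 := Fermat.Agent.S34.H4.kron_form₁ hTG E ⟨Fermat.Agent.S18.H28.jtop M, hjm⟩ hkj₁F
  have hk2 := Fermat.Agent.S34.H4.kron_form₂ hTG E ⟨Fermat.Agent.S18.H28.jtop M, hjm⟩ hkj₂F
  rw [wForm_alphaForm] at h12 h21 hk1 hk2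
  have hβV : ∀ v : ↥(ratForm M E), betaForm M q E v ∈ gaussTwoForm M q O₁ w E ↔
      v ∈ gaussForm M hqM A hA E := by
    intro v
    have h1 := alphaForm_mem_comap_iff hTG E v
    have h2 := mem_comap_gaussTwo_iff hTG E (betaForm M q E v)
    rw [wForm_betaForm] at h2
    exact h2.trans h1
  exact Fermat.Agent.S34.H42.not_both_of_aeval_mem (⟨x₀, hxE⟩ : ↥(ratForm M E))
    ⟨Fermat.Agent.S18.H28.jtop M, hjm⟩ hj₀ne (gaussForm M hqM A hA E) hj₀u
    (gaussOne M q O₁ E) (gaussTwoForm M q O₁ w E) (fun v => alphaForm_mem_comap_iff hTG E v)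
    (betaForm M q E) hβV hCG.frac₁ hG.le₁₁ hG.le₁₂
    (N.map (Int.castRingHom ↥(A.comap (algebraMap E Kb))))
    (D.map (Int.castRingHom ↥(A.comap (algebraMap E Kb))))
    (Fermat.Agent.S34.H4.rel_form M A E x₀ (Fermat.Agent.S18.H28.jtop M) hxE hjm N D hrel)
    (Fermat.Agent.S34.H4.isCoprime_map_of_bezout A hA E N D hcop) hq hΦ h12 h21 hk1 hk2 y hDy
    ⟨h₁, h₂⟩

set_option maxHeartbeats 2000000 in
set_option synthInstance.maxHeartbeats 400000 in
/-- **Supplier (X5) for the Hauptmodul charts**: at a crossing point of the chart of `α h`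
(`h` the Hauptmodul of level two for `q = 3`, of level three for `q = 2`), the primes through
the point not containing `q` are unramified over the chart of `h`
(helper61's `hunr_cross_le_of_rel_X` + the crossing point is not the cusp `h = 0`). -/
theorem unrSupply_haupt : UnrSupplyFor HauptB := by
  intro M q instM _ hqM hlev A hA hAtop O₁ w hTG x₀ hx₀ hB E _ _ hqE hxE
  intro y hy h₁ h₂
  have hq : q.Prime := Fact.out
  haveI : NeZero q := ⟨hq.ne_zero⟩
  letI algM := algComap (A.comap (algebraMap E Kb)) (ratForm M E)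
  letI algN := algComap (A.comap (algebraMap E Kb)) (ratForm (M * q) E)
  letI algKL := algAlpha M q E
  haveI tow := isScalarTower_algAlpha M q E A
  haveI : y.IsPrime := hy.isPrime
  obtain ⟨hS, hS'⟩ := hx₀.2 E hxE
  obtain ⟨inst', hB⟩ := hB
  obtain rfl : inst' = instM := Subsingleton.elim _ _
  rcases hB with ⟨hq3, n, hn, hN, rfl⟩ | ⟨hq2, n, hn, hN, rfl⟩
  · haveI := hn
    have hnc := aeval_not_mem_of_both hTG hAtop _ hx₀
      ((Polynomial.X + Polynomial.C 16) ^ 3) Polynomial.X (hauptTwo_rel_poly n M hN)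
      ⟨1, -(Polynomial.X ^ 2 + Polynomial.C 48 * Polynomial.X + Polynomial.C 768), 4096,
        by rw [hq3]; norm_num, by simp only [map_ofNat]; ring⟩ E hqE hxE y h₁ h₂
    rw [Polynomial.map_X, Polynomial.aeval_X] at hnc
    exact Fermat.Agent.S34.H61.hunr_cross_le_of_rel_X M q E A hq hqM hlev.1 hqE ⟨_, hxE⟩
      ((Polynomial.X + Polynomial.C 16) ^ 3) (hauptTwo_rel_poly n M hN) _ hS y hnc
  · haveI := hn
    have hnc := aeval_not_mem_of_both hTG hAtop _ hx₀
      ((Polynomial.X + Polynomial.C 27) * (Polynomial.X + Polynomial.C 3) ^ 3) Polynomial.X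
      (hauptThree_rel_poly n M hN)
      ⟨1, -(Polynomial.X ^ 3 + Polynomial.C 36 * Polynomial.X ^ 2 + Polynomial.C 270 * Polynomial.X
        + Polynomial.C 756), 729, by rw [hq2]; norm_num, by simp only [map_ofNat]; ring⟩
      E hqE hxE y h₁ h₂
    rw [Polynomial.map_X, Polynomial.aeval_X] at hnc
    exact Fermat.Agent.S34.H61.hunr_cross_le_of_rel_X M q E A hq hqM hlev.1 hqE ⟨_, hxE⟩
      ((Polynomial.X + Polynomial.C 27) * (Polynomial.X + Polynomial.C 3) ^ 3)
      (hauptThree_rel_poly n M hN) _ hS y hnc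

/-- **Supplier (X3) for the Hauptmodul charts** (helper43's `hbetaC_ratForm`). -/
theorem betaGlobal_haupt : BetaGlobalFor HauptB := by
  intro M q instM _ hqM hlev A hA hAtop O₁ w hTG x₀ hx₀ hB E _ _ hqE hxE
  obtain ⟨inst', hB⟩ := hB
  obtain rfl : inst' = instM := Subsingleton.elim _ _
  exact Fermat.Agent.S34.H43.hbetaC_ratForm hTG x₀ hx₀ (stdB_of_isStd (Or.inr hB)) E hxE

/-- **The regular node over the inertia field** (E-level form of leaf M6b), for the standard
base function: all three cases. -/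
theorem regularCrossLeaf : RegularCrossLeaf :=
  regularCrossLeaf_of_haupt (regularCrossFor_of_supply HauptB
    (betaSupplyFor_of_global HauptB betaGlobal_haupt) unrSupply_haupt)

/-- **Leaf (M6b), CLOSED**: at every closed point of the special fibre of the finite chart of
the standard model lying on both components, the function `u₀` has the local certificate
`HLoc ∨ HGen`. -/
theorem crossLeafB_std : CrossLeafB StdB :=
  crossLeafB_std_of_regular regularCrossLeaf

end Fermat.Agent.S34.H77
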