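/-
Program B' (S34), package L4 (Step 1 of report #2200), abstract node lemma.  helper77.  Mathlib only.

At a node of the model over the RAMIFIED base the local ring `R` has maximal ideal `(J, b, ϖ)` with
`J * b = ϖ ^ e * unit` (`e` = ramification index of the base; over the unramified base `J * b = q`).
For a section `P` through the node put `ξ = b(P) = ϖ ^ k * unit`, `0 < k < e`.  Then the
`ϖ`-saturation `𝔮` of `(b - ξ)` is a prime ideal, `R ⧸ 𝔮` is a discrete valuation ring with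
uniformiser `ϖ` (every element outside `𝔮` is `unit * ϖ ^ n` modulo `𝔮`), and `𝔮` is the ONLY
prime containing `b - ξ` and not `ϖ`.  So the horizontal part of `div (b - ξ)` is exactly the
section `P`, with multiplicity one: `b - ξ` generates `𝔮` after inverting `ϖ`.
-/
import Mathlib

set_option autoImplicit false

namespace Fermat.Agent.S34.H77

variable {R : Type*} [CommRing R]

/-- The `ϖ`-saturation `(I : ϖ^∞)` of an ideal. -/
def sat (ϖ : R) (I : Ideal R) : Ideal R where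
  carrier := {a | ∃ n : ℕ, ϖ ^ n * a ∈ I}
  add_mem' := by
    rintro a a' ⟨n, hn⟩ ⟨n', hn'⟩
    refine ⟨n + n', ?_⟩
    have h1 : ϖ ^ (n + n') * (a + a') = ϖ ^ n' * (ϖ ^ n * a) + ϖ ^ n * (ϖ ^ n' * a') := by
      rw [pow_add]; ring
    rw [h1]
    exact I.add_mem (I.mul_mem_left _ hn) (I.mul_mem_left _ hn')
  zero_mem' := ⟨0, by simp⟩
  smul_mem' := by
    rintro c a ⟨n, hn⟩
    refine ⟨n, ?_⟩
    have h1 : ϖ ^ n * (c • a) = c * (ϖ ^ n * a) := by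
      rw [smul_eq_mul]; ring
    rw [h1]
    exact I.mul_mem_left _ hn

theorem mem_sat {ϖ : R} {I : Ideal R} {a : R} : a ∈ sat ϖ I ↔ ∃ n : ℕ, ϖ ^ n * a ∈ I := Iff.rfl

theorem le_sat (ϖ : R) (I : Ideal R) : I ≤ sat ϖ I := fun a ha => ⟨0, by simpa using ha⟩

theorem mul_mem_sat {ϖ : R} {I : Ideal R} {a : R} (h : ϖ * a ∈ sat ϖ I) : a ∈ sat ϖ I := by
  obtain ⟨n, hn⟩ := h
  exact ⟨n + 1, by rw [pow_succ, mul_assoc]; exact hn⟩

theorem pow_mul_mem_sat {ϖ : R} {I : Ideal R} {a : R} (n : ℕ) (h : ϖ ^ n * a ∈ sat ϖ I) :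
    a ∈ sat ϖ I := by
  induction n with
  | zero => simpa using h
  | succ n ih =>
    apply ih
    apply mul_mem_sat
    rw [← mul_assoc, ← pow_succ']
    exact h

theorem sat_ne_top {ϖ : R} {I : Ideal R} (h : ∀ n : ℕ, ϖ ^ n ∉ I) : sat ϖ I ≠ ⊤ := by
  intro htop
  have h1 : (1 : R) ∈ sat ϖ I := by rw [htop]; exact Submodule.mem_top
  obtain ⟨n, hn⟩ := h1
  exact h n (by simpa using hn)

/-- A prime containing `I` and not `ϖ` contains the saturation. -/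
theorem sat_le_of_isPrime {ϖ : R} {I : Ideal R} {𝔭 : Ideal R} (h𝔭 : 𝔭.IsPrime) (hI : I ≤ 𝔭)
    (hϖ : ϖ ∉ 𝔭) : sat ϖ I ≤ 𝔭 := by
  rintro a ⟨n, hn⟩
  rcases h𝔭.mem_or_mem (hI hn) with h | h
  · exact absurd (h𝔭.mem_of_pow_mem n h) hϖ
  · exact h

section Node

variable [IsLocalRing R] [IsNoetherianRing R]
variable (ϖ J b ξ u₀ u₁ : R) (e k : ℕ)

omit [IsNoetherianRing R] in
/-- Modulo the saturation of `(b - ξ)`, every element of the maximal ideal is divisible by `ϖ`. -/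
theorem exists_sub_mul_mem_sat (hk : 0 < k) (hke : k < e)
    (hm : IsLocalRing.maximalIdeal R = Ideal.span {J, b, ϖ})
    (hJb : J * b = ϖ ^ e * u₀) (hξ : ξ = ϖ ^ k * u₁) (hu₁ : IsUnit u₁)
    (a : R) (ha : a ∈ IsLocalRing.maximalIdeal R) :
    ∃ c : R, a - ϖ * c ∈ sat ϖ (Ideal.span {b - ξ}) := by
  set I := sat ϖ (Ideal.span {b - ξ}) with hI
  have hbξ : b - ξ ∈ I := le_sat _ _ (Ideal.mem_span_singleton_self _)
  obtain ⟨w₁, hw₁⟩ := hu₁.exists_left_inv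
  -- `b ≡ ϖ * (ϖ^(k-1) u₁)`
  have hb : b - ϖ * (ϖ ^ (k - 1) * u₁) ∈ I := by
    have h1 : ϖ * (ϖ ^ (k - 1) * u₁) = ξ := by
      rw [hξ, ← mul_assoc, ← pow_succ']
      congr 2
      omega
    rw [h1]
    exact hbξ
  -- `J ≡ ϖ * (ϖ^(e-k-1) u₀ w₁)`
  have hJ : J - ϖ * (ϖ ^ (e - k - 1) * u₀ * w₁) ∈ I := by
    have h2 : u₁ * J - ϖ ^ (e - k) * u₀ ∈ I := by
      refine ⟨k, ?_⟩
      have h3 : ϖ ^ k * (u₁ * J - ϖ ^ (e - k) * u₀) = -J * (b - ξ) := by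
        have h4 : ϖ ^ k * ϖ ^ (e - k) = ϖ ^ e := by
          rw [← pow_add]; congr 1; omega
        calc ϖ ^ k * (u₁ * J - ϖ ^ (e - k) * u₀)
            = (ϖ ^ k * u₁) * J - (ϖ ^ k * ϖ ^ (e - k)) * u₀ := by ring
          _ = ξ * J - J * b := by rw [h4, ← hξ, hJb]
          _ = -J * (b - ξ) := by ring
      rw [h3]
      exact Ideal.mul_mem_left _ _ (Ideal.mem_span_singleton_self _)
    have h5 : J - ϖ * (ϖ ^ (e - k - 1) * u₀ * w₁) = w₁ * (u₁ * J - ϖ ^ (e - k) * u₀) := by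
      have h6 : ϖ * ϖ ^ (e - k - 1) = ϖ ^ (e - k) := by
        rw [← pow_succ']; congr 1; omega
      calc J - ϖ * (ϖ ^ (e - k - 1) * u₀ * w₁)
          = (w₁ * u₁) * J - (ϖ * ϖ ^ (e - k - 1)) * u₀ * w₁ := by rw [hw₁]; ring
        _ = w₁ * (u₁ * J - ϖ ^ (e - k) * u₀) := by rw [h6]; ring
    rw [h5]
    exact I.mul_mem_left _ h2
  rw [hm, Ideal.mem_span_insert] at ha
  obtain ⟨r₁, z, hz, rfl⟩ := ha
  rw [Ideal.mem_span_insert] at hz
  obtain ⟨r₂, z', hz', rfl⟩ := hz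
  rw [Ideal.mem_span_singleton'] at hz'
  obtain ⟨r₃, rfl⟩ := hz'
  refine ⟨r₁ * (ϖ ^ (e - k - 1) * u₀ * w₁) + r₂ * (ϖ ^ (k - 1) * u₁) + r₃, ?_⟩
  have h7 : r₁ * J + (r₂ * b + r₃ * ϖ) -
      ϖ * (r₁ * (ϖ ^ (e - k - 1) * u₀ * w₁) + r₂ * (ϖ ^ (k - 1) * u₁) + r₃) =
      r₁ * (J - ϖ * (ϖ ^ (e - k - 1) * u₀ * w₁)) + r₂ * (b - ϖ * (ϖ ^ (k - 1) * u₁)) := by ring
  rw [h7]
  exact I.add_mem (I.mul_mem_left _ hJ) (I.mul_mem_left _ hb)

/-- Every element outside the saturation is `unit * ϖ ^ n` modulo the saturation. -/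
theorem exists_unit_pow_of_not_mem_sat (hk : 0 < k) (hke : k < e)
    (hm : IsLocalRing.maximalIdeal R = Ideal.span {J, b, ϖ})
    (hJb : J * b = ϖ ^ e * u₀) (hξ : ξ = ϖ ^ k * u₁) (hu₁ : IsUnit u₁)
    (hϖ : ∀ n : ℕ, ϖ ^ n ∉ Ideal.span {b - ξ})
    (a : R) (ha : a ∉ sat ϖ (Ideal.span {b - ξ})) :
    ∃ (n : ℕ) (v : R), IsUnit v ∧ a - ϖ ^ n * v ∈ sat ϖ (Ideal.span {b - ξ}) := by
  set I := sat ϖ (Ideal.span {b - ξ}) with hI
  have hItop : I ≠ ⊤ := sat_ne_top hϖ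
  have hstep : ∀ x ∈ IsLocalRing.maximalIdeal R, ∃ c : R, x - ϖ * c ∈ I :=
    exists_sub_mul_mem_sat ϖ J b ξ u₀ u₁ e k hk hke hm hJb hξ hu₁
  -- by contradiction: `a ∈ I + (ϖ^n)` for all `n`, so `a ∈ I` by Krull
  by_contra hcon
  have hall : ∀ n : ℕ, ∃ c : R, a - ϖ ^ n * c ∈ I := by
    intro n
    induction n with
    | zero => exact ⟨a, by simp⟩
    | succ n ih =>
      obtain ⟨c, hc⟩ := ih
      have hcm : c ∈ IsLocalRing.maximalIdeal R := by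
        by_contra hcu
        have hu : IsUnit c := by
          by_contra h
          exact hcu ((IsLocalRing.mem_maximalIdeal c).mpr h)
        exact hcon ⟨n, c, hu, hc⟩
      obtain ⟨c', hc'⟩ := hstep c hcm
      refine ⟨c', ?_⟩
      have h1 : a - ϖ ^ (n + 1) * c' = (a - ϖ ^ n * c) + ϖ ^ n * (c - ϖ * c') := by
        rw [pow_succ]; ring
      rw [h1]
      exact I.add_mem hc (I.mul_mem_left _ hc')
  -- Krull intersection in `R ⧸ I`
  have hϖm : ϖ ∈ IsLocalRing.maximalIdeal R := by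
    rw [hm]
    exact Ideal.subset_span (by simp)
  apply ha
  -- Krull intersection theorem for the finite `R`-module `R ⧸ I`
  have hkr := Ideal.iInf_pow_smul_eq_bot_of_isLocalRing (R := R) (M := R ⧸ I)
    (IsLocalRing.maximalIdeal R) (Ideal.IsPrime.ne_top inferInstance)
  have hmem : (Ideal.Quotient.mk I a : R ⧸ I) ∈
      ⨅ i : ℕ, IsLocalRing.maximalIdeal R ^ i • (⊤ : Submodule R (R ⧸ I)) := by
    rw [Submodule.mem_iInf]
    intro n
    obtain ⟨c, hc⟩ := hall n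
    have h1 : (Ideal.Quotient.mk I a : R ⧸ I) = (ϖ ^ n * c) • (Ideal.Quotient.mk I 1 : R ⧸ I) := by
      rw [Algebra.smul_def, map_one, mul_one]
      exact (Ideal.Quotient.mk_eq_mk_iff_sub_mem _ _).mpr hc
    rw [h1]
    exact Submodule.smul_mem_smul (Ideal.mul_mem_right _ _ (Ideal.pow_mem_pow hϖm n))
      Submodule.mem_top
  rw [hkr] at hmem
  exact Ideal.Quotient.eq_zero_iff_mem.mp ((Submodule.mem_bot R).mp hmem)

/-- **The node lemma (L4).**  The `ϖ`-saturation `𝔮` of `(b - ξ)` is prime, every element outside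
`𝔮` is `unit * ϖ ^ n` modulo `𝔮` (so `R ⧸ 𝔮` is a discrete valuation ring with uniformiser `ϖ`),
and `𝔮` is the only prime of `R` containing `b - ξ` and not `ϖ`. -/
theorem node_section (hk : 0 < k) (hke : k < e)
    (hm : IsLocalRing.maximalIdeal R = Ideal.span {J, b, ϖ})
    (hJb : J * b = ϖ ^ e * u₀) (hξ : ξ = ϖ ^ k * u₁) (hu₁ : IsUnit u₁)
    (hϖ : ∀ n : ℕ, ϖ ^ n ∉ Ideal.span {b - ξ}) :
    (sat ϖ (Ideal.span {b - ξ})).IsPrime ∧
    (∀ a : R, a ∉ sat ϖ (Ideal.span {b - ξ}) →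
      ∃ (n : ℕ) (v : R), IsUnit v ∧ a - ϖ ^ n * v ∈ sat ϖ (Ideal.span {b - ξ})) ∧
    (∀ 𝔭 : Ideal R, 𝔭.IsPrime → b - ξ ∈ 𝔭 → ϖ ∉ 𝔭 → 𝔭 = sat ϖ (Ideal.span {b - ξ})) := by
  set I := sat ϖ (Ideal.span {b - ξ}) with hI
  have hItop : I ≠ ⊤ := sat_ne_top hϖ
  have hrepr : ∀ a : R, a ∉ I → ∃ (n : ℕ) (v : R), IsUnit v ∧ a - ϖ ^ n * v ∈ I :=
    exists_unit_pow_of_not_mem_sat ϖ J b ξ u₀ u₁ e k hk hke hm hJb hξ hu₁ hϖ
  have hunit : ∀ v : R, IsUnit v → v ∉ I := fun v hv hvI => hItop (Ideal.eq_top_of_isUnit_mem _ hvI hv)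
  refine ⟨?_, hrepr, ?_⟩
  · refine ⟨hItop, ?_⟩
    intro x y hxy
    by_contra hcon
    rw [not_or] at hcon
    obtain ⟨n, v, hv, hxv⟩ := hrepr x hcon.1
    obtain ⟨n', v', hv', hyv⟩ := hrepr y hcon.2
    have h1 : ϖ ^ (n + n') * (v * v') ∈ I := by
      have h2 : ϖ ^ (n + n') * (v * v') =
          x * y - (x - ϖ ^ n * v) * y - ϖ ^ n * v * (y - ϖ ^ n' * v') := by
        rw [pow_add]; ring
      rw [h2]
      exact I.sub_mem (I.sub_mem hxy (I.mul_mem_right _ hxv)) (I.mul_mem_left _ hyv)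
    exact hunit _ (hv.mul hv') (pow_mul_mem_sat _ h1)
  · intro 𝔭 h𝔭 hb𝔭 hϖ𝔭
    have hle : I ≤ 𝔭 := sat_le_of_isPrime h𝔭
      ((Ideal.span_singleton_le_iff_mem _).mpr hb𝔭) hϖ𝔭
    refine le_antisymm ?_ hle
    intro a ha
    by_contra haI
    obtain ⟨n, v, hv, hav⟩ := hrepr a haI
    have h1 : ϖ ^ n * v ∈ 𝔭 := by
      have h2 : ϖ ^ n * v = a - (a - ϖ ^ n * v) := by ring
      rw [h2]
      exact 𝔭.sub_mem ha (hle hav)
    rcases h𝔭.mem_or_mem h1 with h | h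
    · exact hϖ𝔭 (h𝔭.mem_of_pow_mem n h)
    · exact h𝔭.ne_top (Ideal.eq_top_of_isUnit_mem _ h hv)

/-- Consumer form: if the section is given by a ring homomorphism `φ : R → A₀` into a domain with
`φ b = φ ξ` and `φ ϖ ≠ 0` (evaluation at the point `P`), then `ker φ` IS the saturation of
`(b - ξ)`: every function vanishing at `P` is, up to a power of `ϖ`, a multiple of `b - ξ`. -/
theorem ker_eq_sat {A₀ : Type*} [CommRing A₀] [IsDomain A₀] (φ : R →+* A₀)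
    (hk : 0 < k) (hke : k < e)
    (hm : IsLocalRing.maximalIdeal R = Ideal.span {J, b, ϖ})
    (hJb : J * b = ϖ ^ e * u₀) (hξ : ξ = ϖ ^ k * u₁) (hu₁ : IsUnit u₁)
    (hφb : φ b = φ ξ) (hφϖ : φ ϖ ≠ 0) :
    RingHom.ker φ = sat ϖ (Ideal.span {b - ξ}) ∧
      ∀ a : R, φ a = 0 → ∃ (n : ℕ) (c : R), ϖ ^ n * a = (b - ξ) * c := by
  have hbker : b - ξ ∈ RingHom.ker φ := by
    rw [RingHom.mem_ker, map_sub, hφb, sub_self]
  have hϖker : ϖ ∉ RingHom.ker φ := fun h => hφϖ ((RingHom.mem_ker).mp h)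
  have hϖ : ∀ n : ℕ, ϖ ^ n ∉ Ideal.span {b - ξ} := by
    intro n hn
    have h1 : ϖ ^ n ∈ RingHom.ker φ := (Ideal.span_singleton_le_iff_mem _).mpr hbker hn
    rw [RingHom.mem_ker, map_pow] at h1
    exact hφϖ (pow_eq_zero_iff (M₀ := A₀) (n := n) (by
      rintro rfl
      simp at h1) |>.mp h1)
  have hker := (node_section ϖ J b ξ u₀ u₁ e k hk hke hm hJb hξ hu₁ hϖ).2.2 (RingHom.ker φ)
    (RingHom.ker_isPrime φ) hbker hϖker
  refine ⟨hker, fun a ha => ?_⟩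
  have h1 : a ∈ sat ϖ (Ideal.span {b - ξ}) := by
    rw [← hker]
    exact (RingHom.mem_ker).mpr ha
  obtain ⟨n, hn⟩ := h1
  obtain ⟨c, hc⟩ := Ideal.mem_span_singleton'.mp hn
  exact ⟨n, c, by rw [← hc]; ring⟩

end Node

end Fermat.Agent.S34.H77
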