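/-
S34 / B' (helper77): the two `PointOK` clauses of `H30.LocalModelStatement` from ONE open
hypothesis, in the vocabulary of helper10's (M3) (`H10.vGood_of_dsetup`) and helper42's (M6a).

`K` the level-`M'` field, `L` the level-`qM'` field, both over the (ramified) base `A₀`;
`C₁ = chart A₀ (α x₀)`, `C₂ = chart A₀ (α x₀)⁻¹`.

* `pointOK_chart` : every maximal ideal `x ∋ ϖ` of `C₁` has a local certificate, provided the
  crossing points (`x ⊇ C₁ ∩ m(V₁)`, `x ⊇ C₁ ∩ m(V₂)`) have saturated generators (`hcross`, = the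
  conclusion of `H77.crossing_hgen_atPrime`); the other points are helper42's
  `pointUFD_chart_of_not_both`.
* `pointOK_chartInv` : every maximal ideal `x ∋ ϖ` of `C₂` has a local certificate: the cusps are
  helper42's `pointUFD_chartInv_of_cusp`, all other points are transferred from `C₁`
  (`H77.pointOK_of_glue`).
-/
import Fermat.Agent.S34.H42.OneCompChart
import Fermat.Agent.S34.H77.ChartTransfer

set_option autoImplicit false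
set_option linter.style.haveILetI false

noncomputable section

namespace Fermat.Agent.S34.H77

open Fermat.Agent.S28 Fermat.Agent.S18 Fermat.Agent.S18.H19

variable {A₀ : Type} [CommRing A₀] [IsDomain A₀] [IsDiscreteValuationRing A₀] [CharZero A₀]
  {K L : Type} [Field K] [Field L] [Algebra A₀ K] [Algebra A₀ L] [Algebra K L]
  [IsScalarTower A₀ K L] [FaithfulSMul A₀ K]

/-- **The local certificates on the finite chart** from the crossing points. -/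
theorem pointOK_chart (ϖ : A₀) (hϖ : Irreducible ϖ)
    (O₀ : ValuationSubring K) (x₀ : K) (hS : DSetup A₀ O₀ x₀)
    (V₁ V₂ : ValuationSubring L)
    (hc₁ : ∀ v : K, algebraMap K L v ∈ V₁ ↔ v ∈ O₀)
    (hres₁ : ∀ g ∈ V₁, ∃ v ∈ O₀, g - algebraMap K L v ∈ V₁.nonunits)
    (β : K →+* L) (hβA : ∀ a : A₀, β (algebraMap A₀ K a) = algebraMap A₀ L a)
    (hβV : ∀ v : K, β v ∈ V₂ ↔ v ∈ O₀)
    (hresβ : ∀ g ∈ V₂, ∃ v ∈ O₀, g - β v ∈ V₂.nonunits)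
    [IsNoetherianRing ↥(chart A₀ (algebraMap K L x₀))]
    [IsIntegrallyClosed ↥(chart A₀ (algebraMap K L x₀))]
    (hfrac : ∀ y : L, ∃ a ∈ chart A₀ (algebraMap K L x₀), ∃ b ∈ chart A₀ (algebraMap K L x₀),
      b ≠ 0 ∧ y = a / b)
    (hCV₁ : ∀ c ∈ chart A₀ (algebraMap K L x₀), c ∈ V₁)
    (hCV₂ : ∀ c ∈ chart A₀ (algebraMap K L x₀), c ∈ V₂)
    (hu₁ : ∀ y : L, y ∈ V₁.nonunits ↔ ∃ d ∈ V₁, y = ϖ • d)
    (hu₂ : ∀ y : L, y ∈ V₂.nonunits ↔ ∃ d ∈ V₂, y = ϖ • d)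
    (hsat : ∀ y : L, y ∈ V₁ → y ∈ V₂ → ϖ • y ∈ chart A₀ (algebraMap K L x₀) →
      y ∈ chart A₀ (algebraMap K L x₀))
    (hjq : β x₀ ∈ chart A₀ (algebraMap K L x₀))
    (u : L)
    (hcross : ∀ (x : Ideal ↥(chart A₀ (algebraMap K L x₀))) (_ : x.IsMaximal),
      algebraMap A₀ ↥(chart A₀ (algebraMap K L x₀)) ϖ ∈ x →
      (∀ c : ↥(chart A₀ (algebraMap K L x₀)), (c : L) ∈ V₁.nonunits → c ∈ x) →
      (∀ c : ↥(chart A₀ (algebraMap K L x₀)), (c : L) ∈ V₂.nonunits → c ∈ x) →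
      H30.HGen (chart A₀ (algebraMap K L x₀)) x
        (algebraMap A₀ ↥(chart A₀ (algebraMap K L x₀)) ϖ) u)
    (x : Ideal ↥(chart A₀ (algebraMap K L x₀))) (hx : x.IsMaximal)
    (hϖx : algebraMap A₀ ↥(chart A₀ (algebraMap K L x₀)) ϖ ∈ x) :
    H30.PointOK (chart A₀ (algebraMap K L x₀)) x hx.isPrime
      (algebraMap A₀ ↥(chart A₀ (algebraMap K L x₀)) ϖ) u := by
  by_cases hb : (∀ c : ↥(chart A₀ (algebraMap K L x₀)), (c : L) ∈ V₁.nonunits → c ∈ x) ∧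
      (∀ c : ↥(chart A₀ (algebraMap K L x₀)), (c : L) ∈ V₂.nonunits → c ∈ x)
  · exact Or.inr (hcross x hx hϖx hb.1 hb.2)
  · exact Or.inl (H42.pointUFD_chart_of_not_both ϖ hϖ O₀ x₀ hS V₁ V₂ hc₁ hres₁ β hβA hβV hresβ
      hfrac hCV₁ hCV₂ hu₁ hu₂ hsat hjq x hx hϖx hb)

/-- **The local certificates on the chart at infinity** from those on the finite chart
(`x₀ = j`: the cusps are factorial, the other points are points of the finite chart). -/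
theorem pointOK_chartInv (ϖ : A₀) (hϖ : Irreducible ϖ)
    (O₀ : ValuationSubring K) (x₀ : K) (hS : DSetup A₀ O₀ x₀) (hS' : DSetup A₀ O₀ x₀⁻¹)
    (V₁ V₂ : ValuationSubring L)
    (hc₁ : ∀ v : K, algebraMap K L v ∈ V₁ ↔ v ∈ O₀)
    (hres₁ : ∀ g ∈ V₁, ∃ v ∈ O₀, g - algebraMap K L v ∈ V₁.nonunits)
    (β : K →+* L) (hβA : ∀ a : A₀, β (algebraMap A₀ K a) = algebraMap A₀ L a)
    (hβV : ∀ v : K, β v ∈ V₂ ↔ v ∈ O₀)
    (hresβ : ∀ g ∈ V₂, ∃ v ∈ O₀, g - β v ∈ V₂.nonunits)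
    [IsNoetherianRing ↥(chart A₀ (algebraMap K L x₀)⁻¹)]
    [IsIntegrallyClosed ↥(chart A₀ (algebraMap K L x₀)⁻¹)]
    (hfrac₁ : ∀ y : L, ∃ a ∈ chart A₀ (algebraMap K L x₀), ∃ b ∈ chart A₀ (algebraMap K L x₀),
      b ≠ 0 ∧ y = a / b)
    (hfrac : ∀ y : L, ∃ a ∈ chart A₀ (algebraMap K L x₀)⁻¹,
      ∃ b ∈ chart A₀ (algebraMap K L x₀)⁻¹, b ≠ 0 ∧ y = a / b)
    (hglue : ∀ y : L, (∃ n : ℕ, algebraMap K L x₀ ^ n * y ∈ chart A₀ (algebraMap K L x₀)) ↔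
      (∃ n : ℕ, (algebraMap K L x₀)⁻¹ ^ n * y ∈ chart A₀ (algebraMap K L x₀)⁻¹))
    (hCV₁ : ∀ c ∈ chart A₀ (algebraMap K L x₀)⁻¹, c ∈ V₁)
    (hCV₂ : ∀ c ∈ chart A₀ (algebraMap K L x₀)⁻¹, c ∈ V₂)
    (hu₁ : ∀ y : L, y ∈ V₁.nonunits ↔ ∃ d ∈ V₁, y = ϖ • d)
    (hu₂ : ∀ y : L, y ∈ V₂.nonunits ↔ ∃ d ∈ V₂, y = ϖ • d)
    (hsat : ∀ y : L, y ∈ V₁ → y ∈ V₂ → ϖ • y ∈ chart A₀ (algebraMap K L x₀)⁻¹ →
      y ∈ chart A₀ (algebraMap K L x₀)⁻¹)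
    {q : ℕ} (hq : q.Prime) {Φ : Polynomial (Polynomial ℤ)} (hΦ : IsModPoly q Φ)
    (h12 : (evalY (algebraMap K L x₀) Φ).eval (β x₀) = 0)
    (h21 : (evalY (β x₀) Φ).eval (algebraMap K L x₀) = 0)
    (hk₁ : β x₀ - algebraMap K L x₀ ^ q ∈ V₁.nonunits)
    (hk₂ : algebraMap K L x₀ - β x₀ ^ q ∈ V₂.nonunits)
    (u : L)
    (h₁ : ∀ (x₁ : Ideal ↥(chart A₀ (algebraMap K L x₀))) (hx₁ : x₁.IsMaximal),
      algebraMap A₀ ↥(chart A₀ (algebraMap K L x₀)) ϖ ∈ x₁ →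
      H30.PointOK (chart A₀ (algebraMap K L x₀)) x₁ hx₁.isPrime
        (algebraMap A₀ ↥(chart A₀ (algebraMap K L x₀)) ϖ) u)
    (x : Ideal ↥(chart A₀ (algebraMap K L x₀)⁻¹)) (hx : x.IsMaximal)
    (hϖx : algebraMap A₀ ↥(chart A₀ (algebraMap K L x₀)⁻¹) ϖ ∈ x) :
    H30.PointOK (chart A₀ (algebraMap K L x₀)⁻¹) x hx.isPrime
      (algebraMap A₀ ↥(chart A₀ (algebraMap K L x₀)⁻¹) ϖ) u := by
  have hx₀ : x₀ ≠ 0 := H42.dsetup_ne_zero O₀ x₀ hS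
  have hj₁ : algebraMap K L x₀ ≠ 0 := (map_ne_zero_iff _ (algebraMap K L).injective).mpr hx₀
  by_cases hsx : (⟨(algebraMap K L x₀)⁻¹, self_mem_chart A₀ _⟩ :
      ↥(chart A₀ (algebraMap K L x₀)⁻¹)) ∈ x
  · exact Or.inl (H42.pointUFD_chartInv_of_cusp ϖ hϖ O₀ x₀ hS hS' V₁ V₂ hc₁ hres₁ β hβA hβV
      hresβ hfrac hCV₁ hCV₂ hu₁ hu₂ hsat hq hΦ h12 h21 hk₁ hk₂ x hx hϖx hsx)
  · haveI : IsFractionRing ↥(chart A₀ (algebraMap K L x₀)) L :=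
      H54.isFractionRing_of_forall_div _ hfrac₁
    haveI : IsFractionRing ↥(chart A₀ (algebraMap K L x₀)⁻¹) L :=
      H54.isFractionRing_of_forall_div _ hfrac
    exact pointOK_of_glue ϖ hϖ (algebraMap K L x₀) hj₁ (chart A₀ (algebraMap K L x₀))
      (chart A₀ (algebraMap K L x₀)⁻¹) (self_mem_chart A₀ _) (self_mem_chart A₀ _)
      (fun _ h => h) hglue u h₁ x hx hϖx hsx

end Fermat.Agent.S34.H77
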