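/-
Program B' (S34), helper77: the root for the STANDARD base function (`H30.BaseSpec`), with the
crossing leaf at levels WITHOUT ELLIPTIC ELEMENTS.

`H30.CrossLeaf2` (Leaves2.lean) has no hypothesis excluding the elliptic points of the good level
`M`; the regular node at a crossing point is only available when `Γ₀(M)` has no elliptic element
(`H92.NoElliptic M`, which the root has from the auxiliary prime `r ≡ 11 mod 12`).  So the crossing
leaf to prove is `CrossLeafStd := CrossLeafB BStd` (= `H30.CrossLeaf2` with the extra hypothesis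
`LevelOK M q`), and the root from the leaves of `Leaves2.lean` with `CrossLeafStd` in place of
`CrossLeaf2` is `b1Statement_of_leavesStd`.
-/
import Fermat.Agent.S34.H77.RootB
import Fermat.Agent.S34.H30.Leaves2

set_option autoImplicit false
set_option linter.style.haveILetI false
set_option linter.unusedSectionVars false

open AlgebraicCurve ModularCurve

noncomputable section

namespace Fermat.Agent.S34.H77

open Fermat.Agent.S34.H27 Fermat.Agent.S34.H10 Fermat.Agent.S34.H7
  Fermat.Agent.S18 Fermat.Agent.S18.H74 Fermat.Agent.S18.H19 Fermat.Agent.S34.H19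
  Fermat.Agent.S34.H61 Fermat.Agent.S34.H64 Fermat.Agent.S34.H30

/-- The predicate "`x₀` is the standard base function" (`H30.BaseSpec`), in the shape of
`RootB.lean`. -/
def BStd : (M q : ℕ) → FN M → Prop :=
  fun M q x₀ => ∃ h : NeZero M, @BaseSpec M q h x₀

theorem bStd_iff (M q : ℕ) [h : NeZero M] (x₀ : FN M) : BStd M q x₀ ↔ BaseSpec M q x₀ :=
  ⟨fun ⟨_, hs⟩ => hs, fun hs => ⟨h, hs⟩⟩

/-- **Leaf (M6b), final form**: `H30.CrossLeaf2` at the levels without elliptic elements
(`LevelOK M q`). -/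
def CrossLeafStd : Prop := CrossLeafB BStd

theorem crossLeafStd_of (h : CrossLeaf2) : CrossLeafStd :=
  fun M q _ _ hqM _ A hA hAtop O₁ w hTG x₀ hx₀ hB K₀ _ _ ϖ hϖ j hj σ m u₀ hu₀ hD hR =>
    h M q hqM A hA hAtop O₁ w hTG x₀ hx₀ ((bStd_iff M q x₀).1 hB) K₀ ϖ hϖ j hj σ m u₀ hu₀ hD hR

/-- **The root of Program B'** from the leaves of `Leaves2.lean`, with the crossing leaf at the
levels without elliptic elements. -/
theorem b1Statement_of_leavesStd (hbase : BaseLeaf2) (hsemi : SemiLeaf) (hone : OneCompLeaf2)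
    (hcusp : CuspLeaf2) (hcross : CrossLeafStd)
    (N q p : ℕ) [NeZero N] (hq : q.Prime) (hp : p.Prime) (hqp : q ≠ p) (hqN : q ∣ N)
    (hq2 : ¬ q ^ 2 ∣ N) : B1Statement N q p :=
  b1Statement_of_modelLeavesB BStd
    (fun M q _ _ hqM hlev A hA => by
      obtain ⟨x₀, hx₀, hs⟩ := hbase M q hqM hlev.2.1 hlev.2.2 A hA
      exact ⟨x₀, hx₀, (bStd_iff M q x₀).2 hs⟩)
    descentLeaf (chartLeafB_of BStd chartLeaf) (semiLeafB_of BStd hsemi)
    (fun M q _ _ hqM _ A hA hAtop O₁ w hTG x₀ hx₀ hB K₀ _ _ ϖ hϖ j hj σ =>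
      hone M q hqM A hA hAtop O₁ w hTG x₀ hx₀ ((bStd_iff M q x₀).1 hB) K₀ ϖ hϖ j hj σ)
    (fun M q _ _ hqM _ A hA hAtop O₁ w hTG x₀ hx₀ hB K₀ _ _ ϖ hϖ j hj σ =>
      hcusp M q hqM A hA hAtop O₁ w hTG x₀ hx₀ ((bStd_iff M q x₀).1 hB) K₀ ϖ hϖ j hj σ)
    hcross N q p hq hp hqp hqN hq2

end Fermat.Agent.S34.H77
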